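import Fermat.Agent.EC.Rep.Residual
import Fermat.Agent.EC.Rep.Cyclotomic
import Fermat.Agent.Carayol.Omega.ChangeVar

/-!
# Primes `ℓ ≡ 1 (mod M)` with `a_ℓ ≢ 2`
-/

set_option autoImplicit false

noncomputable section

namespace Fermat.Agent.LevelRaising

open scoped WeierstrassCurve.Affine
open WeierstrassCurve WeierstrassCurve.Affine WeierstrassCurve.Affine.Point
open Fermat.Agent.Carayol.Omega (oldX oldY)
open Module

local notation "Q̄" => AlgebraicClosure ℚ
local notation "GQ" => AlgebraicClosure ℚ ≃ₐ[ℚ] AlgebraicClosure ℚ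

section Transfer

/-- points of equal curves -/
def pointCongr {F : Type*} [Field F] [DecidableEq F] {X Y : WeierstrassCurve F} (h : X = Y) :
    X.toAffine.Point ≃+ Y.toAffine.Point := by
  subst h
  exact AddEquiv.refl _

theorem pointCongr_some {F : Type*} [Field F] [DecidableEq F] {X Y : WeierstrassCurve F}
    (h : X = Y) {x y : F} (hx : X.toAffine.Nonsingular x y) :
    pointCongr h (.some _ _ hx) = .some x y (h ▸ hx) := by
  subst h
  rfl

theorem point_some_congr {F : Type*} [Field F] {X : WeierstrassCurve F} {x y x' y' : F}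
    (hx : x = x') (hy : y = y') (h : X.toAffine.Nonsingular x y)
    (h' : X.toAffine.Nonsingular x' y') :
    (Affine.Point.some x y h : X.toAffine.Point) = .some x' y' h' := by
  subst hx hy; rfl

theorem galoisRepIsIrreducible_of_variableChange (E : WeierstrassCurve ℚ) [E.IsElliptic]
    (C : VariableChange ℚ) (p : ℕ) (hirr : GaloisRepIsIrreducible (K := Q̄) ℚ E p) :
    GaloisRepIsIrreducible (K := Q̄) ℚ (C • E) p := by
  set φ : ℚ →+* Q̄ := algebraMap ℚ Q̄
  have hXY : (C • E).map φ = C.map φ • E.map φ := (map_variableChange E C φ).symm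
  have : (E.map φ).IsElliptic := inferInstance
  let Φ : ((C • E)⁄Q̄).Point ≃+ (E⁄Q̄).Point :=
    (pointCongr hXY).trans (Carayol.Omega.pointEquiv (C.map φ) (E.map φ))
  have hΦ : ∀ (σ : GQ) (P : ((C • E)⁄Q̄).Point), Φ (σ • P) = σ • Φ P := by
    intro σ P
    cases P with
    | zero =>
      rw [algEquiv_smul_def, algEquiv_smul_def]
      change Φ (Point.map σ.toAlgHom 0) = Point.map σ.toAlgHom (Φ 0)
      rw [_root_.map_zero, _root_.map_zero, _root_.map_zero]
    | some x y h =>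
      rw [algEquiv_smul_def, algEquiv_smul_def, Point.map_some]
      show Carayol.Omega.pointEquiv (C.map φ) (E.map φ) (pointCongr hXY (.some _ _ _)) =
        Point.map σ.toAlgHom (Carayol.Omega.pointEquiv (C.map φ) (E.map φ) (pointCongr hXY (.some _ _ h)))
      rw [pointCongr_some, pointCongr_some, Carayol.Omega.pointEquiv_some, Carayol.Omega.pointEquiv_some]
      refine Eq.trans ?_ (Point.map_some (f := σ.toAlgHom) _).symm
      refine point_some_congr (X := E.map φ) ?_ ?_ _ _ <;> simp [oldX, oldY, φ]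
  let e : Submodule.torsionBy ℤ ((C • E)⁄Q̄).Point p ≃+ Submodule.torsionBy ℤ (E⁄Q̄).Point p :=
    { toFun := fun x => ⟨Φ x.1, by
        rw [Submodule.mem_torsionBy_iff, ← map_zsmul, (Submodule.mem_torsionBy_iff _ _).mp x.2,
          _root_.map_zero]⟩
      invFun := fun x => ⟨Φ.symm x.1, by
        rw [Submodule.mem_torsionBy_iff, ← map_zsmul, (Submodule.mem_torsionBy_iff _ _).mp x.2,
          _root_.map_zero]⟩
      left_inv := fun x => Subtype.ext (Φ.symm_apply_apply x.1)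
      right_inv := fun x => Subtype.ext (Φ.apply_symm_apply x.1)
      map_add' := fun x y => Subtype.ext (map_add Φ x.1 y.1) }
  have he : ∀ (σ : GQ) x, e (σ • x) = σ • e x := fun σ x => Subtype.ext (hΦ σ x.1)
  let L := e.toAddMonoidHom.toZModLinearMap p
  have hL : Function.Bijective L := e.bijective
  obtain ⟨hnt, hsimple⟩ := hirr
  refine ⟨e.toEquiv.nontrivial, fun N hN => ?_⟩
  have hst : IsGaloisStable ℚ (N.map L) := by
    rintro σ x ⟨z, hz, rfl⟩
    exact ⟨σ • z, hN σ z hz, he σ z⟩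
  rcases hsimple (N.map L) hst with h | h
  · left
    exact (Submodule.map_injective_of_injective hL.1) (h.trans (Submodule.map_bot L).symm)
  · right
    refine Submodule.map_injective_of_injective hL.1 (h.trans ?_)
    rw [Submodule.map_top, LinearMap.range_eq_top.mpr hL.2]

theorem modRepIsIrreducible_of_model {E : WeierstrassCurve ℚ} [E.IsElliptic] {W : WeierstrassCurve ℤ}
    (hW : W.IsIntegralModelOf E) {p : ℕ}
    (hirr : GaloisRepIsIrreducible (K := Q̄) ℚ E p) :
    W.Δ ≠ 0 ∧ W.ModRepIsIrreducible p := by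
  obtain ⟨C, hC⟩ := hW
  refine ⟨fun h0 => ?_, ?_⟩
  · have : (W.map (Int.castRingHom ℚ)).IsElliptic := hC ▸ inferInstance
    have h := this.isUnit.ne_zero
    simp [h0] at h
  · show GaloisRepIsIrreducible (K := Q̄) ℚ (W.map (Int.castRingHom ℚ)) p
    rw [← hC]
    exact galoisRepIsIrreducible_of_variableChange E C p hirr

end Transfer

section Cyclotomic

/-- The cyclotomic character modulo `M`. -/
def cycloChar (M : ℕ) [NeZero M] : GQ →* (ZMod M)ˣ where
  toFun σ := modularCyclotomicCharacter Q̄ (IsAlgClosed.card_rootsOfUnity_eq Q̄ M) (σ : Q̄ ≃+* Q̄)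
  map_one' := map_one (modularCyclotomicCharacter Q̄ (IsAlgClosed.card_rootsOfUnity_eq Q̄ M))
  map_mul' σ τ := map_mul (modularCyclotomicCharacter Q̄ (IsAlgClosed.card_rootsOfUnity_eq Q̄ M))
    (σ : Q̄ ≃+* Q̄) (τ : Q̄ ≃+* Q̄)

theorem cycloChar_factors (M : ℕ) [NeZero M] :
    ∃ L : IntermediateField ℚ Q̄, FiniteDimensional ℚ L ∧
      ∀ σ : GQ, (∀ x ∈ L, σ x = x) → cycloChar M σ = 1 := by
  obtain ⟨ζ, hζ⟩ : ∃ ζ : Q̄, IsPrimitiveRoot ζ M :=
    HasEnoughRootsOfUnity.exists_primitiveRoot Q̄ M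
  refine ⟨IntermediateField.adjoin ℚ {ζ},
    IntermediateField.adjoin.finiteDimensional (Algebra.IsIntegral.isIntegral ζ), fun σ hσ => ?_⟩
  apply Units.ext
  show ((modularCyclotomicCharacter Q̄ _ (σ : Q̄ ≃+* Q̄) : (ZMod M)ˣ) : ZMod M) = _
  rw [Arith.modularCyclotomicCharacter_eq_natCast _ (c := 1) fun t ht => by
    obtain ⟨i, -, rfl⟩ := hζ.eq_pow_of_pow_eq_one ht
    rw [pow_one, map_pow]
    exact congrArg (· ^ i) (hσ ζ (IntermediateField.subset_adjoin ℚ _ (Set.mem_singleton ζ)))]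
  simp

theorem cycloChar_castHom {M p : ℕ} [NeZero M] [NeZero p] (hpM : p ∣ M) {σ : GQ}
    (h : cycloChar M σ = 1) : cycloChar p σ = 1 := by
  apply Units.ext
  show ((modularCyclotomicCharacter Q̄ _ (σ : Q̄ ≃+* Q̄) : (ZMod p)ˣ) : ZMod p) = _
  rw [Arith.modularCyclotomicCharacter_eq_natCast _ (c := 1) fun t ht => ?_]
  · simp
  have ht' : t ^ M = 1 := by
    obtain ⟨d, rfl⟩ := hpM
    rw [pow_mul, ht, one_pow]
  have hs := modularCyclotomicCharacter.spec Q̄ (IsAlgClosed.card_rootsOfUnity_eq Q̄ M)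
    (σ : Q̄ ≃+* Q̄) (t := (rootsOfUnity.mkOfPowEq t ht' : rootsOfUnity M Q̄))
    (rootsOfUnity.mkOfPowEq t ht').2
  rw [show modularCyclotomicCharacter Q̄ _ (σ : Q̄ ≃+* Q̄) = cycloChar M σ from rfl, h] at hs
  rw [pow_one]
  refine hs.trans ?_
  rcases eq_or_ne M 1 with rfl | hM
  · simp only [pow_one] at ht'
    simp [ht']
  · rw [Units.val_one, ZMod.val_one'' hM, pow_one]
    rfl

end Cyclotomic

section Group

variable {k : Type} [Field k] {ρ : ResidualGaloisRep k} {c : GQ}

/-- For an odd irreducible representation, a normal subgroup with abelian quotient and trivial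
determinant contains an element of trace different from two. -/
theorem exists_trace_ne_two (h2 : (2 : k) ≠ 0) (hc : c * c = 1)
    (hdet : LinearMap.det (ρ.ρ c) = -1) (hirr : ρ.IsIrreducible) {A : Type*} [CommGroup A]
    (χ : GQ →* A) (hχ : ∀ σ, χ σ = 1 → LinearMap.det (ρ.ρ σ) = 1) :
    ∃ σ : GQ, χ σ = 1 ∧ LinearMap.trace k ρ.V (ρ.ρ σ) ≠ 2 := by
  by_contra hno
  push Not at hno
  obtain ⟨b, hb0, hb1⟩ := EC.Rep.exists_involution_basis ρ h2 hc hdet
  set M : GQ → Matrix (Fin 2) (Fin 2) k := fun σ => LinearMap.toMatrix b b (ρ.ρ σ) with hM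
  have hmul : ∀ σ τ, M (σ * τ) = M σ * M τ := fun σ τ => by
    simp only [hM, map_mul, LinearMap.toMatrix_mul]
  have hone : M 1 = 1 := by simp [hM]
  have hMc : M c = !![1, 0; 0, -1] := by
    ext i j
    fin_cases i <;> fin_cases j <;> simp [hM, LinearMap.toMatrix_apply, hb0, hb1]
  have hH : ∀ σ, χ σ = 1 → (M σ).trace = 2 ∧ (M σ).det = 1 := fun σ hσ => by
    simp only [hM, ← LinearMap.trace_eq_matrix_trace, LinearMap.det_toMatrix]
    exact ⟨hno σ hσ, hχ σ hσ⟩
  have hnorm : ∀ σ h, χ h = 1 → χ (σ * h * σ⁻¹) = 1 := fun σ h hh => by simp [hh]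
  -- elements of the kernel are unipotent triangular
  have hshape : ∀ h, χ h = 1 → M h 0 0 = 1 ∧ M h 1 1 = 1 ∧ M h 0 1 * M h 1 0 = 0 := by
    intro h hh
    obtain ⟨ht, hd⟩ := hH h hh
    obtain ⟨ht2, -⟩ := hH (h * (c * h * c⁻¹)) (by rw [map_mul, hh, hnorm c h hh, one_mul])
    rw [show c⁻¹ = c from inv_eq_of_mul_eq_one_right hc, hmul, hmul, hmul, hMc,
      Matrix.trace_fin_two] at ht2
    simp [Matrix.mul_apply, Matrix.vecMul, dotProduct, Fin.sum_univ_two] at ht2
    rw [Matrix.trace_fin_two] at ht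
    rw [Matrix.det_fin_two] at hd
    have hbc : M h 0 1 * M h 1 0 = 0 :=
      mul_left_cancel₀ (mul_ne_zero h2 h2) (by
        linear_combination -ht2 - 2 * hd + (M h 0 0 + M h 1 1 + 2) * ht)
    have h00 : (M h 0 0 - 1) ^ 2 = 0 := by
      linear_combination (M h 0 0) * ht - hd - hbc
    have e00 : M h 0 0 = 1 := sub_eq_zero.mp (pow_eq_zero_iff (two_ne_zero) |>.mp h00)
    exact ⟨e00, by linear_combination ht - e00, hbc⟩
  -- each of the two off diagonal entries vanishes on the kernel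
  have htriv : ∀ i j : Fin 2, i ≠ j → ∀ h, χ h = 1 → M h i j = 0 := by
    intro i j hij h hh
    by_contra hne
    have hall : ∀ g, χ g = 1 → M g j i = 0 := by
      intro g hg
      obtain ⟨a0, a1, a2⟩ := hshape h hh
      obtain ⟨b0, b1, b2⟩ := hshape g hg
      have hij0 : M h j i = 0 := by
        fin_cases i <;> fin_cases j <;>
          first | exact absurd rfl hij
                | exact (mul_eq_zero.mp a2).resolve_left hne
                | exact (mul_eq_zero.mp a2).resolve_right hne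
      have ht := (hH (h * g) (by rw [map_mul, hh, hg, one_mul])).1
      rw [hmul, Matrix.trace_fin_two, Matrix.mul_apply, Matrix.mul_apply, Fin.sum_univ_two,
        Fin.sum_univ_two, a0, a1, b0, b1] at ht
      have hp : M h i j * M g j i = 0 := by
        fin_cases i <;> fin_cases j <;>
          first | exact absurd rfl hij
                | (simp only [Fin.zero_eta, Fin.mk_one] at hij0 ⊢; rw [hij0] at ht;
                   linear_combination ht)
      exact (mul_eq_zero.mp hp).resolve_left hne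
    -- the common fixed line is stable
    refine EC.Rep.stable_span_singleton_of_repr_eq_zero b hij (fun σ => ?_) hirr
    have e : M h * M σ = M σ * M (σ⁻¹ * h * σ) := by
      rw [← hmul, ← hmul]; congr 1; group
    have e' := congrFun (congrFun e i) i
    obtain ⟨d0, d1, -⟩ := hshape (σ⁻¹ * h * σ) (by simpa using hnorm σ⁻¹ h hh)
    have hd : M (σ⁻¹ * h * σ) j i = 0 := hall _ (by simpa using hnorm σ⁻¹ h hh)
    obtain ⟨a0, a1, -⟩ := hshape h hh
    have hp : M h i j * M σ j i = 0 := by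
      rw [Matrix.mul_apply, Matrix.mul_apply, Fin.sum_univ_two, Fin.sum_univ_two] at e'
      fin_cases i <;> fin_cases j <;>
        first | exact absurd rfl hij
              | (simp only [Fin.zero_eta, Fin.mk_one] at hd e' ⊢; rw [hd, a0, d0] at e';
                 linear_combination e')
              | (simp only [Fin.zero_eta, Fin.mk_one] at hd e' ⊢; rw [hd, a1, d1] at e';
                 linear_combination e')
    have := (mul_eq_zero.mp hp).resolve_left hne
    simpa [hM, LinearMap.toMatrix_apply] using this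
  have hker : ∀ h, χ h = 1 → M h = 1 := fun h hh => by
    obtain ⟨e0, e1, -⟩ := hshape h hh
    ext i j
    fin_cases i <;> fin_cases j
    · simpa using e0
    · simpa using htriv 0 1 (by decide) h hh
    · simpa using htriv 1 0 (by decide) h hh
    · simpa using e1
  refine EC.Rep.stable_span_singleton_of_repr_eq_zero b (i := 0) (j := 1) (by decide) (fun σ => ?_) hirr
  have e : M (c * σ) = M (σ * c) := by
    have := hker ((c * σ) * (σ * c)⁻¹) (by
      rw [map_mul, map_inv, map_mul, map_mul, mul_comm (χ σ), mul_inv_cancel])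
    calc M (c * σ) = M ((c * σ) * (σ * c)⁻¹) * M (σ * c) := by rw [← hmul, inv_mul_cancel_right]
      _ = _ := by rw [this, one_mul]
  rw [hmul, hmul, hMc] at e
  have e' := congrFun (congrFun e 1) 0
  simp [Matrix.mul_apply, Fin.sum_univ_two] at e'
  have h0 : M σ 1 0 = 0 := mul_left_cancel₀ h2 (by linear_combination -e')
  simpa [hM, LinearMap.toMatrix_apply] using h0

end Group

/-- A good prime `ℓ ≡ 1 (mod M)` with `a_ℓ ≢ 2 (mod p)`. -/
theorem exists_special_prime {E : WeierstrassCurve ℚ} [E.IsElliptic] {W : WeierstrassCurve ℤ}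
    (hW : W.IsIntegralModelOf E) {p : ℕ} (hp : p.Prime) (hp2 : p ≠ 2)
    (hirr : GaloisRepIsIrreducible (K := Q̄) ℚ E p) (M : ℕ) (hM : M ≠ 0) :
    ∃ ℓ : ℕ, ℓ.Prime ∧ W.IsGoodPrimeFor ℓ ∧ ℓ ≠ p ∧ ¬ ℓ ∣ M ∧ (M : ℤ) ∣ (ℓ : ℤ) - 1 ∧
      ¬ (p : ℤ) ∣ W.apOfModel ℓ - 2 := by
  classical
  have : Fact p.Prime := ⟨hp⟩
  obtain ⟨hΔ, hirrW⟩ := modRepIsIrreducible_of_model hW hirr
  set M' := M * p
  have : NeZero M' := ⟨mul_ne_zero hM hp.ne_zero⟩
  have hpM' : p ∣ M' := dvd_mul_left p M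
  set ρ := EC.Rep.residualRep W p hΔ
  have hdet : ∀ σ, cycloChar M' σ = 1 → LinearMap.det (ρ.ρ σ) = 1 := fun σ hσ => by
    rw [EC.Rep.det_residualRep hΔ (IsAlgClosed.card_rootsOfUnity_eq Q̄ p) σ]
    exact congrArg Units.val (cycloChar_castHom hpM' hσ)
  obtain ⟨g, hg1, hg⟩ := exists_trace_ne_two (ρ := ρ) (EC.Rep.two_ne_zero_zmod hp2)
    complexConjugation_mul_self
    (EC.Rep.det_residualRep_involution hΔ hp2 complexConjugation_mul_self
      EC.Rep.complexConjugation_ne_one)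
    ((EC.Rep.isIrreducible_residualRep_iff hΔ).mpr hirrW) (cycloChar M') hdet
  obtain ⟨L, hLfin, hL⟩ := ρ.factorsThroughFiniteLevel
  obtain ⟨L', hL'fin, hL'⟩ := cycloChar_factors M'
  let Φ := ρ.ρ.prod (cycloChar M')
  have : FiniteDimensional ℚ (L ⊔ L' : IntermediateField ℚ Q̄) :=
    IntermediateField.finiteDimensional_sup _ _
  obtain ⟨ℓ, hℓ, hℓS, A, hA, σ, hσ, ⟨i, hi⟩, ⟨j, hj⟩⟩ :=
    Arith.Density.exists_frobenius_pow Φ (L ⊔ L') (fun τ hτ => Prod.ext
      (hL τ fun x hx => hτ x ((le_sup_left : L ≤ L ⊔ L') hx))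
      (hL' τ fun x hx => hτ x ((le_sup_right : L' ≤ L ⊔ L') hx))) g
      (M'.primeFactors ∪ W.Δ.natAbs.primeFactors)
  simp only [Finset.mem_union, not_or] at hℓS
  have hgood : W.IsGoodPrimeFor ℓ := fun hdvd => hℓS.2
    (Nat.mem_primeFactors.mpr ⟨hℓ, Int.natCast_dvd.mp hdvd, Int.natAbs_ne_zero.mpr hΔ⟩)
  have hℓM' : ¬ ℓ ∣ M' := fun h => hℓS.1 (Nat.mem_primeFactors.mpr ⟨hℓ, h, NeZero.ne M'⟩)
  have hℓp : ℓ ≠ p := fun h => hℓM' (h ▸ hpM')
  have hχσ : cycloChar M' σ = 1 := by
    have := congrArg Prod.snd hj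
    simpa [Φ, hg1] using this
  have hmod : ((ℓ : ℕ) : ZMod M') = 1 := by
    have := Arith.modularCyclotomicCharacter_frobenius hA hℓ hσ
      (IsAlgClosed.card_rootsOfUnity_eq Q̄ M') hℓM'
    rw [← this]
    exact congrArg Units.val hχσ
  have hdiv : (M' : ℤ) ∣ (ℓ : ℤ) - 1 := by
    rw [← ZMod.intCast_zmod_eq_zero_iff_dvd]; push_cast; rw [hmod, sub_self]
  refine ⟨ℓ, hℓ, hgood, hℓp, fun h => hℓM' (dvd_mul_of_dvd_left h p),
    (Int.natCast_dvd_natCast.mpr (dvd_mul_right M p)).trans hdiv, fun hdvd => hg ?_⟩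
  have hℓ1 : ((ℓ : ℕ) : ZMod p) = 1 := by
    rw [← sub_eq_zero]
    have := (ZMod.intCast_zmod_eq_zero_iff_dvd _ p).mpr
      ((Int.natCast_dvd_natCast.mpr hpM').trans hdiv)
    push_cast at this
    exact this
  have ha : (W.apOfModel ℓ : ZMod p) = 1 + 1 := by
    have := (ZMod.intCast_zmod_eq_zero_iff_dvd _ p).mpr hdvd
    push_cast at this
    linear_combination this
  have hg' : ρ.ρ g = ρ.ρ σ ^ i := by simpa [Φ] using congrArg Prod.fst hi
  rw [hg', EC.Rep.trace_det_pow ρ.finrank_eq _ ?_ i]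
  · rw [← hg', hdet g hg1]; norm_num
  · rw [show LinearMap.det (ρ.ρ σ) = 1 from (EC.FrobTrace.det_frobenius W hℓ hgood hℓp hA hσ).trans hℓ1, ← ha]
    exact EC.FrobTrace.galoisTrace_frobenius W hℓ hgood hℓp hA hσ

end Fermat.Agent.LevelRaising
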