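import Fermat.Agent.LevelRaising.AwaySL2
import Mathlib.GroupTheory.Transfer
import Mathlib.GroupTheory.Sylow
import Mathlib.GroupTheory.Abelianization.Defs
import Mathlib.GroupTheory.SpecificGroups.Cyclic
import Mathlib.LinearAlgebra.Matrix.GeneralLinearGroup.Card
import Mathlib.FieldTheory.IsAlgClosed.AlgebraicClosure
import Mathlib.NumberTheory.Basic

/-! Central extensions by groups of exponent `p` of groups whose `p`-subgroups are cyclic. -/

set_option linter.style.haveILetI false

namespace Fermat.Agent.LevelRaising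

open scoped MatrixGroups

section Transfer

variable {Q G₀ : Type*} [Group Q] [Group G₀] {p : ℕ} [Fact p.Prime]

open scoped IsMulCommutative in
theorem ker_inf_commutator_eq_bot [Finite G₀] (π : Q →* G₀) (hc : π.ker ≤ Subgroup.center Q)
    (hexp : ∀ z ∈ π.ker, z ^ p = 1)
    (hcyc : ∀ P : Subgroup G₀, IsPGroup p P → IsCyclic P) :
    π.ker ⊓ commutator Q = ⊥ := by
  obtain ⟨P⟩ : Nonempty (Sylow p π.range) := inferInstance
  set S : Subgroup Q := (P : Subgroup π.range).comap π.rangeRestrict with hS
  have hindex : S.index = (P : Subgroup π.range).index :=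
    Subgroup.index_comap_of_surjective _ π.rangeRestrict_surjective
  have hnd : ¬ p ∣ S.index := by rw [hindex]; exact P.not_dvd_index
  haveI : IsCyclic (P : Subgroup π.range) := by
    have := hcyc _ (P.2.map π.range.subtype)
    exact isCyclic_of_surjective
      (Subgroup.equivMapOfInjective (P : Subgroup π.range) π.range.subtype
        π.range.subtype_injective).symm
      (MulEquiv.surjective _)
  haveI : IsMulCommutative S := ⟨⟨fun a b => by
    let f : S →* (P : Subgroup π.range) :=
      (π.rangeRestrict.comp S.subtype).codRestrict _ fun x => x.2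
    refine (MonoidHom.isMulCommutative_of_isCyclic_of_ker_le_center f fun x hx => ?_).is_comm.comm a b
    have hx' : (x : Q) ∈ π.ker := by
      rw [MonoidHom.mem_ker] at hx ⊢
      exact congrArg (fun y : (P : Subgroup π.range) => ((y : π.range) : G₀)) hx
    rw [Subgroup.mem_center_iff]
    intro y
    exact Subtype.ext (Subgroup.mem_center_iff.mp (hc hx') y)⟩⟩
  haveI : S.FiniteIndex := ⟨by rw [hindex]; exact Subgroup.FiniteIndex.index_ne_zero⟩
  rw [eq_bot_iff]
  rintro z ⟨hz, hzc⟩
  have key : ∀ (k : ℕ) (g₀ : Q), g₀⁻¹ * z ^ k * g₀ ∈ S → g₀⁻¹ * z ^ k * g₀ = z ^ k := by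
    intro k g₀ _
    have := Subgroup.mem_center_iff.mp (pow_mem (hc hz) k) g₀
    rw [mul_assoc, ← this, inv_mul_cancel_left]
  have h1 : MonoidHom.transfer (MonoidHom.id S) z = 1 :=
    Abelianization.commutator_subset_ker _ hzc
  rw [MonoidHom.transfer_eq_pow (MonoidHom.id S) z key] at h1
  have h2 : z ^ S.index = 1 := congrArg Subtype.val h1
  have h3 : orderOf z ∣ Nat.gcd p S.index :=
    Nat.dvd_gcd (orderOf_dvd_of_pow_eq_one (hexp z hz)) (orderOf_dvd_of_pow_eq_one h2)
  rw [(Nat.Prime.coprime_iff_not_dvd Fact.out).mpr hnd, Nat.dvd_one, orderOf_eq_one_iff] at h3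
  exact h3

theorem pow_eq_one_of_closure {T : Set Q} (hT : Subgroup.closure T = ⊤) {n : ℕ}
    (h : ∀ t ∈ T, Abelianization.of t ^ n = 1) (x : Q) : Abelianization.of x ^ n = 1 := by
  have hx : x ∈ Subgroup.closure T := hT ▸ Subgroup.mem_top x
  induction hx using Subgroup.closure_induction with
  | mem y hy => exact h y hy
  | one => simp
  | mul a b _ _ ha hb => rw [map_mul, mul_pow, ha, hb, one_mul]
  | inv a _ ha => rw [map_inv, inv_pow, ha, inv_one]

theorem ker_eq_bot_of_periodic [Finite G₀] (π : Q →* G₀) (hc : π.ker ≤ Subgroup.center Q)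
    (hexp : ∀ z ∈ π.ker, z ^ p = 1)
    (hcyc : ∀ P : Subgroup G₀, IsPGroup p P → IsCyclic P)
    {T : Set Q} (hT : Subgroup.closure T = ⊤) {n : ℕ} (hn : p.Coprime n)
    (hper : ∀ t ∈ T, t ^ n = 1) : π.ker = ⊥ := by
  rw [eq_bot_iff]
  intro z hz
  have h := ker_inf_commutator_eq_bot π hc hexp hcyc
  rw [← h]
  refine ⟨hz, ?_⟩
  have h1 : Abelianization.of z ^ n = 1 :=
    pow_eq_one_of_closure hT (fun t ht => by rw [← map_pow, hper t ht, map_one]) z
  have h2 : Abelianization.of z ^ p = 1 := by rw [← map_pow, hexp z hz, map_one]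
  have h3 : orderOf (Abelianization.of z) ∣ Nat.gcd p n :=
    Nat.dvd_gcd (orderOf_dvd_of_pow_eq_one h2) (orderOf_dvd_of_pow_eq_one h1)
  rw [hn, Nat.dvd_one, orderOf_eq_one_iff] at h3
  exact (QuotientGroup.eq_one_iff z).mp h3

end Transfer

section Cyclic

variable {p : ℕ} [Fact p.Prime]

/-- a `p`-subgroup of `SL(2, F)` is cyclic when `p` is odd and not the characteristic -/
theorem isCyclic_pGroup_SL2_field {F : Type*} [Field F] (hp2 : p ≠ 2) (hchar : (p : F) ≠ 0)
    (P : Subgroup SL(2, F)) [Finite P] (hP : IsPGroup p P) : IsCyclic P := by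
  by_cases hnt : Nontrivial P
  swap
  · rw [not_nontrivial_iff_subsingleton] at hnt
    exact inferInstance
  haveI := hnt
  haveI := hP.center_nontrivial
  obtain ⟨⟨z, hzc⟩, hz1⟩ := exists_ne (1 : Subgroup.center P)
  have hz1' : z ≠ 1 := fun h => hz1 (Subtype.ext h)
  have hcomm : ∀ h : P, (h : SL(2, F)) * (z : SL(2, F)) = (z : SL(2, F)) * h :=
    fun h => congrArg Subtype.val (Subgroup.mem_center_iff.mp hzc h)
  obtain ⟨k, hk⟩ := hP z
  set a := (z : SL(2, F)) 0 0
  set b := (z : SL(2, F)) 0 1
  set c := (z : SL(2, F)) 1 0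
  set d := (z : SL(2, F)) 1 1
  have hdet : a * d - b * c = 1 := det_eq _
  have hodd : Odd (p ^ k) := ((Fact.out : p.Prime).odd_of_ne_two hp2).pow
  have htr : (a + d) ^ 2 ≠ 4 := by
    intro ht
    obtain ⟨e, he, hte⟩ : ∃ e : F, e ^ 2 = 1 ∧ a + d = 2 * e := by
      by_cases h2 : (2 : F) = 0
      · refine ⟨1, one_pow 2, ?_⟩
        rw [show (4 : F) = 0 by linear_combination 2 * h2] at ht
        rw [eq_zero_of_pow_eq_zero ht, h2, zero_mul]
      · refine ⟨(a + d) / 2, ?_, by field_simp⟩
        rw [div_pow, ht, div_eq_one_iff_eq (pow_ne_zero 2 h2)]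
        norm_num
    set Nm : Matrix (Fin 2) (Fin 2) F := ((z : SL(2, F)) : Matrix _ _ F) - e • 1 with hNm
    have hN2 : Nm * Nm = 0 := by
      ext i j
      fin_cases i <;> fin_cases j <;>
        simp [hNm, Matrix.mul_apply, Fin.sum_univ_two, Matrix.sub_apply] <;>
        ring_nf
      all_goals first
        | linear_combination -hdet + a * hte + he
        | linear_combination b * hte
        | linear_combination c * hte
        | linear_combination -hdet + d * hte + he
    have hpow : ∀ n : ℕ, ((z : SL(2, F)) : Matrix _ _ F) ^ n =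
        e ^ n • (1 : Matrix _ _ F) + ((n : F) * e ^ (n - 1)) • Nm := by
      intro n
      induction n with
      | zero => simp
      | succ n ih =>
        have hsplit : ((z : SL(2, F)) : Matrix _ _ F) = e • 1 + Nm := by simp [hNm]
        rw [pow_succ, ih]
        nth_rewrite 1 [hsplit]
        rcases n with _ | n
        · simp
        · simp only [mul_add, add_mul, smul_mul_assoc, one_mul, mul_smul_comm, mul_one, hN2,
            smul_zero, add_zero, Nat.add_sub_cancel, smul_add, smul_smul]
          rw [add_assoc, ← add_smul]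
          congr 2
          · ring
          · push_cast; ring
    have h1 : ((z : SL(2, F)) : Matrix (Fin 2) (Fin 2) F) ^ p ^ k = 1 := by
      have := congrArg (fun x : P => (((x : SL(2, F)) : Matrix (Fin 2) (Fin 2) F))) hk
      simpa using this
    rw [hpow] at h1
    have hodd' : e ^ p ^ k = e := by
      obtain ⟨j, hj⟩ := hodd
      rw [hj, pow_succ, pow_mul, he, one_pow, one_mul]
    have heven : e ^ (p ^ k - 1) = 1 := by
      obtain ⟨j, hj⟩ := hodd
      rw [hj, Nat.add_sub_cancel, pow_mul, he, one_pow]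
    rw [hodd', heven, mul_one] at h1
    have hb' : b = 0 := by
      have := congrFun (congrFun h1 0) 1
      simpa [hNm, hchar] using this
    have hc' : c = 0 := by
      have := congrFun (congrFun h1 1) 0
      simpa [hNm, hchar] using this
    rw [hb', zero_mul, sub_zero] at hdet
    have ha : a = e := by
      have : (a - e) ^ 2 = 0 := by linear_combination a * hte - hdet + he
      exact sub_eq_zero.mp (eq_zero_of_pow_eq_zero this)
    have he1 : e = 1 := by
      have := congrFun (congrFun h1 0) 0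
      simpa [hNm, show (z : SL(2, F)) 0 0 = e from ha] using this
    refine hz1' (Subtype.ext (sl_ext ?_ ?_ ?_ ?_))
    · simpa [he1] using ha
    · simpa using hb'
    · simpa using hc'
    · simp only [OneMemClass.coe_one, Matrix.SpecialLinearGroup.coe_one, Matrix.one_apply_eq]
      linear_combination hte - ha + he1
  have hcc : ∀ h : P,
      (h : SL(2, F)) 0 1 * c = b * (h : SL(2, F)) 1 0 ∧
      (h : SL(2, F)) 0 0 * b + (h : SL(2, F)) 0 1 * d
        = a * (h : SL(2, F)) 0 1 + b * (h : SL(2, F)) 1 1 ∧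
      (h : SL(2, F)) 1 0 * a + (h : SL(2, F)) 1 1 * c
        = c * (h : SL(2, F)) 0 0 + d * (h : SL(2, F)) 1 0 := by
    intro h
    have e00 := congrArg (fun g : SL(2, F) => g 0 0) (hcomm h)
    have e01 := congrArg (fun g : SL(2, F) => g 0 1) (hcomm h)
    have e10 := congrArg (fun g : SL(2, F) => g 1 0) (hcomm h)
    simp only [mul_apply00, mul_apply01, mul_apply10] at e00 e01 e10
    exact ⟨by linear_combination e00, e01, e10⟩
  by_cases hb : b = 0
  · have had : a - d ≠ 0 := by
      intro h
      refine htr ?_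
      rw [hb, zero_mul, sub_zero] at hdet
      linear_combination (a - d) * h + 4 * hdet
    have h01 : ∀ h : P, (h : SL(2, F)) 0 1 = 0 := by
      intro h
      have h2 := (hcc h).2.1
      rw [hb] at h2
      have : (h : SL(2, F)) 0 1 * (a - d) = 0 := by linear_combination -h2
      exact (mul_eq_zero.mp this).resolve_right had
    let f : P →* F :=
      { toFun := fun h => (h : SL(2, F)) 0 0
        map_one' := by simp
        map_mul' := fun g h => by simp [mul_apply00, h01 g] }
    refine isCyclic_of_injective_ringHom f ((injective_iff_map_eq_one f).mpr fun h hh => ?_)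
    have hh' : (h : SL(2, F)) 0 0 = 1 := hh
    have hd' : (h : SL(2, F)) 1 1 = 1 := by
      simpa [hh', h01 h] using det_eq (h : SL(2, F))
    have h10 := (hcc h).2.2
    rw [hh', hd'] at h10
    have : (h : SL(2, F)) 1 0 * (a - d) = 0 := by linear_combination h10
    refine Subtype.ext (sl_ext ?_ ?_ ?_ ?_) <;>
      simp [hh', hd', h01 h, (mul_eq_zero.mp this).resolve_right had]
  · set L := AlgebraicClosure F
    let i := algebraMap F L
    have hib : i b ≠ 0 := (map_ne_zero i).mpr hb
    obtain ⟨s, hs⟩ := IsAlgClosed.exists_root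
      (Polynomial.C (i b) * Polynomial.X ^ 2 + Polynomial.C (i (a - d)) * Polynomial.X +
        Polynomial.C (-i c)) (by rw [Polynomial.degree_quadratic hib]; decide)
    simp [Polynomial.IsRoot] at hs
    have hdist : i b * (2 * s) + i (a - d) ≠ 0 := by
      intro h
      refine htr (i.injective ?_)
      simp only [map_pow, map_add, map_ofNat]
      have hdet' := congrArg i hdet
      simp only [map_sub, map_mul, map_one] at hdet'
      simp only [map_sub] at h
      linear_combination (-4 * i b) * hs + (i b * (2 * s) + (i a - i d)) * h + 4 * hdet'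
    let f : P →* L :=
      { toFun := fun h => i ((h : SL(2, F)) 0 0) + i ((h : SL(2, F)) 0 1) * s
        map_one' := by simp
        map_mul' := fun g h => by
          simp only [Subgroup.coe_mul, mul_apply00, mul_apply01, map_add, map_mul]
          apply mul_left_cancel₀ hib
          have h1 := congrArg i (hcc h).1
          have h2 := congrArg i (hcc h).2.1
          simp only [map_mul, map_add] at h1 h2
          linear_combination (-(i ((g : SL(2, F)) 0 1))) * h1 +
            (-(i ((g : SL(2, F)) 0 1)) * s) * h2 +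
            (-(i ((g : SL(2, F)) 0 1)) * i ((h : SL(2, F)) 0 1)) * hs }
    refine isCyclic_of_injective_ringHom f ((injective_iff_map_eq_one f).mpr fun h hh => ?_)
    change i _ + i _ * s = 1 at hh
    set x := i ((h : SL(2, F)) 0 0)
    set y := i ((h : SL(2, F)) 0 1)
    have hd := congrArg i (det_eq (h : SL(2, F)))
    have h1 := congrArg i (hcc h).1
    have h2 := congrArg i (hcc h).2.1
    simp only [map_sub, map_mul, map_one, map_add] at hd h1 h2 hs
    have key : y * (i b * (2 * s) + i (a - d)) = 0 := by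
      rw [map_sub]
      linear_combination (-(i b)) * hd + y * h1 + (-x) * h2 +
        (i b * (x + 1 - y * s) + y * (i d - i a)) * hh + y ^ 2 * hs
    have hy : y = 0 := (mul_eq_zero.mp key).resolve_right hdist
    rw [hy, zero_mul, add_zero] at hh
    have h00 : (h : SL(2, F)) 0 0 = 1 := i.injective (by rw [map_one]; exact hh)
    have h01 : (h : SL(2, F)) 0 1 = 0 := i.injective (by rw [map_zero]; exact hy)
    have hd' : (h : SL(2, F)) 1 1 = 1 := by
      simpa [h00, h01] using det_eq (h : SL(2, F))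
    have h10 := (hcc h).1
    rw [h01, zero_mul] at h10
    have h10' := (mul_eq_zero.mp h10.symm).resolve_left hb
    exact Subtype.ext (sl_ext (by simp [h00]) (by simp [h01]) (by simp [h10']) (by simp [hd']))

/-- kernel of `SL(2, ℤ/r^e) → SL(2, ℤ/r)` is an `r`-group -/
theorem pow_eq_one_of_map_eq_one {r e : ℕ} (g : SL(2, ZMod (r ^ (e + 1))))
    (hg : slMap (ZMod.castHom (dvd_pow_self r (Nat.succ_ne_zero e)) (ZMod r)) g = 1) :
    g ^ r ^ e = 1 := by
  rw [slMap_eq_one_iff] at hg
  have hdvd : ∀ x : ZMod (r ^ (e + 1)),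
      ZMod.castHom (dvd_pow_self r (Nat.succ_ne_zero e)) (ZMod r) x = 0 →
      ∃ y, x = (r : ZMod (r ^ (e + 1))) * y := by
    intro x hx
    obtain ⟨k, rfl⟩ := ZMod.intCast_surjective x
    rw [map_intCast, ZMod.intCast_zmod_eq_zero_iff_dvd] at hx
    obtain ⟨j, rfl⟩ := hx
    exact ⟨j, by push_cast; ring⟩
  obtain ⟨x₀, hx₀⟩ := hdvd (g 0 0 - 1) (by rw [map_sub, hg.1, map_one, sub_self])
  obtain ⟨x₁, hx₁⟩ := hdvd (g 0 1) hg.2.1
  obtain ⟨x₂, hx₂⟩ := hdvd (g 1 0) hg.2.2.1
  obtain ⟨x₃, hx₃⟩ := hdvd (g 1 1 - 1) (by rw [map_sub, hg.2.2.2, map_one, sub_self])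
  set X : Matrix (Fin 2) (Fin 2) (ZMod (r ^ (e + 1))) := !![x₀, x₁; x₂, x₃]
  have hgX : (g : Matrix (Fin 2) (Fin 2) (ZMod (r ^ (e + 1)))) = 1 + r • X := by
    ext i j
    fin_cases i <;> fin_cases j <;>
      simp [X, Matrix.add_apply, ← hx₀, ← hx₁, ← hx₂, ← hx₃]
  obtain ⟨P, hP⟩ := dvd_sub_pow_of_dvd_sub (R := Polynomial ℤ) (p := r)
    (a := 1 + r • Polynomial.X) (b := 1) ⟨Polynomial.X, by simp⟩ e
  have h := congrArg (Polynomial.aeval X) hP
  simp only [map_sub, map_pow, map_add, map_one, map_nsmul, Polynomial.aeval_X, one_pow,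
    map_mul, map_natCast] at h
  rw [← Nat.cast_pow] at h
  have hz : ((r ^ (e + 1) : ℕ) : Matrix (Fin 2) (Fin 2) (ZMod (r ^ (e + 1)))) = 0 := by
    rw [← map_natCast (Matrix.scalar (Fin 2)), ZMod.natCast_self, map_zero]
  rw [hz, zero_mul, sub_eq_zero, ← hgX] at h
  exact Subtype.ext (by simpa using h)

theorem isCyclic_pGroup_SL2_zmod {r e : ℕ} (hr : r.Prime) (hpr : p ≠ r) (hp2 : p ≠ 2)
    (P : Subgroup SL(2, ZMod (r ^ (e + 1)))) (hP : IsPGroup p P) : IsCyclic P := by
  haveI := Fact.mk hr
  haveI : NeZero r := ⟨hr.ne_zero⟩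
  set φ := slMap (ZMod.castHom (dvd_pow_self r (Nat.succ_ne_zero e)) (ZMod r))
  have hinj : Function.Injective (φ.comp P.subtype) := by
    rw [injective_iff_map_eq_one]
    intro g hg
    obtain ⟨k, hk⟩ := hP g
    have h1 := pow_eq_one_of_map_eq_one (g : SL(2, ZMod (r ^ (e + 1)))) hg
    have h2 : orderOf g ∣ Nat.gcd (p ^ k) (r ^ e) :=
      Nat.dvd_gcd (orderOf_dvd_of_pow_eq_one hk)
        (orderOf_dvd_of_pow_eq_one (Subtype.ext (by simpa using h1)))
    have hcop : Nat.Coprime (p ^ k) (r ^ e) :=
      ((Nat.coprime_primes Fact.out hr).mpr hpr).pow _ _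
    rw [hcop, Nat.dvd_one, orderOf_eq_one_iff] at h2
    exact h2
  haveI := isCyclic_pGroup_SL2_field hp2 (F := ZMod r)
    (by rw [Ne, ZMod.natCast_eq_zero_iff, Nat.prime_dvd_prime_iff_eq hr Fact.out]; exact Ne.symm hpr)
    (φ.comp P.subtype).range
    (hP.of_surjective _ (φ.comp P.subtype).rangeRestrict_surjective)
  exact isCyclic_of_surjective (MonoidHom.ofInjective hinj).symm (MulEquiv.surjective _)

theorem isCyclic_pGroup_SL2_self (P : Subgroup SL(2, ZMod p)) (hP : IsPGroup p P) :
    IsCyclic P := by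
  obtain ⟨k, hk⟩ := IsPGroup.iff_card.mp hP
  have hp := (Fact.out : p.Prime)
  have hdvd : p ^ k ∣ Nat.card (GL (Fin 2) (ZMod p)) := by
    rw [← hk]
    exact Subgroup.card_dvd_of_injective
      ((Matrix.SpecialLinearGroup.toGL).comp P.subtype)
      (Matrix.SpecialLinearGroup.toGL_injective.comp P.subtype_injective)
  rw [Matrix.card_GL_field, ZMod.card, Fin.prod_univ_two] at hdvd
  simp only [Fin.val_zero, pow_zero, Fin.val_one, pow_one] at hdvd
  rcases Nat.lt_or_ge k 2 with hk2 | hk2
  · rcases Nat.lt_or_ge k 1 with h | h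
    · have : Nat.card P = 1 := by rw [hk]; interval_cases k; simp
      haveI := (Nat.card_eq_one_iff_unique.mp this).1
      exact inferInstance
    · exact isCyclic_of_prime_card (p := p) (by rw [hk, show k = 1 by omega, pow_one])
  · exfalso
    have h2 : p * p ∣ (p ^ 2 - 1) * (p * (p - 1)) := by
      have h := (pow_dvd_pow p hk2).trans hdvd
      rw [pow_two] at h ⊢
      rwa [Nat.mul_sub_one]
    rw [mul_left_comm] at h2
    have h3 := Nat.dvd_of_mul_dvd_mul_left hp.pos h2
    have hp1 := hp.two_le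
    rcases (Nat.Prime.dvd_mul hp).mp h3 with h | h
    · have h4 : p ∣ (p ^ 2 - 1) + 1 := by
        rw [Nat.sub_add_cancel (Nat.one_le_pow _ _ hp.pos)]; exact dvd_pow_self p two_ne_zero
      exact hp.not_dvd_one ((Nat.dvd_add_right h).mp h4)
    · exact absurd (Nat.le_of_dvd (by omega) h) (by omega)

end Cyclic

end Fermat.Agent.LevelRaising
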