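import Fermat.Agent.LevelRaising.Cusps.HeckeFun
import Fermat.Agent.Gamma0.Coset

/-!
# The Hecke operators commute with the degeneracy operators
-/

set_option autoImplicit false

noncomputable section

namespace Fermat.Agent.LevelRaising

open CongruenceSubgroup Function Fermat.Agent.Periods
open Matrix.SpecialLinearGroup
open P2MW.S_ModularForm_heckeT_slash_eq_self_of_mem_Gamma0.ModularForm.HeckeSlashInvariance
open scoped MatrixGroups BigOperators Matrix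

variable {q N : ℕ} {A : Type*} [AddCommGroup A]

theorem res_apply (φ : Additive (Gamma0 N) →+ A) (γ : Gamma0 (N * q)) {c : Gamma0 N}
    (hc : (c : SL(2, ℤ)) = (γ : SL(2, ℤ))) :
    (RaiseData.resSys q N).apply φ (Additive.ofMul γ) = φ (Additive.ofMul c) :=
  unitSystem_apply (a := 1) φ (by rw [one_mul, mul_one, hc])

theorem exists_res_lift (γ : Gamma0 (N * q)) :
    ∃ c : Gamma0 N, (c : SL(2, ℤ)) = (γ : SL(2, ℤ)) := by
  refine ⟨⟨(γ : SL(2, ℤ)), ?_⟩, rfl⟩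
  rw [Gamma0_mem, ZMod.intCast_zmod_eq_zero_iff_dvd]
  exact dvd_trans (by simp) (gamma0_dvd γ)

theorem homT_res [NeZero N] [NeZero (N * q)] (R : Type*) [Semiring R] [Module R A] {ℓ : ℕ}
    (hℓ : ℓ.Prime) (hℓN : ¬ ℓ ∣ N) (hℓM : ¬ ℓ ∣ N * q) (φ : Additive (Gamma0 N) →+ A) :
    homT hℓ hℓM R ((RaiseData.resSys q N).apply φ) =
      (RaiseData.resSys q N).apply (homT hℓ hℓN R φ) := by
  have : NeZero ℓ := ⟨hℓ.ne_zero⟩
  refine AddMonoidHom.ext fun y => ?_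
  rw [← ofMul_toMul y]
  set γ := Additive.toMul y
  obtain ⟨g, hg⟩ := exists_res_lift γ
  rw [res_apply _ γ hg, homT, homT, HeckeSystem.op_apply, HeckeSystem.op_apply,
    HeckeSystem.apply_apply, HeckeSystem.apply_apply]
  refine Finset.sum_congr rfl fun i _ => ?_
  obtain ⟨c, hc⟩ := exists_res_lift ((systemT hℓ hℓM).cocycle γ i)
  rw [res_apply _ _ hc]
  have e := (systemT hℓ hℓM).spec γ i
  rw [← hc, ← hg] at e
  exact congrArg (fun x => φ (Additive.ofMul x))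
    ((systemT hℓ hℓN).eq_of_spec (γ := g) (i := i) (j := (systemT hℓ hℓM).perm γ i) e).2.symm

namespace RaiseData

variable (h : RaiseData q N)
include h

theorem exists_conj_lift (γ : Gamma0 (N * q)) :
    ∃ c : Gamma0 N, alphaMat q * ((γ : SL(2, ℤ)) : Matrix (Fin 2) (Fin 2) ℤ) =
      ((c : SL(2, ℤ)) : Matrix (Fin 2) (Fin 2) ℤ) * alphaMat q := by
  have hne : (alphaMat q).det ≠ 0 := by simp [h.det_alphaMat, h.prime.ne_zero]
  exact ⟨h.conjSys.cocycle γ default,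
    of_mul_mapGL_eq hne hne _ _ (h.conjSys.spec γ default)⟩

theorem conj_apply (φ : Additive (Gamma0 N) →+ A) (γ : Gamma0 (N * q)) {c : Gamma0 N}
    (hc : alphaMat q * ((γ : SL(2, ℤ)) : Matrix (Fin 2) (Fin 2) ℤ) =
      ((c : SL(2, ℤ)) : Matrix (Fin 2) (Fin 2) ℤ) * alphaMat q) :
    h.conjSys.apply φ (Additive.ofMul γ) = φ (Additive.ofMul c) :=
  unitSystem_apply (a := intGL (alphaMat q)) φ
    (mul_mapGL_eq (by simp [h.det_alphaMat, h.prime.ne_zero])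
      (by simp [h.det_alphaMat, h.prime.ne_zero]) _ _ hc)

theorem homT_conj [NeZero N] [NeZero (N * q)] (R : Type*) [Semiring R] [Module R A] {ℓ : ℕ}
    (hℓ : ℓ.Prime) (hℓN : ¬ ℓ ∣ N) (hℓM : ¬ ℓ ∣ N * q) (φ : Additive (Gamma0 N) →+ A) :
    homT hℓ hℓM R (h.conjSys.apply φ) = h.conjSys.apply (homT hℓ hℓN R φ) := by
  have : NeZero ℓ := ⟨hℓ.ne_zero⟩
  refine AddMonoidHom.ext fun y => ?_
  rw [← ofMul_toMul y]
  set γ := Additive.toMul y
  obtain ⟨g, hg⟩ := h.exists_conj_lift γ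
  have hα : (alphaMat q).det ≠ 0 := by simp [h.det_alphaMat, h.prime.ne_zero]
  obtain ⟨σ, n, hσ, key⟩ := exists_alpha_tMat (q := q) hℓ (fun hd => hℓM (hd.mul_left N))
  rw [h.conj_apply _ γ hg, homT, homT, HeckeSystem.op_apply, HeckeSystem.op_apply,
    HeckeSystem.apply_apply, HeckeSystem.apply_apply]
  choose d hd using fun i => h.exists_conj_lift ((systemT hℓ hℓM).cocycle γ i)
  have hlhs : ∀ i, h.conjSys.apply φ (Additive.ofMul ((systemT hℓ hℓM).cocycle γ i)) =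
      φ (Additive.ofMul (d i)) := fun i => h.conj_apply _ _ (hd i)
  rw [Finset.sum_congr rfl fun i _ => hlhs i]
  refine (sum_transfer (systemT hℓ hℓN)
      (fun k => intGL (alphaMat q) * heckeRep ℓ k * (intGL (alphaMat q))⁻¹)
      ((systemT hℓ hℓM).perm γ) ((systemT hℓ hℓM).perm_bijective γ) d g (fun k => ?_) σ
      (fun k => ⟨upr (n k), upr_mem_Gamma0 N _⟩) 1 (by simp) (fun k => ?_) φ).trans ?_
  · have eg : intGL (alphaMat q) * mapGL ℝ (γ : SL(2, ℤ)) =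
        mapGL ℝ (g : SL(2, ℤ)) * intGL (alphaMat q) := mul_mapGL_eq hα hα _ _ hg
    have ed : intGL (alphaMat q) * mapGL ℝ ((systemT hℓ hℓM).cocycle γ k : SL(2, ℤ)) =
        mapGL ℝ (d k : SL(2, ℤ)) * intGL (alphaMat q) := mul_mapGL_eq hα hα _ _ (hd k)
    have es : heckeRep ℓ k * mapGL ℝ (γ : SL(2, ℤ)) =
        mapGL ℝ ((systemT hℓ hℓM).cocycle γ k : SL(2, ℤ)) *
          heckeRep ℓ ((systemT hℓ hℓM).perm γ k) := (systemT hℓ hℓM).spec γ k
    have eg' : (intGL (alphaMat q))⁻¹ * mapGL ℝ (g : SL(2, ℤ)) =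
        mapGL ℝ (γ : SL(2, ℤ)) * (intGL (alphaMat q))⁻¹ := by
      rw [eq_mul_inv_iff_mul_eq, mul_assoc, ← eg, inv_mul_cancel_left]
    simp only [mul_assoc]
    rw [eg', ← mul_assoc (heckeRep ℓ k), es]
    simp only [← mul_assoc]
    rw [ed]
  · show _ = 1 * (_ * heckeRep ℓ (σ k))
    rw [one_mul, mul_inv_eq_iff_eq_mul]
    show intGL (alphaMat q) * heckeRep ℓ k =
      mapGL ℝ (upr (n k) : SL(2, ℤ)) * heckeRep ℓ (σ k) * intGL (alphaMat q)
    have e := congrArg intGL (key k)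
    rw [intGL_mul hα (det_tMat_ne_zero ℓ k), intGL_mul (by simp) (by simp [det_tMat_ne_zero ℓ, h.det_alphaMat, h.prime.ne_zero]),
      intGL_mul (det_tMat_ne_zero ℓ _) hα, ← mapGL_eq_intGL, ← mul_assoc] at e
    exact (congrArg (intGL (alphaMat q) * ·) (heckeRep_eq_intGL hℓ.ne_zero k)).trans <| e.trans
      (congrArg (mapGL ℝ (upr (n k) : SL(2, ℤ)) * · * intGL (alphaMat q))
        (heckeRep_eq_intGL hℓ.ne_zero (σ k)).symm)
  · exact hσ.sum_comp fun j => φ (Additive.ofMul ((systemT hℓ hℓN).cocycle g j))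

section Span

variable {R : Type*} [CommRing R]

/-- Two linear maps on `Hom(Γ₀(L), R)` agreeing on crossing homomorphisms are equal. -/
theorem ext_crossHomR {L : ℕ} [NeZero L] (h2 : IsUnit (2 : R)) (h3 : ∀ r : R, 3 * r = 0 → r = 0)
    {M : Type*} [AddCommGroup M] [Module R M] {F G : (Additive (Gamma0 L) →+ R) →ₗ[R] M}
    (e : ∀ u v, F (crossHomR R (Gamma0 L) u v) = G (crossHomR R (Gamma0 L) u v)) : F = G := by
  have : Fintype (SL(2, ℤ) ⧸ Gamma0 L) := Subgroup.fintypeQuotientOfFiniteIndex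
  exact LinearMap.ext_on (span_crossHomR_eq_top R
    (Fermat.Agent.Gamma0.neg_one_mem_Gamma0 L) h2 h3) (by rintro _ ⟨x, rfl⟩; exact e _ _)

theorem homT_cor [NeZero N] [NeZero (N * q)] (h2 : IsUnit (2 : R))
    (h3 : ∀ r : R, 3 * r = 0 → r = 0) {ℓ : ℕ} (hℓ : ℓ.Prime) (hℓN : ¬ ℓ ∣ N)
    (hℓM : ¬ ℓ ∣ N * q) (φ : Additive (Gamma0 (N * q)) →+ R) :
    homT hℓ hℓN R (h.corSys.apply φ) = h.corSys.apply (homT hℓ hℓM R φ) := by
  suffices e : (homT hℓ hℓN R) ∘ₗ h.corSys.op R = h.corSys.op R ∘ₗ homT hℓ hℓM R from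
    LinearMap.congr_fun e φ
  refine ext_crossHomR (h := h) h2 h3 fun u v => ?_
  have : NeZero ℓ := ⟨hℓ.ne_zero⟩
  simp only [LinearMap.comp_apply, homT_crossHomR hℓ hℓM, map_sum, HeckeSystem.op_apply,
    h.cor_crossHomR, homT_crossHomR hℓ hℓN]

theorem homT_star [NeZero N] [NeZero (N * q)] (h2 : IsUnit (2 : R))
    (h3 : ∀ r : R, 3 * r = 0 → r = 0) {ℓ : ℕ} (hℓ : ℓ.Prime) (hℓN : ¬ ℓ ∣ N)
    (hℓM : ¬ ℓ ∣ N * q) (φ : Additive (Gamma0 (N * q)) →+ R) :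
    homT hℓ hℓN R (h.starSys.apply φ) = h.starSys.apply (homT hℓ hℓM R φ) := by
  suffices e : (homT hℓ hℓN R) ∘ₗ h.starSys.op R = h.starSys.op R ∘ₗ homT hℓ hℓM R from
    LinearMap.congr_fun e φ
  refine ext_crossHomR (h := h) h2 h3 fun u v => ?_
  have : NeZero ℓ := ⟨hℓ.ne_zero⟩
  obtain ⟨σ, n, hσ, key⟩ := exists_alpha_tMat (q := q) hℓ (fun hd => hℓM (hd.mul_left N))
  simp only [LinearMap.comp_apply, homT_crossHomR hℓ hℓM, map_sum, HeckeSystem.op_apply,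
    h.star_crossHomR, homT_crossHomR hℓ hℓN]
  rw [← hσ.sum_comp]
  refine Finset.sum_congr rfl fun j _ => crossHomR_congr ?_
  have ekey : ∀ x, actM (alphaMat q) (actM (tMat ℓ j) x) =
      act (upr (n j) : SL(2, ℤ)) (actM (tMat ℓ (σ j)) (actM (alphaMat q) x)) := fun x => by
    rw [← actM_mul, key, actM_mul, actM_mul, actM_eq_act]
  rw [ekey, ekey]
  exact (crossHom_act (⟨upr (n j), upr_mem_Gamma0 N _⟩ : Gamma0 N) _ _).symm

end Span

end RaiseData

end Fermat.Agent.LevelRaising
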