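import Fermat.Agent.LevelRaising.CentralExt
import Mathlib.GroupTheory.GroupAction.ConjAct

/-! Central extensions by exponent `p` groups of the subgroup generated by the two unipotents of
`SL(2, ℤ/p^e)`, `p` odd: the kernel meets the commutator subgroup trivially. -/

set_option linter.style.haveILetI false
set_option linter.unusedSectionVars false

namespace Fermat.Agent.LevelRaising

open scoped MatrixGroups commutatorElement

universe v

section Bimul

variable {G : Type*} [Group G]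

theorem comm_mul_left {x₁ x₂ y : G} (h : ⁅x₂, y⁆ ∈ Subgroup.center G) :
    ⁅x₁ * x₂, y⁆ = ⁅x₁, y⁆ * ⁅x₂, y⁆ := by
  have e : ⁅x₁ * x₂, y⁆ = x₁ * ⁅x₂, y⁆ * x₁⁻¹ * ⁅x₁, y⁆ := by
    simp only [commutatorElement_def]; group
  rw [e, Subgroup.mem_center_iff.mp h x₁, mul_inv_cancel_right, Subgroup.mem_center_iff.mp h]

theorem comm_mul_right {x y₁ y₂ : G} (h : ⁅x, y₂⁆ ∈ Subgroup.center G) :
    ⁅x, y₁ * y₂⁆ = ⁅x, y₁⁆ * ⁅x, y₂⁆ := by
  have e : ⁅x, y₁ * y₂⁆ = ⁅x, y₁⁆ * (y₁ * ⁅x, y₂⁆ * y₁⁻¹) := by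
    simp only [commutatorElement_def]; group
  rw [e, Subgroup.mem_center_iff.mp h y₁, mul_inv_cancel_right]

theorem comm_mul_central_right {x y z : G} (h : z ∈ Subgroup.center G) :
    ⁅x, y * z⁆ = ⁅x, y⁆ := by
  have hz : ⁅x, z⁆ = 1 :=
    commutatorElement_eq_one_iff_mul_comm.mpr (Subgroup.mem_center_iff.mp h x)
  rw [comm_mul_right (by rw [hz]; exact one_mem _), hz, mul_one]

theorem comm_inv_right {x y : G} (h : ⁅x, y⁆ ∈ Subgroup.center G) : ⁅x, y⁻¹⁆ = ⁅x, y⁆⁻¹ := by
  refine eq_inv_of_mul_eq_one_left ?_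
  rw [← comm_mul_right h, inv_mul_cancel]
  simp [commutatorElement_def]

theorem comm_conj_eq {g x y : G} (h : ⁅x, y⁆ ∈ Subgroup.center G) :
    ⁅g * x * g⁻¹, g * y * g⁻¹⁆ = ⁅x, y⁆ := by
  rw [← conjugate_commutatorElement, Subgroup.mem_center_iff.mp h g, mul_inv_cancel_right]

end Bimul

variable {p : ℕ} [Fact p.Prime]

theorem isCyclic_pGroup_SL2_self' {n : ℕ} (hn : n = p) (P : Subgroup SL(2, ZMod n))
    (hP : IsPGroup p P) : IsCyclic P := by
  subst hn
  exact isCyclic_pGroup_SL2_self P hP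

section Step

variable (p) (e : ℕ) {Q : Type v} [Group Q]

/-- `p ^ (e + 1)` in `ℤ/p^(e+2)` -/
abbrev mm : ZMod (p ^ (e + 1 + 1)) := (p : ZMod (p ^ (e + 1 + 1))) ^ (e + 1)

theorem mm_mul_mm : mm p e * mm p e = 0 := by
  rw [← pow_add, ← Nat.cast_pow, ZMod.natCast_eq_zero_iff]
  exact pow_dvd_pow p (by omega)

theorem natCast_mul_mm : (p : ZMod (p ^ (e + 1 + 1))) * mm p e = 0 := by
  rw [← pow_succ', ← Nat.cast_pow, ZMod.natCast_self]

/-- reduction by one step -/
abbrev redStep : SL(2, ZMod (p ^ (e + 1 + 1))) →* SL(2, ZMod (p ^ (e + 1))) :=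
  slMap (ZMod.castHom (pow_dvd_pow p (Nat.le_succ (e + 1))) (ZMod (p ^ (e + 1))))

variable {p e}

theorem castStep_eq_zero {x : ZMod (p ^ (e + 1 + 1))}
    (h : ZMod.castHom (pow_dvd_pow p (Nat.le_succ (e + 1))) (ZMod (p ^ (e + 1))) x = 0) :
    ∃ y, x = mm p e * y := by
  obtain ⟨k, rfl⟩ := ZMod.intCast_surjective x
  rw [map_intCast, ZMod.intCast_zmod_eq_zero_iff_dvd] at h
  obtain ⟨j, rfl⟩ := h
  exact ⟨j, by push_cast; ring⟩

theorem mm_mul_intCast_eq_zero {k : ℤ} (h : mm p e * k = 0) : (p : ℤ) ∣ k := by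
  have h2 : ((p ^ (e + 1) * k : ℤ) : ZMod (p ^ (e + 1 + 1))) = 0 := by push_cast; exact h
  rw [ZMod.intCast_zmod_eq_zero_iff_dvd, Nat.cast_pow, pow_succ] at h2
  exact Int.dvd_of_mul_dvd_mul_left
    (pow_ne_zero _ (by exact_mod_cast (Fact.out : p.Prime).ne_zero)) h2

variable (π : Q →* SL(2, ZMod (p ^ (e + 1 + 1))))

/-- preimage of the last congruence step -/
def stepKer : Subgroup Q := ((redStep p e).comp π).ker

instance : (stepKer π).Normal := MonoidHom.normal_ker _

theorem stepKer_entries {x : Q} (hx : x ∈ stepKer π) :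
    ∃ α β γ δ, π x 0 0 = 1 + mm p e * α ∧ π x 0 1 = mm p e * β ∧ π x 1 0 = mm p e * γ ∧
      π x 1 1 = 1 + mm p e * δ ∧ mm p e * (α + δ) = 0 := by
  obtain ⟨h00, h01, h10, h11⟩ := (slMap_eq_one_iff _ _).mp (MonoidHom.mem_ker.mp hx)
  obtain ⟨α, hα⟩ := castStep_eq_zero (x := π x 0 0 - 1) (by rw [map_sub, h00, map_one, sub_self])
  obtain ⟨β, hβ⟩ := castStep_eq_zero h01
  obtain ⟨γ, hγ⟩ := castStep_eq_zero h10
  obtain ⟨δ, hδ⟩ := castStep_eq_zero (x := π x 1 1 - 1) (by rw [map_sub, h11, map_one, sub_self])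
  refine ⟨α, β, γ, δ, by linear_combination hα, hβ, hγ, by linear_combination hδ, ?_⟩
  have hd := det_eq (π x)
  rw [show π x 0 0 = 1 + mm p e * α by linear_combination hα,
    show π x 1 1 = 1 + mm p e * δ by linear_combination hδ, hβ, hγ] at hd
  linear_combination hd + (β * γ - α * δ) * mm_mul_mm p e

/-- the linearised image -/
def linMat (x : Q) : Matrix (Fin 2) (Fin 2) (ZMod (p ^ (e + 1 + 1))) :=
  (π x : Matrix (Fin 2) (Fin 2) _) - 1

theorem linMat_mul {x y : Q} (hx : x ∈ stepKer π) (hy : y ∈ stepKer π) :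
    linMat π (x * y) = linMat π x + linMat π y := by
  obtain ⟨α, β, γ, δ, a, b, c, d, -⟩ := stepKer_entries π hx
  obtain ⟨α', β', γ', δ', a', b', c', d', -⟩ := stepKer_entries π hy
  have h := mm_mul_mm p e
  ext i j
  fin_cases i <;> fin_cases j <;>
    simp [linMat, map_mul, Matrix.mul_apply, Fin.sum_univ_two, a, b, c, d, a', b', c', d']
  · linear_combination (α * α' + β * γ') * h
  · linear_combination (α * β' + β * δ') * h
  · linear_combination (γ * α' + δ * γ') * h
  · linear_combination (δ * δ' + γ * β') * h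

theorem mem_ker_iff_linMat {x : Q} : x ∈ π.ker ↔ linMat π x = 0 := by
  rw [MonoidHom.mem_ker, linMat, sub_eq_zero]
  exact ⟨fun h => by simp [h], fun h => Subtype.ext (by simpa using h)⟩

theorem ker_le_stepKer : π.ker ≤ stepKer π := fun x hx => by
  simp [stepKer, MonoidHom.mem_ker, MonoidHom.mem_ker.mp hx]

theorem mem_ker_of_linMat_eq {x y : Q} (_hx : x ∈ stepKer π) (_hy : y ∈ stepKer π)
    (h : linMat π x = linMat π y) : y⁻¹ * x ∈ π.ker := by
  have e : π x = π y := Subtype.ext (sub_left_injective h)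
  simp [MonoidHom.mem_ker, e]

theorem commutator_mem_ker_of_stepKer {x y : Q} (hx : x ∈ stepKer π) (hy : y ∈ stepKer π) :
    ⁅x, y⁆ ∈ π.ker := by
  have e : π (x * y) = π (y * x) :=
    Subtype.ext (sub_left_injective (show linMat π (x * y) = linMat π (y * x) by
      rw [linMat_mul π hx hy, linMat_mul π hy hx]; exact add_comm _ _))
  rw [MonoidHom.mem_ker, commutatorElement_def, map_mul, map_mul, e, map_mul]
  simp

theorem linMat_conj (g : Q) (x : Q) :
    linMat π (g * x * g⁻¹) = (π g : Matrix (Fin 2) (Fin 2) _) * linMat π x *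
      (((π g)⁻¹ : SL(2, ZMod (p ^ (e + 1 + 1)))) : Matrix (Fin 2) (Fin 2) _) := by
  have h1 : (π g : Matrix (Fin 2) (Fin 2) (ZMod (p ^ (e + 1 + 1)))) *
      (((π g)⁻¹ : SL(2, ZMod (p ^ (e + 1 + 1)))) : Matrix (Fin 2) (Fin 2) _) = 1 := by
    rw [← Matrix.SpecialLinearGroup.coe_mul, mul_inv_cancel, Matrix.SpecialLinearGroup.coe_one]
  simp only [linMat, map_mul, map_inv, Matrix.SpecialLinearGroup.coe_mul]
  rw [mul_sub, sub_mul, mul_one, h1]

variable {π} {u l : Q}

theorem u0_mem (hu : π u = upr 1) : u ^ p ^ (e + 1) ∈ stepKer π := by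
  simp [stepKer, MonoidHom.mem_ker, hu, upr_pow, -Nat.cast_pow]

theorem l0_mem (hl : π l = lwr 1) : l ^ p ^ (e + 1) ∈ stepKer π := by
  simp [stepKer, MonoidHom.mem_ker, hl, lwr_pow, -Nat.cast_pow]

theorem linMat_u0 (hu : π u = upr 1) :
    linMat π (u ^ p ^ (e + 1)) = !![0, mm p e; 0, 0] := by
  ext i j; fin_cases i <;> fin_cases j <;> simp [linMat, hu, upr_pow, mm]

theorem linMat_l0 (hl : π l = lwr 1) :
    linMat π (l ^ p ^ (e + 1)) = !![0, 0; mm p e, 0] := by
  ext i j; fin_cases i <;> fin_cases j <;> simp [linMat, hl, lwr_pow, mm]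

theorem linMat_conj_u (hu : π u = upr 1) (x : Q) {a b c d : ZMod (p ^ (e + 1 + 1))}
    (hx : linMat π x = !![a, b; c, d]) :
    linMat π (u * x * u⁻¹) = !![a + c, b + d - a - c; c, d - c] := by
  rw [linMat_conj, hx, hu, ← upr_neg]
  ext i j; fin_cases i <;> fin_cases j <;>
    simp [Matrix.mul_apply, Fin.sum_univ_two] <;> ring

theorem linMat_conj_l (hl : π l = lwr 1) (x : Q) {a b c d : ZMod (p ^ (e + 1 + 1))}
    (hx : linMat π x = !![a, b; c, d]) :
    linMat π (l * x * l⁻¹) = !![a - b, b; a + c - b - d, b + d] := by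
  rw [linMat_conj, hx, hl, ← lwr_neg]
  ext i j; fin_cases i <;> fin_cases j <;>
    simp [Matrix.mul_apply, Fin.sum_univ_two] <;> ring

theorem stepKer_decomp (hu : π u = upr 1) (hl : π l = lwr 1) {x : Q} (hx : x ∈ stepKer π) :
    ∃ i j k : ℕ, ∃ z ∈ π.ker, x = (u ^ p ^ (e + 1)) ^ i *
      (u * l ^ p ^ (e + 1) * u⁻¹) ^ j * (l ^ p ^ (e + 1)) ^ k * z := by
  haveI : NeZero (p ^ (e + 1 + 1)) := ⟨pow_ne_zero _ (Fact.out : p.Prime).ne_zero⟩
  obtain ⟨α, β, γ, δ, a, b, c, d, htr⟩ := stepKer_entries π hx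
  set i := (β + α).val
  set j := α.val
  set k := (γ - α).val
  set y := (u ^ p ^ (e + 1)) ^ i * (u * l ^ p ^ (e + 1) * u⁻¹) ^ j * (l ^ p ^ (e + 1)) ^ k
  refine ⟨i, j, k, y⁻¹ * x, ?_, by rw [mul_inv_cancel_left]⟩
  have h := mm_mul_mm p e
  have e' : π y = π x := by
    have : π y = upr ((i : ZMod _) * mm p e) *
        (upr 1 * lwr ((j : ZMod _) * mm p e) * upr (-1)) * lwr ((k : ZMod _) * mm p e) := by
      simp only [y, map_mul, map_pow, map_inv, hu, hl, conj_pow, upr_pow, lwr_pow, mul_one,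
        upr_neg, mm, Nat.cast_pow]
    rw [this]
    apply sl_ext <;>
      simp [mul_apply00, mul_apply01, mul_apply10, mul_apply11, a, b, c, d, i, j, k]
    · linear_combination ((β + α) * α + (γ - α) * (-α + (β + α) - (β + α) * α * mm p e)) * h
    · linear_combination (-(β + α) * α) * h
    · linear_combination (-(α * (γ - α))) * h
    · linear_combination -htr
  simp [MonoidHom.mem_ker, e']

theorem stepKer_commute (hp2 : p ≠ 2) (hc : π.ker ≤ Subgroup.center Q)
    (hexp : ∀ z ∈ π.ker, z ^ p = 1) (hu : π u = upr 1) (hl : π l = lwr 1) {x y : Q}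
    (hx : x ∈ stepKer π) (hy : y ∈ stepKer π) : x * y = y * x := by
  set U := u ^ p ^ (e + 1) with hUdef
  set L := l ^ p ^ (e + 1) with hLdef
  set H := u * L * u⁻¹ with hHdef
  have hU := u0_mem (π := π) hu
  have hL := l0_mem (π := π) hl
  rw [← hUdef] at hU
  rw [← hLdef] at hL
  have hH : H ∈ stepKer π := (inferInstance : (stepKer π).Normal).conj_mem _ hL u
  have cen : ∀ {a b}, a ∈ stepKer π → b ∈ stepKer π → ⁅a, b⁆ ∈ Subgroup.center Q :=
    fun ha hb => hc (commutator_mem_ker_of_stepKer π ha hb)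
  have eHm : linMat π H = !![mm p e, -mm p e; mm p e, -mm p e] := by
    rw [hHdef, linMat_conj_u hu _ (linMat_l0 hl)]
    ext i j; fin_cases i <;> fin_cases j <;> simp
  have hUu : u * U * u⁻¹ = U := by
    rw [hUdef, ← pow_succ', pow_succ, mul_inv_cancel_right]
  have hLl : l * L * l⁻¹ = L := by
    rw [hLdef, ← pow_succ', pow_succ, mul_inv_cancel_right]
  -- ⁅H, U⁆ = ⁅L, U⁆
  have hHU : ⁅H, U⁆ = ⁅L, U⁆ := by
    conv_lhs => rw [hHdef, ← hUu]
    exact comm_conj_eq (cen hL hU)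
  obtain ⟨z₁, hz₁, hK⟩ : ∃ z ∈ π.ker, u * H * u⁻¹ = H * H * L⁻¹ * (U⁻¹ * U⁻¹) * z := by
    refine ⟨_, mem_ker_of_linMat_eq π ((inferInstance : (stepKer π).Normal).conj_mem _ hH u)
      (mul_mem (mul_mem (mul_mem hH hH) (inv_mem hL)) (mul_mem (inv_mem hU) (inv_mem hU))) ?_,
      (mul_inv_cancel_left _ _).symm⟩
    have hneg : ∀ {a}, a ∈ stepKer π → linMat π a⁻¹ = -linMat π a := fun {a} ha => by
      refine eq_neg_of_add_eq_zero_left ?_
      rw [← linMat_mul π (inv_mem ha) ha, inv_mul_cancel]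
      simp [linMat]
    rw [linMat_conj_u hu _ eHm, linMat_mul π (mul_mem (mul_mem hH hH) (inv_mem hL))
        (mul_mem (inv_mem hU) (inv_mem hU)),
      linMat_mul π (mul_mem hH hH) (inv_mem hL), linMat_mul π hH hH,
      linMat_mul π (inv_mem hU) (inv_mem hU), hneg hL, hneg hU, eHm, hLdef, hUdef,
      linMat_u0 hu, linMat_l0 hl]
    ext i j; fin_cases i <;> fin_cases j <;> simp <;> ring
  have hb : ⁅L, U⁆ = 1 := by
    have e1 : ⁅H, u * H * u⁻¹⁆ = ⁅L, H⁆ := by
      conv_lhs => arg 1; rw [hHdef]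
      exact comm_conj_eq (cen hL hH)
    rw [hK, comm_mul_central_right (hc hz₁),
      comm_mul_right (cen hH (mul_mem (inv_mem hU) (inv_mem hU))),
      comm_mul_right (cen hH (inv_mem hL)), comm_mul_right (cen hH hH),
      comm_mul_right (cen hH (inv_mem hU)), comm_inv_right (cen hH hL),
      comm_inv_right (cen hH hU), hHU, commutatorElement_inv, commutatorElement_self,
      one_mul, one_mul, mul_eq_left] at e1
    have h2 : ⁅L, U⁆ ^ 2 = 1 := by
      rw [← inv_eq_one, ← inv_pow, sq]; exact e1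
    have h3 : orderOf ⁅L, U⁆ ∣ Nat.gcd 2 p :=
      Nat.dvd_gcd (orderOf_dvd_of_pow_eq_one h2)
        (orderOf_dvd_of_pow_eq_one (hexp _ (commutator_mem_ker_of_stepKer π hL hU)))
    rw [(Nat.coprime_primes Nat.prime_two Fact.out).mpr (Ne.symm hp2), Nat.dvd_one,
      orderOf_eq_one_iff] at h3
    exact h3
  have hcHU : H * U = U * H := commutatorElement_eq_one_iff_mul_comm.mp (hHU.trans hb)
  have hcLU : L * U = U * L := commutatorElement_eq_one_iff_mul_comm.mp hb
  have hcLH : L * H = H * L := by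
    obtain ⟨z, hz, hG⟩ : ∃ z ∈ π.ker, l * U * l⁻¹ = H⁻¹ * z := by
      refine ⟨_, mem_ker_of_linMat_eq π ((inferInstance : (stepKer π).Normal).conj_mem _ hU l)
        (inv_mem hH) ?_, (mul_inv_cancel_left _ _).symm⟩
      have : linMat π H⁻¹ = -linMat π H := by
        refine eq_neg_of_add_eq_zero_left ?_
        rw [← linMat_mul π (inv_mem hH) hH, inv_mul_cancel]
        simp [linMat]
      rw [this, eHm, linMat_conj_l hl _ (linMat_u0 hu)]
      ext i j; fin_cases i <;> fin_cases j <;> simp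
    have h1 : ⁅L, l * U * l⁻¹⁆ = 1 := by
      conv_lhs => rw [← hLl]
      rw [comm_conj_eq (cen hL hU), hb]
    rw [hG, comm_mul_central_right (hc hz), comm_inv_right (cen hL hH), inv_eq_one] at h1
    exact commutatorElement_eq_one_iff_mul_comm.mp h1
  have hgen : ∀ w ∈ stepKer π, ∀ v, Commute v U → Commute v H → Commute v L → Commute v w := by
    intro w hw v h1 h2 h3
    obtain ⟨i, j, k, z, hz, rfl⟩ := stepKer_decomp hu hl hw
    exact (((h1.pow_right i).mul_right (h2.pow_right j)).mul_right (h3.pow_right k)).mul_right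
      (Subgroup.mem_center_iff.mp (hc hz) v)
  exact hgen y hy x
    (hgen x hx U (Commute.refl U) hcHU.symm hcLU.symm).symm
    (hgen x hx H hcHU (Commute.refl H) hcLH.symm).symm
    (hgen x hx L hcLU hcLH (Commute.refl L)).symm

theorem exists_normal_complement (hp2 : p ≠ 2) (hc : π.ker ≤ Subgroup.center Q)
    (hexp : ∀ z ∈ π.ker, z ^ p = 1) (hgen : Subgroup.closure {u, l} = ⊤)
    (hu : π u = upr 1) (hl : π l = lwr 1) :
    ∃ M₀ : Subgroup Q, M₀.Normal ∧ M₀ ≤ stepKer π ∧ M₀ ⊓ π.ker = ⊥ ∧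
      ∀ x ∈ stepKer π, ∃ z ∈ π.ker, ∃ m ∈ M₀, x = z * m := by
  letI : CommGroup (stepKer π) :=
    { (inferInstance : Group (stepKer π)) with
      mul_comm := fun a b => Subtype.ext (stepKer_commute hp2 hc hexp hu hl a.2 b.2) }
  let C : Q → (Additive (stepKer π) →+ Additive (stepKer π)) := fun g =>
    MonoidHom.toAdditive (MulAut.conjNormal (H := stepKer π) g).toMonoidHom
  have Ccomp : ∀ g h x, C (g * h) x = C g (C h x) := fun g h x =>
    congrArg Additive.ofMul (Subtype.ext (by simp [C, MulAut.conjNormal_apply, mul_assoc]))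
  have Cval : ∀ g x, ((Additive.toMul (C g x) : stepKer π) : Q) =
      g * ((Additive.toMul x : stepKer π) : Q) * g⁻¹ := fun g x => MulAut.conjNormal_apply g _
  have Ccen : ∀ g, g ∈ Subgroup.center Q → ∀ x, C g x = x := fun g hg x =>
    Additive.toMul.injective (Subtype.ext (by
      rw [Cval, ← Subgroup.mem_center_iff.mp hg, mul_inv_cancel_right]))
  have Cone : ∀ x, C 1 x = x := Ccen 1 (one_mem _)
  have Ceq : ∀ g h, π g = π h → ∀ x, C g x = C h x := by
    intro g h he x
    have : h⁻¹ * g ∈ π.ker := by simp [MonoidHom.mem_ker, he]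
    conv_lhs => rw [← mul_inv_cancel_left h g]
    rw [Ccomp, Ccen _ (hc this)]
  let D : Additive (stepKer π) →+ Matrix (Fin 2) (Fin 2) (ZMod (p ^ (e + 1 + 1))) :=
    AddMonoidHom.mk' (fun x => linMat π ((Additive.toMul x : stepKer π) : Q))
      fun x y => linMat_mul π (Additive.toMul x).2 (Additive.toMul y).2
  have Dker : ∀ x, D x = 0 → ∀ g, C g x = x := by
    intro x hx g
    apply Additive.toMul.injective
    apply Subtype.ext
    rw [Cval, Subgroup.mem_center_iff.mp (hc ((mem_ker_iff_linMat π).mpr hx)) g,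
      mul_inv_cancel_right]
  have Dp : ∀ x, D (p • x) = 0 := by
    intro x
    obtain ⟨α, β, γ, δ, a, b, c, d, -⟩ := stepKer_entries π (Additive.toMul x).2
    rw [map_nsmul]
    change p • linMat π _ = 0
    have h := natCast_mul_mm p e
    ext i j
    fin_cases i <;> fin_cases j <;> simp [linMat, a, b, c, d, ← mul_assoc, h]
  have DC : ∀ g x, D (C g x) = (π g : Matrix (Fin 2) (Fin 2) _) * D x *
      (((π g)⁻¹ : SL(2, ZMod (p ^ (e + 1 + 1)))) : Matrix (Fin 2) (Fin 2) _) := fun g x => by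
    change linMat π _ = _ * linMat π _ * _
    rw [Cval, linMat_conj]
  have Nt : ∀ g x, p • (C g x - x) = 0 := fun g x => by
    rw [smul_sub, ← map_nsmul, Dker _ (Dp x) g, sub_self]
  set w := u * l⁻¹ * u with hw
  have hπw : π w = rot := by
    rw [hw, map_mul, map_mul, map_inv, hu, hl, ← lwr_neg]
    apply sl_ext <;> simp [mul_apply00, mul_apply01, mul_apply10, mul_apply11]
  let U₀ : Additive (stepKer π) := Additive.ofMul ⟨_, u0_mem (π := π) hu⟩
  let L₀ : Additive (stepKer π) := Additive.ofMul ⟨_, l0_mem (π := π) hl⟩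
  set h₀ := C u L₀ - L₀ with hh₀
  set V := C u h₀ - h₀ with hV
  set L' := C w V with hL'
  set h := C u L' - L' with hh
  clear_value h₀ V L' h
  have DU₀ : D U₀ = !![0, mm p e; 0, 0] := linMat_u0 hu
  have DL₀ : D L₀ = !![0, 0; mm p e, 0] := linMat_l0 hl
  have DCu : ∀ x {a b c d}, D x = !![a, b; c, d] →
      D (C u x) = !![a + c, b + d - a - c; c, d - c] := fun x {a b c d} hx => by
    change linMat π _ = _
    rw [Cval]; exact linMat_conj_u hu _ hx
  have Dh₀ : D h₀ = !![mm p e, -mm p e; 0, -mm p e] := by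
    rw [hh₀, map_sub, DCu _ DL₀, DL₀]
    ext i j; fin_cases i <;> fin_cases j <;> simp
  have DV : D V = !![0, -2 * mm p e; 0, 0] := by
    rw [hV, map_sub, DCu _ Dh₀, Dh₀]
    ext i j; fin_cases i <;> fin_cases j <;> simp
    ring
  have DL' : D L' = !![0, 0; 2 * mm p e, 0] := by
    rw [hL', DC, DV, hπw, Matrix.SpecialLinearGroup.coe_inv, Matrix.adjugate_fin_two]
    ext i j; fin_cases i <;> fin_cases j <;> simp [Matrix.mul_apply, Fin.sum_univ_two]
  have hUU₀ : C u U₀ = U₀ := Additive.toMul.injective (Subtype.ext (by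
    rw [Cval]; exact (by rw [← pow_succ', pow_succ, mul_inv_cancel_right] :
      u * u ^ p ^ (e + 1) * u⁻¹ = u ^ p ^ (e + 1))))
  have UV : C u V = V := by
    have hz : D (V + (2 : ℕ) • U₀) = 0 := by
      rw [map_add, map_nsmul, DV, DU₀]; ext i j; fin_cases i <;> fin_cases j <;> simp
    have := Dker _ hz u
    rwa [map_add, map_nsmul, hUU₀, add_left_inj] at this
  have h2 : h = (2 : ℕ) • h₀ := by
    have hz : D (L' - (2 : ℕ) • L₀) = 0 := by
      rw [map_sub, map_nsmul, DL', DL₀]; ext i j; fin_cases i <;> fin_cases j <;> simp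
    have := Dker _ hz u
    rw [map_sub, map_nsmul] at this
    rw [hh, hh₀, smul_sub]
    exact sub_eq_sub_iff_sub_eq_sub.mp this
  have Uh : C u h = h + (2 : ℕ) • V := by
    rw [h2, map_nsmul, hV, smul_sub]; abel
  have UL' : C u L' = L' + h := by rw [hh]; abel
  have W2 : C w (C w V) = V := by
    have hww : ∀ x, D (C (w * w) x - x) = 0 := fun x => by
      rw [map_sub, DC, map_mul, hπw, sub_eq_zero, Matrix.SpecialLinearGroup.coe_inv,
        Matrix.adjugate_fin_two]
      ext i j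
      fin_cases i <;> fin_cases j <;>
        simp [Matrix.mul_apply, Fin.sum_univ_two, mul_apply00, mul_apply01, mul_apply10,
          mul_apply11]
    have hcomm : ∀ x, C (w * w) (C u x) = C u (C (w * w) x) := by
      intro x
      rw [← Ccomp, ← Ccomp]
      refine Ceq _ _ ?_ x
      simp only [map_mul, hπw, hu]
      apply sl_ext <;> simp [mul_apply00, mul_apply01, mul_apply10, mul_apply11]
    have hVh : C (w * w) V - V = 0 := by
      have hfix := Dker _ (hww h₀) u
      rw [map_sub] at hfix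
      calc C (w * w) V - V = C u (C (w * w) h₀) - C u h₀ - (C (w * w) h₀ - h₀) := by
            rw [hV, map_sub, hcomm]; abel
        _ = 0 := by rw [hfix]; abel
    rw [← Ccomp]; exact sub_eq_zero.mp hVh
  have WL' : C w L' = V := by rw [hL']; exact W2
  have Winv : ∀ x, C u⁻¹ (C u x) = x := fun x => by rw [← Ccomp, inv_mul_cancel, Cone]
  have U'h : C u⁻¹ h = h - (2 : ℕ) • V := by
    conv_rhs => rw [← Winv (h - (2 : ℕ) • V)]
    rw [map_sub (C u), Uh, map_nsmul (C u), UV, add_sub_cancel_right]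
  have U'V : C u⁻¹ V = V := by
    conv_rhs => rw [← Winv V]
    rw [UV]
  have U'L' : C u⁻¹ L' = L' - h + (2 : ℕ) • V := by
    conv_rhs => rw [← Winv (L' - h + (2 : ℕ) • V)]
    rw [map_add (C u), map_sub (C u), Uh, UL', map_nsmul (C u), UV]
    congr 1; abel
  set c := C w h + h - V - L' with hcdef
  have Wh : C w h = -h + V + L' + c := by rw [hcdef]; abel
  have Dc : D c = 0 := by
    rw [hcdef, map_sub, map_sub, map_add, DC, h2, map_nsmul, Dh₀, DV, DL', hπw,
      Matrix.SpecialLinearGroup.coe_inv, Matrix.adjugate_fin_two]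
    ext i j
    fin_cases i <;> fin_cases j <;> simp [Matrix.mul_apply, Fin.sum_univ_two]
  have hc0 : c = 0 := by
    have hπe : π (w * u) = π (u⁻¹ * (w * (u⁻¹ * w))) := by
      simp only [map_mul, map_inv, hπw, hu, ← upr_neg]
      apply sl_ext <;> simp [mul_apply00, mul_apply01, mul_apply10, mul_apply11]
    have := Ceq _ _ hπe V
    simp only [Ccomp] at this
    rw [UV] at this
    rw [← hL'] at this
    have e : C w (C u⁻¹ L') = h + L' - c := by
      rw [U'L', map_add, map_sub, map_nsmul, WL', Wh, ← hL']; abel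
    rw [e, map_sub, map_add, U'h, U'L', Dker _ Dc] at this
    have e2 : h - (2 : ℕ) • V + (L' - h + (2 : ℕ) • V) - c = L' - c := by abel
    rw [e2] at this
    exact sub_eq_self.mp this.symm
  rw [hc0, add_zero] at Wh
  set Mz : AddSubgroup (Additive (stepKer π)) := AddSubgroup.closure {V, h, L'} with hMz
  have mV : V ∈ Mz := AddSubgroup.subset_closure (by simp)
  have mh : h ∈ Mz := AddSubgroup.subset_closure (by simp)
  have mL : L' ∈ Mz := AddSubgroup.subset_closure (by simp)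
  have stab : ∀ g, C g V ∈ Mz → C g h ∈ Mz → C g L' ∈ Mz → ∀ x ∈ Mz, C g x ∈ Mz := by
    intro g a b c x hx
    induction hx using AddSubgroup.closure_induction with
    | mem y hy => rcases hy with rfl | rfl | rfl <;> assumption
    | zero => rw [map_zero]; exact zero_mem _
    | add y z _ _ hy hz => rw [map_add]; exact add_mem hy hz
    | neg y _ hy => rw [map_neg]; exact neg_mem hy
  have hWinv : ∀ x, C w⁻¹ (C w x) = x := fun x => by rw [← Ccomp, inv_mul_cancel, Cone]
  have hWV' : C w⁻¹ V = L' := by rw [← WL', hWinv]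
  have hWL' : C w⁻¹ L' = V := by rw [hL', hWinv]
  have hWh' : C w⁻¹ h = -h + V + L' := by
    have := hWinv (-h + V + L')
    rwa [map_add (C w), map_add (C w), map_neg (C w), Wh, WL', ← hL',
      show -(-h + V + L') + L' + V = h by abel] at this
  let S : Subgroup Q :=
    { carrier := {g | (∀ x ∈ Mz, C g x ∈ Mz) ∧ ∀ x ∈ Mz, C g⁻¹ x ∈ Mz}
      one_mem' := ⟨fun x hx => by rwa [Cone], fun x hx => by rwa [inv_one, Cone]⟩
      mul_mem' := fun {a b} ha hb =>
        ⟨fun x hx => by rw [Ccomp]; exact ha.1 _ (hb.1 x hx),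
          fun x hx => by rw [mul_inv_rev, Ccomp]; exact hb.2 _ (ha.2 x hx)⟩
      inv_mem' := fun {a} ha => ⟨ha.2, fun x hx => by rw [inv_inv]; exact ha.1 x hx⟩ }
  have hSu : u ∈ S :=
    ⟨stab u (by rw [UV]; exact mV) (by rw [Uh]; exact add_mem mh (nsmul_mem mV 2))
        (by rw [UL']; exact add_mem mL mh),
      stab _ (by rw [U'V]; exact mV) (by rw [U'h]; exact sub_mem mh (nsmul_mem mV 2))
        (by rw [U'L']; exact add_mem (sub_mem mL mh) (nsmul_mem mV 2))⟩
  have hSw : w ∈ S :=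
    ⟨stab w (by rw [← hL']; exact mL) (by rw [Wh]; exact add_mem (add_mem (neg_mem mh) mV) mL) (by rw [WL']; exact mV),
      stab _ (by rw [hWV']; exact mL)
        (by rw [hWh']; exact add_mem (add_mem (neg_mem mh) mV) mL) (by rw [hWL']; exact mV)⟩
  have hS : S = ⊤ := by
    rw [eq_top_iff, ← hgen, Subgroup.closure_le]
    rintro g (rfl | rfl)
    · exact hSu
    · have : g = u * w⁻¹ * u := by rw [hw]; group
      rw [this]
      exact mul_mem (mul_mem hSu (inv_mem hSw)) hSu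
  let M₀ : Subgroup Q := (AddSubgroup.toSubgroup' Mz).map (stepKer π).subtype
  have memM₀ : ∀ x, x ∈ M₀ ↔ ∃ y ∈ Mz, ((Additive.toMul y : stepKer π) : Q) = x := fun x =>
    ⟨fun ⟨y, hy, hyx⟩ => ⟨Additive.ofMul y, hy, hyx⟩,
      fun ⟨y, hy, hyx⟩ => ⟨Additive.toMul y, hy, hyx⟩⟩
  refine ⟨M₀, ⟨fun x hx g => ?_⟩, fun x hx => ?_, ?_, fun x hx => ?_⟩
  · obtain ⟨y, hy, rfl⟩ := (memM₀ x).mp hx
    exact (memM₀ _).mpr ⟨_, (hS ▸ Subgroup.mem_top g : g ∈ S).1 y hy, Cval g y⟩
  · obtain ⟨y, -, rfl⟩ := (memM₀ x).mp hx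
    exact (Additive.toMul y).2
  · rw [eq_bot_iff]
    rintro x ⟨hx, hxk⟩
    obtain ⟨y, hy, rfl⟩ := (memM₀ x).mp hx
    have hy0 : D y = 0 := (mem_ker_iff_linMat π).mp hxk
    obtain ⟨i, j, k, rfl⟩ : ∃ i j k : ℤ, y = i • V + j • h + k • L' := by
      clear hx hxk hy0
      induction hy using AddSubgroup.closure_induction with
      | mem z hz => rcases hz with rfl | rfl | rfl
                    exacts [⟨1, 0, 0, by simp⟩, ⟨0, 1, 0, by simp⟩, ⟨0, 0, 1, by simp⟩]
      | zero => exact ⟨0, 0, 0, by simp⟩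
      | add a b _ _ ha hb =>
        obtain ⟨i, j, k, rfl⟩ := ha
        obtain ⟨i', j', k', rfl⟩ := hb
        exact ⟨i + i', j + j', k + k', by simp only [add_smul]; abel⟩
      | neg a _ ha =>
        obtain ⟨i, j, k, rfl⟩ := ha
        exact ⟨-i, -j, -k, by simp only [neg_smul]; abel⟩
    rw [map_add, map_add, map_zsmul, map_zsmul, map_zsmul, h2, map_nsmul, DV, Dh₀, DL'] at hy0
    have e00 := congrFun (congrFun hy0 0) 0
    have e01 := congrFun (congrFun hy0 0) 1
    have e10 := congrFun (congrFun hy0 1) 0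
    simp at e00 e01 e10
    have hpp : Prime (p : ℤ) := Nat.prime_iff_prime_int.mp Fact.out
    have hp2' : ¬ (p : ℤ) ∣ 2 := fun hd => hp2 ((Nat.prime_dvd_prime_iff_eq Fact.out
      Nat.prime_two).mp (by exact_mod_cast hd))
    have pj : (p : ℤ) ∣ j := by
      refine (hpp.dvd_or_dvd (mm_mul_intCast_eq_zero (e := e) (k := 2 * j) ?_)).resolve_left hp2'
      push_cast; linear_combination e00
    have pk : (p : ℤ) ∣ k := by
      refine (hpp.dvd_or_dvd (mm_mul_intCast_eq_zero (e := e) (k := 2 * k) ?_)).resolve_left hp2'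
      push_cast; linear_combination e10
    have pi : (p : ℤ) ∣ i := by
      have : (p : ℤ) ∣ i + j := by
        refine (hpp.dvd_or_dvd
          (mm_mul_intCast_eq_zero (e := e) (k := 2 * (i + j)) ?_)).resolve_left hp2'
        push_cast; linear_combination -e01
      exact (dvd_add_left pj).mp this
    have tors : ∀ {x : Additive (stepKer π)} {n : ℤ}, p • x = 0 → (p : ℤ) ∣ n → n • x = 0 := by
      rintro x n hx ⟨t, rfl⟩
      rw [mul_comm, mul_smul, natCast_zsmul, hx, smul_zero]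
    have tV : p • V = 0 := by rw [hV]; exact Nt u h₀
    have th : p • h = 0 := by rw [hh]; exact Nt u L'
    rw [tors tV pi, tors th pj, tors (by rw [hL', ← map_nsmul, tV, map_zero] : p • L' = 0) pk]
    simp
  · let Z : AddSubgroup (Additive (stepKer π)) := D.ker
    have key : ∀ y, (2 : ℕ) • y ∈ Z ⊔ Mz → y ∈ Z ⊔ Mz := by
      intro y hy
      obtain ⟨t, ht⟩ : ∃ t, p = 2 * t + 1 := ((Fact.out : p.Prime).odd_of_ne_two hp2)
      have hpy : p • y ∈ Z ⊔ Mz := (le_sup_left : Z ≤ Z ⊔ Mz) (Dp y)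
      have e : y = p • y - t • ((2 : ℕ) • y) := by
        have h' : p • y = (2 * t + 1) • y := congrArg (· • y) ht
        rw [h', add_nsmul, one_nsmul, mul_nsmul, add_sub_cancel_left]
      rw [e]
      exact sub_mem hpy (nsmul_mem hy t)
    have hmh : h₀ ∈ Z ⊔ Mz := key _ ((le_sup_right : Mz ≤ Z ⊔ Mz) (h2 ▸ mh))
    have hmU : U₀ ∈ Z ⊔ Mz := by
      refine key _ ?_
      have : (2 : ℕ) • U₀ = (V + (2 : ℕ) • U₀) - V := by abel
      rw [this]
      refine sub_mem ((le_sup_left : Z ≤ Z ⊔ Mz) ?_) ((le_sup_right : Mz ≤ Z ⊔ Mz) mV)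
      change D _ = 0
      rw [map_add, map_nsmul, DV, DU₀]; ext i j; fin_cases i <;> fin_cases j <;> simp
    have hmL : L₀ ∈ Z ⊔ Mz := by
      refine key _ ?_
      have : (2 : ℕ) • L₀ = L' - (L' - (2 : ℕ) • L₀) := by abel
      rw [this]
      refine sub_mem ((le_sup_right : Mz ≤ Z ⊔ Mz) mL) ((le_sup_left : Z ≤ Z ⊔ Mz) ?_)
      change D _ = 0
      rw [map_sub, map_nsmul, DL', DL₀]; ext i j; fin_cases i <;> fin_cases j <;> simp
    have hmH : C u L₀ ∈ Z ⊔ Mz := by
      have : C u L₀ = h₀ + L₀ := by rw [hh₀]; abel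
      rw [this]; exact add_mem hmh hmL
    obtain ⟨i, j, k, z, hz, hxe⟩ := stepKer_decomp hu hl hx
    have hX : Additive.ofMul (⟨x, hx⟩ : stepKer π) = i • U₀ + j • C u L₀ + k • L₀ +
        Additive.ofMul (⟨z, ker_le_stepKer π hz⟩ : stepKer π) := by
      apply Additive.toMul.injective
      apply Subtype.ext
      simp only [toMul_ofMul, toMul_add, toMul_nsmul, Subgroup.coe_mul, SubgroupClass.coe_pow,
        Cval, U₀, L₀]
      exact hxe
    have : Additive.ofMul (⟨x, hx⟩ : stepKer π) ∈ Z ⊔ Mz := by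
      rw [hX]
      exact add_mem (add_mem (add_mem (nsmul_mem hmU i) (nsmul_mem hmH j)) (nsmul_mem hmL k))
        ((le_sup_left : Z ≤ Z ⊔ Mz) ((mem_ker_iff_linMat π).mp hz))
    obtain ⟨a, ha, b, hb, hab⟩ := AddSubgroup.mem_sup.mp this
    exact ⟨_, (mem_ker_iff_linMat π).mpr ha, _, (memM₀ _).mpr ⟨b, hb, rfl⟩,
      (congrArg (fun y => ((Additive.toMul y : stepKer π) : Q)) hab).symm⟩

end Step

/-- A central extension by an exponent `p` group of the subgroup generated by the two standard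
unipotents of `SL(2, ℤ/p^(e+1))`: the kernel meets the commutator subgroup trivially. -/
theorem pLocal (hp2 : p ≠ 2) (e : ℕ) {Q : Type v} [Group Q]
    (π : Q →* SL(2, ZMod (p ^ (e + 1)))) (u l : Q) (hgen : Subgroup.closure {u, l} = ⊤)
    (hu : π u = upr 1) (hl : π l = lwr 1) (hc : π.ker ≤ Subgroup.center Q)
    (hexp : ∀ z ∈ π.ker, z ^ p = 1) : π.ker ⊓ commutator Q = ⊥ := by
  induction e generalizing Q with
  | zero =>
    haveI : NeZero (p ^ (0 + 1)) := ⟨pow_ne_zero _ (Fact.out : p.Prime).ne_zero⟩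
    exact ker_inf_commutator_eq_bot π hc hexp fun P hP =>
      isCyclic_pGroup_SL2_self' (pow_one p) P hP
  | succ e ih =>
    obtain ⟨M₀, hM₀, hle, hdisj, hdec⟩ := exists_normal_complement hp2 hc hexp hgen hu hl
    let π' : Q ⧸ M₀ →* SL(2, ZMod (p ^ (e + 1))) :=
      QuotientGroup.lift M₀ ((redStep p e).comp π) hle
    have hker : ∀ x ∈ π'.ker, ∃ z ∈ π.ker, x = QuotientGroup.mk' M₀ z := by
      intro x hx
      obtain ⟨y, rfl⟩ := QuotientGroup.mk'_surjective M₀ x
      obtain ⟨z, hz, m, hm, rfl⟩ := hdec y hx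
      refine ⟨z, hz, ?_⟩
      rw [map_mul, show QuotientGroup.mk' M₀ m = 1 from (QuotientGroup.eq_one_iff m).mpr hm,
        mul_one]
    have := ih π' (QuotientGroup.mk' M₀ u) (QuotientGroup.mk' M₀ l)
      (by
        rw [← Set.image_pair, ← MonoidHom.map_closure, hgen,
          Subgroup.map_top_of_surjective _ (QuotientGroup.mk'_surjective M₀)])
      (by change redStep p e (π u) = upr 1; simp [hu, -ZMod.castHom_apply])
      (by change redStep p e (π l) = lwr 1; simp [hl, -ZMod.castHom_apply])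
      (fun x hx => by
        obtain ⟨z, hz, rfl⟩ := hker x hx
        rw [Subgroup.mem_center_iff]
        intro y
        obtain ⟨y, rfl⟩ := QuotientGroup.mk'_surjective M₀ y
        rw [← map_mul, ← map_mul, Subgroup.mem_center_iff.mp (hc hz) y])
      (fun x hx => by
        obtain ⟨z, hz, rfl⟩ := hker x hx
        rw [← map_pow, hexp z hz, map_one])
    rw [eq_bot_iff]
    rintro z ⟨hz, hzc⟩
    have h1 : QuotientGroup.mk' M₀ z ∈ π'.ker ⊓ commutator (Q ⧸ M₀) := by
      refine ⟨?_, ?_⟩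
      · change redStep p e (π z) = 1
        rw [MonoidHom.mem_ker.mp hz, map_one]
      · have hm : (commutator Q).map (QuotientGroup.mk' M₀) ≤ commutator (Q ⧸ M₀) := by
          rw [commutator_def, commutator_def, Subgroup.map_commutator]
          exact Subgroup.commutator_mono le_top le_top
        exact hm ⟨z, hzc, rfl⟩
    rw [this, Subgroup.mem_bot] at h1
    rw [← hdisj]
    exact ⟨(QuotientGroup.eq_one_iff z).mp h1, hz⟩

end Fermat.Agent.LevelRaising
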