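import Fermat.Agent.LevelRaising.Twist
import Fermat.Agent.LevelRaising.PLocal
import Fermat.Agent.LevelRaising.Generate
import Mathlib.Algebra.Group.Subgroup.Lattice

/-! A homomorphism on `Γ₀(N) ⊆ SL(2, ℤ[1/q])` to a group of odd prime exponent which kills all
unipotents kills a principal congruence subgroup. -/

set_option linter.style.haveILetI false
set_option linter.unusedSectionVars false

namespace Fermat.Agent.LevelRaising

open scoped MatrixGroups commutatorElement

/-- `Γ₀(N)` in `SL(2, ℤ[1/q])` -/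
def gamma0Away (q N : ℕ) : Subgroup SL(2, Zq q) where
  carrier := {g | (N : Zq q) ∣ g 1 0}
  one_mem' := by simp
  mul_mem' {g h} hg hh := by
    simp only [Set.mem_ofPred_eq] at hg hh ⊢
    rw [mul_apply10]
    exact dvd_add (hg.mul_right _) (hh.mul_left _)
  inv_mem' {g} hg := by
    simp only [Set.mem_ofPred_eq] at hg ⊢
    rw [Matrix.SpecialLinearGroup.coe_inv, Matrix.adjugate_fin_two]
    simp only [Matrix.cons_val', Matrix.cons_val_zero, Matrix.cons_val_one, Matrix.of_apply, Matrix.cons_val_fin_one]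
    exact dvd_neg.mpr hg

/-- the congruence level attached to `N` -/
def levelM (q N : ℕ) : ℕ := if q = 2 then N else 2 ^ (N + 2) * N

variable {q N : ℕ}

theorem dvd_levelM : N ∣ levelM q N := by
  rw [levelM]; split_ifs
  · exact dvd_rfl
  · exact dvd_mul_left _ _

theorem levelM_ne_zero (hN : N ≠ 0) : levelM q N ≠ 0 := by
  rw [levelM]; split_ifs <;> simp [hN]

theorem coprime_levelM (hq : q.Prime) (hqN : ¬ q ∣ N) : q.Coprime (levelM q N) := by
  rw [levelM]; split_ifs with h
  · exact hq.coprime_iff_not_dvd.mpr hqN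
  · exact (((Nat.coprime_primes hq Nat.prime_two).mpr h).pow_right _).mul_right
      (hq.coprime_iff_not_dvd.mpr hqN)

theorem twistLevel_levelM (hq : q.Prime) (hN : N ≠ 0) (hqN : ¬ q ∣ N) :
    TwistLevel q (levelM q N) := by
  rw [levelM]; split_ifs with h
  · subst h
    exact Or.inl ⟨rfl, Nat.odd_iff.mpr (by omega)⟩
  · refine Or.inr ⟨h, N + 2, by omega, dvd_mul_right _ _, fun r hr hrM hr2 hd => ?_⟩
    have hrN : r ∣ N := by
      rcases (Nat.Prime.dvd_mul hr).mp hrM with h' | h'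
      · exact absurd ((Nat.prime_dvd_prime_iff_eq hr Nat.prime_two).mp
          (hr.dvd_of_dvd_pow h')) hr2
      · exact h'
    have h1 := Nat.le_of_dvd (by have := hr.two_le; omega) hd
    have h2 : N + 2 < 2 ^ (N + 2) := Nat.lt_two_pow_self
    have := Nat.le_of_dvd (Nat.pos_of_ne_zero hN) hrN
    omega

theorem congSub_le_gamma0Away {M : ℕ} {h : q.Coprime M} (hNM : N ∣ M) :
    congSub h ≤ gamma0Away q N := fun _ hg =>
  (Nat.cast_dvd_cast hNM).trans (mem_congSub.mp hg).2.2.1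

theorem mem_genSub_of_mem_congSub {M : ℕ} {h : q.Coprime M} (hq : q.Prime)
    (hM : q = 2 ∨ 2 ∣ M) {g : SL(2, Zq q)} (hg : g ∈ congSub h) : g ∈ genSub q := by
  refine mem_genSub_of_two_dvd hq ?_
  rcases hM with rfl | hM
  · have : IsUnit ((2 : ℕ) : Zq 2) := isUnit_natCast_self
    exact (by simpa using this : IsUnit (2 : Zq 2)).dvd
  · have h2 : ((2 : ℕ) : Zq q) ∣ (M : Zq q) := Nat.cast_dvd_cast hM
    simpa using h2.trans (mem_congSub.mp hg).2.2.1

section Idem

theorem exists_idem {M : ℕ} (hM : M ≠ 0) {r : ℕ} (hr : r.Prime) :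
    ∃ e : ℕ, (e : ZMod (ordProj[r] M)) = 1 ∧ (e : ZMod (ordCompl[r] M)) = 0 := by
  obtain ⟨e, he⟩ := Nat.chineseRemainder
    ((Nat.Coprime.pow_left _ (Nat.coprime_ordCompl hr hM))) 1 0
  refine ⟨e, ?_, ?_⟩
  · simpa using (ZMod.natCast_eq_natCast_iff _ _ _).mpr he.1
  · simpa using (ZMod.natCast_eq_natCast_iff _ _ _).mpr he.2

theorem dvd_of_forall_ordProj_dvd {R : Type*} [CommRing R] {M : ℕ} (hM : M ≠ 0) {x : R}
    (h : ∀ r ∈ M.primeFactors, ((ordProj[r] M : ℕ) : R) ∣ x) : (M : R) ∣ x := by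
  conv_lhs => rw [← Nat.prod_factorization_pow_eq_self hM]
  rw [Finsupp.prod, Nat.cast_prod]
  refine Finset.prod_dvd_of_coprime (fun a ha b hb hab => ?_)
    fun r hr => h r (by simpa using hr)
  simp only [Nat.support_factorization, Finset.mem_coe, Nat.mem_primeFactors] at ha hb
  exact Nat.Coprime.cast
    (((Nat.coprime_primes ha.1 hb.1).mpr hab).pow _ _)

end Idem

section Main

variable {M p : ℕ} [Fact p.Prime] {C : Type*} [CommGroup C]

/-- The hypotheses of the argument. -/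
structure CongData (q N M p : ℕ) (C : Type*) [CommGroup C] where
  χ : gamma0Away q N →* C
  prime : q.Prime
  cop : q.Coprime M
  ne_zero : M ≠ 0
  dvd : N ∣ M
  two : q = 2 ∨ 2 ∣ M
  level : TwistLevel q M
  exp : ∀ c : C, c ^ p = 1
  unip : ∀ (g : SL(2, Zq q)) (t : Zq q) (h : g * upr t * g⁻¹ ∈ gamma0Away q N),
    χ ⟨g * upr t * g⁻¹, h⟩ = 1

namespace CongData

variable (d : CongData q N M p C)

/-- restriction to the principal congruence subgroup -/
noncomputable def χM : congSub d.cop →* C :=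
  d.χ.comp (Subgroup.inclusion (congSub_le_gamma0Away d.dvd))

theorem upr_mem (s : Zq q) : upr s ∈ gamma0Away q N := by simp [gamma0Away]

theorem χ_upr (s : Zq q) : d.χ ⟨upr s, upr_mem s⟩ = 1 := by
  have h := d.unip 1 s (by simpa using upr_mem s)
  simpa using h

/-- elements of `congSub` killed by `χ` -/
noncomputable def kerSub : Subgroup SL(2, Zq q) := d.χM.ker.map (congSub d.cop).subtype

theorem mem_kerSub {x : SL(2, Zq q)} :
    x ∈ d.kerSub ↔ ∃ h : x ∈ congSub d.cop, d.χM ⟨x, h⟩ = 1 :=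
  ⟨fun ⟨y, hy, hyx⟩ => hyx ▸ ⟨y.2, hy⟩, fun ⟨h, h'⟩ => ⟨⟨x, h⟩, h', rfl⟩⟩

theorem elemSub_le_kerSub : elemSub q M ≤ d.kerSub := by
  rw [elemSub, Subgroup.normalClosure, Subgroup.closure_le]
  intro x hx
  obtain ⟨a, ⟨t, rfl⟩, hax⟩ := Group.mem_conjugatesOfSet_iff.mp hx
  obtain ⟨g, rfl⟩ := isConj_iff.mp hax
  have hmem : g * upr ((M : Zq q) * t) * g⁻¹ ∈ congSub d.cop :=
    (MonoidHom.normal_ker _).conj_mem _
      (elemSub_le_congSub d.cop (upr_mem_elemSub (dvd_mul_right _ _))) g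
  exact d.mem_kerSub.mpr ⟨hmem, d.unip g _ (congSub_le_gamma0Away d.dvd hmem)⟩

theorem χM_conj {g : SL(2, Zq q)} (hg : g ∈ genSub q) : ∀ x : congSub d.cop,
    d.χM ⟨g * x * g⁻¹, (MonoidHom.normal_ker _).conj_mem _ x.2 g⟩ = d.χM x := by
  induction hg using Subgroup.closure_induction with
  | mem y hy =>
    intro x
    rcases hy with (⟨s, rfl⟩ | ⟨t, rfl⟩) | hy
    · have e : d.χM ⟨upr s * x * (upr s)⁻¹, (MonoidHom.normal_ker _).conj_mem _ x.2 _⟩ =
          d.χ ⟨upr s, upr_mem s⟩ * d.χM x * (d.χ ⟨upr s, upr_mem s⟩)⁻¹ := by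
        rw [χM, MonoidHom.comp_apply, MonoidHom.comp_apply, ← map_inv, ← map_mul, ← map_mul]
        exact congrArg d.χ (Subtype.ext rfl)
      rw [e, mul_comm (d.χ _), mul_inv_cancel_right]
    · have hc := commute_cls_lwr_two_mul d.prime d.level d.ne_zero x.2 t
      have hmem : lwr (2 * t) * x * (lwr (2 * t))⁻¹ * (x : SL(2, Zq q))⁻¹ ∈ elemSub q M := by
        rw [← QuotientGroup.eq_one_iff]
        simp only [QuotientGroup.mk_mul, QuotientGroup.mk_inv]
        simp only [cls, Commute, SemiconjBy] at hc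
        rw [hc]; simp
      obtain ⟨h, h'⟩ := d.mem_kerSub.mp (d.elemSub_le_kerSub hmem)
      rw [← div_eq_one, ← map_div]
      convert h' using 2
      exact Subtype.ext (by simp [div_eq_mul_inv])
    · rw [Set.mem_singleton_iff] at hy
      subst hy
      exact congrArg d.χM (Subtype.ext (by simp))
  | one => intro x; exact congrArg d.χM (Subtype.ext (by simp))
  | mul a b _ _ ha hb =>
    intro x
    rw [← hb x, ← ha ⟨b * x * b⁻¹, (MonoidHom.normal_ker _).conj_mem _ x.2 b⟩]
    exact congrArg d.χM (Subtype.ext (by simp [mul_assoc]))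
  | inv a _ ha =>
    intro x
    rw [← ha ⟨a⁻¹ * x * a⁻¹⁻¹, (MonoidHom.normal_ker _).conj_mem _ x.2 a⁻¹⟩]
    exact congrArg d.χM (Subtype.ext (by simp [mul_assoc]))

theorem kerSub_normal : (d.kerSub.subgroupOf (genSub q)).Normal := by
  refine ⟨fun x hx g => ?_⟩
  obtain ⟨h, h'⟩ := d.mem_kerSub.mp hx
  refine d.mem_kerSub.mpr ⟨(MonoidHom.normal_ker _).conj_mem _ h g, ?_⟩
  exact (d.χM_conj g.2 ⟨x, h⟩).trans h'

/-- the central extension -/
abbrev Ext : Type := genSub q ⧸ d.kerSub.subgroupOf (genSub q)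

noncomputable instance : (d.kerSub.subgroupOf (genSub q)).Normal := d.kerSub_normal

/-- class of an element of the group generated -/
noncomputable def cl : genSub q →* d.Ext := QuotientGroup.mk' _

theorem cl_eq_one {g : genSub q} : d.cl g = 1 ↔ (g : SL(2, Zq q)) ∈ d.kerSub := by
  rw [cl, QuotientGroup.mk'_apply, QuotientGroup.eq_one_iff, Subgroup.mem_subgroupOf]

theorem cl_surjective : Function.Surjective d.cl := QuotientGroup.mk'_surjective _

/-- the projection to `SL(2, ℤ/n)` for `n ∣ M` -/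
noncomputable def proj {n : ℕ} (hn : n ∣ M) : d.Ext →* SL(2, ZMod n) :=
  QuotientGroup.lift _ ((slMap (red (d.cop.coprime_dvd_right hn))).comp (genSub q).subtype)
    fun g hg => by
      obtain ⟨h, -⟩ := d.mem_kerSub.mp hg
      rw [mem_congSub] at h
      have hd : (n : Zq q) ∣ (M : Zq q) := Nat.cast_dvd_cast hn
      rw [MonoidHom.mem_ker, MonoidHom.comp_apply, slMap_eq_one_iff, Subgroup.coe_subtype]
      refine ⟨?_, (red_eq_zero_iff _).mpr (hd.trans h.2.1),
        (red_eq_zero_iff _).mpr (hd.trans h.2.2.1), ?_⟩ <;>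
        rw [← sub_eq_zero, ← map_one (red (d.cop.coprime_dvd_right hn)), ← map_sub,
          red_eq_zero_iff]
      · exact hd.trans h.1
      · exact hd.trans h.2.2.2

theorem proj_cl {n : ℕ} (hn : n ∣ M) (g : genSub q) :
    d.proj hn (d.cl g) = slMap (red (d.cop.coprime_dvd_right hn)) (g : SL(2, Zq q)) := rfl

/-- image of the principal congruence subgroup -/
noncomputable def centre : Subgroup d.Ext := (d.proj dvd_rfl).ker

theorem mem_centre {g : genSub q} : d.cl g ∈ d.centre ↔ (g : SL(2, Zq q)) ∈ congSub d.cop :=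
  Iff.rfl

theorem centre_le : d.centre ≤ Subgroup.center d.Ext := by
  intro x hx
  obtain ⟨x, rfl⟩ := d.cl_surjective x
  rw [Subgroup.mem_center_iff]
  intro y
  obtain ⟨y, rfl⟩ := d.cl_surjective y
  have hxc : (x : SL(2, Zq q)) ∈ congSub d.cop := d.mem_centre.mp hx
  rw [← mul_inv_eq_iff_eq_mul, ← mul_inv_eq_one, ← map_mul, ← map_inv, ← map_mul, ← map_inv,
    ← map_mul, cl_eq_one]
  have hm : (y : SL(2, Zq q)) * x * (y : SL(2, Zq q))⁻¹ ∈ congSub d.cop :=
    (MonoidHom.normal_ker _).conj_mem _ hxc _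
  refine d.mem_kerSub.mpr ⟨mul_mem hm (inv_mem hxc), ?_⟩
  have : d.χM (⟨_, hm⟩ * ⟨_, hxc⟩⁻¹) = 1 := by
    rw [map_mul, map_inv, d.χM_conj y.2 ⟨x, hxc⟩, mul_inv_cancel]
  exact this

theorem centre_pow {x : d.Ext} (hx : x ∈ d.centre) : x ^ p = 1 := by
  obtain ⟨x, rfl⟩ := d.cl_surjective x
  rw [← map_pow, cl_eq_one]
  have h := pow_mem (d.mem_centre.mp hx) p
  refine d.mem_kerSub.mpr ⟨h, ?_⟩
  change d.χM (⟨_, d.mem_centre.mp hx⟩ ^ p) = 1
  rw [map_pow, d.exp]

/-- idempotent attached to `r` -/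
noncomputable def idem (r : M.primeFactors) : ℕ :=
  (exists_idem d.ne_zero (Nat.prime_of_mem_primeFactors r.2)).choose

theorem idem_spec (r : M.primeFactors) :
    (d.idem r : ZMod (ordProj[(r : ℕ)] M)) = 1 ∧ (d.idem r : ZMod (ordCompl[(r : ℕ)] M)) = 0 :=
  (exists_idem d.ne_zero (Nat.prime_of_mem_primeFactors r.2)).choose_spec

theorem ordProj_dvd_M (r : ℕ) : ordProj[r] M ∣ M := Nat.ordProj_dvd M r

theorem idem_eq_zero {r r' : M.primeFactors} (h : r ≠ r') :
    (d.idem r : ZMod (ordProj[(r' : ℕ)] M)) = 0 := by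
  have h1 := (d.idem_spec r).2
  rw [ZMod.natCast_eq_zero_iff] at h1 ⊢
  refine dvd_trans ?_ h1
  refine Nat.Coprime.dvd_of_dvd_mul_left (m := ordProj[(r : ℕ)] M) ?_ ?_
  · exact ((Nat.coprime_primes (Nat.prime_of_mem_primeFactors r'.2)
      (Nat.prime_of_mem_primeFactors r.2)).mpr fun e => h (Subtype.ext e.symm)).pow _ _
  · rw [Nat.ordProj_mul_ordCompl_eq_self]; exact Nat.ordProj_dvd M _

theorem sum_idem : (M : Zq q) ∣ (∑ r : M.primeFactors, (d.idem r : Zq q)) - 1 := by
  refine dvd_of_forall_ordProj_dvd d.ne_zero fun r hr => ?_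
  rw [← red_eq_zero_iff (h := d.cop.coprime_dvd_right (ordProj_dvd_M r)), map_sub, map_sum,
    map_one, Finset.sum_eq_single ⟨r, hr⟩ (fun b _ hb => by
      rw [map_natCast]; exact d.idem_eq_zero hb) (by simp), map_natCast]
  exact sub_eq_zero.mpr (d.idem_spec ⟨r, hr⟩).1

/-- upper generator -/
noncomputable def genU (r : M.primeFactors) (s : Zq q) : d.Ext :=
  d.cl ⟨upr (d.idem r * s), upr_mem_genSub _⟩

/-- lower generator -/
noncomputable def genL (r : M.primeFactors) (t : Zq q) : d.Ext :=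
  d.cl ⟨lwr (2 * (d.idem r * t)), lwr_mem_genSub _⟩

/-- component at `r` -/
noncomputable def comp (r : M.primeFactors) : Subgroup d.Ext :=
  Subgroup.closure (Set.range (d.genU r) ∪ Set.range (d.genL r))

theorem genU_mem (r : M.primeFactors) (s : Zq q) : d.genU r s ∈ d.comp r :=
  Subgroup.subset_closure (Or.inl ⟨s, rfl⟩)

theorem genL_mem (r : M.primeFactors) (t : Zq q) : d.genL r t ∈ d.comp r :=
  Subgroup.subset_closure (Or.inr ⟨t, rfl⟩)

theorem proj_comp {r r' : M.primeFactors} (h : r ≠ r') {x : d.Ext} (hx : x ∈ d.comp r) :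
    d.proj (ordProj_dvd_M (M := M) (r' : ℕ)) x = 1 := by
  have : d.comp r ≤ (d.proj (ordProj_dvd_M (M := M) (r' : ℕ))).ker := by
    rw [comp, Subgroup.closure_le]
    rintro _ (⟨s, rfl⟩ | ⟨t, rfl⟩) <;>
      simp [genU, genL, MonoidHom.mem_ker, proj_cl, d.idem_eq_zero h]
  exact this hx

theorem mem_centre_of_proj {x : d.Ext}
    (h : ∀ r : M.primeFactors, d.proj (ordProj_dvd_M (M := M) (r : ℕ)) x = 1) :
    x ∈ d.centre := by
  obtain ⟨g, rfl⟩ := d.cl_surjective x
  rw [mem_centre, mem_congSub]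
  have : ∀ r : M.primeFactors, _ := fun r => (slMap_eq_one_iff
    (red (d.cop.coprime_dvd_right (ordProj_dvd_M (M := M) (r : ℕ)))) (g : SL(2, Zq q))).mp (h r)
  refine ⟨?_, ?_, ?_, ?_⟩ <;>
    refine dvd_of_forall_ordProj_dvd d.ne_zero fun r hr => ?_ <;>
    rw [← red_eq_zero_iff (h := d.cop.coprime_dvd_right (ordProj_dvd_M r))]
  · rw [map_sub, (this ⟨r, hr⟩).1, map_one, sub_self]
  · exact (this ⟨r, hr⟩).2.1
  · exact (this ⟨r, hr⟩).2.2.1
  · rw [map_sub, (this ⟨r, hr⟩).2.2.2, map_one, sub_self]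

theorem dvd_ordProj_mul_idem (r : M.primeFactors) :
    (M : Zq q) ∣ ((ordProj[(r : ℕ)] M : ℕ) : Zq q) * d.idem r := by
  rw [← Nat.cast_mul]
  refine Nat.cast_dvd_cast ?_
  conv_lhs => rw [← Nat.ordProj_mul_ordCompl_eq_self M (r : ℕ)]
  exact mul_dvd_mul_left _ ((ZMod.natCast_eq_zero_iff _ _).mp (d.idem_spec r).2)

theorem gen_pow_eq_one (r : M.primeFactors) {x : d.Ext}
    (hx : x ∈ Set.range (d.genU r) ∪ Set.range (d.genL r)) :
    x ^ ordProj[(r : ℕ)] M = 1 := by
  rcases hx with ⟨s, rfl⟩ | ⟨t, rfl⟩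
  · rw [genU, ← map_pow, cl_eq_one, SubgroupClass.coe_pow, upr_pow]
    exact d.elemSub_le_kerSub (upr_mem_elemSub
      (by rw [← mul_assoc]; exact (d.dvd_ordProj_mul_idem r).mul_right s))
  · rw [genL, ← map_pow, cl_eq_one, SubgroupClass.coe_pow, lwr_pow]
    refine d.elemSub_le_kerSub (lwr_mem_elemSub ?_)
    rw [mul_left_comm, ← mul_assoc ((ordProj[(r : ℕ)] M : ℕ) : Zq q)]
    exact ((d.dvd_ordProj_mul_idem r).mul_right t).mul_left 2

theorem comm_gen {r r' : M.primeFactors} (h : r ≠ r') {x y : d.Ext}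
    (hx : x ∈ Set.range (d.genU r) ∪ Set.range (d.genL r))
    (hy : y ∈ Set.range (d.genU r') ∪ Set.range (d.genL r')) : x * y = y * x := by
  rw [← commutatorElement_eq_one_iff_mul_comm]
  have hz : ⁅x, y⁆ ∈ d.centre := by
    refine d.mem_centre_of_proj fun s => ?_
    rw [map_commutatorElement]
    by_cases hs : r = s
    · rw [d.proj_comp (hs ▸ h.symm) (Subgroup.subset_closure hy)]
      simp [commutatorElement_def]
    · rw [d.proj_comp hs (Subgroup.subset_closure hx)]
      simp [commutatorElement_def]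
  have hzc := d.centre_le hz
  have hcast : ∀ {a b : d.Ext} (_ : ⁅a, b⁆ ∈ Subgroup.center d.Ext) (n : ℕ),
      ⁅a, b⁆ ^ n = ⁅a ^ n, b⁆ := by
    intro a b hab n
    induction n with
    | zero => simp [commutatorElement_def]
    | succ n ih => rw [pow_succ a, comm_mul_left hab, ← ih, pow_succ]
  have key : ∀ (a b : d.Ext) (n : ℕ), ⁅a, b⁆ ∈ d.centre → a ^ n = 1 → p.Coprime n →
      ⁅a, b⁆ = 1 := by
    intro a b n hab han hn
    have h1 : ⁅a, b⁆ ^ n = 1 := by
      rw [hcast (d.centre_le hab), han]; simp [commutatorElement_def]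
    have h3 : orderOf ⁅a, b⁆ ∣ Nat.gcd p n :=
      Nat.dvd_gcd (orderOf_dvd_of_pow_eq_one (d.centre_pow hab))
        (orderOf_dvd_of_pow_eq_one h1)
    rw [hn, Nat.dvd_one, orderOf_eq_one_iff] at h3
    exact h3
  have hp : p.Prime := Fact.out
  by_cases hrp : (r : ℕ) = p
  · have hr'p : p ≠ (r' : ℕ) := fun e => h (Subtype.ext (hrp.trans e))
    have := key y x _ (by rw [← commutatorElement_inv]; exact inv_mem hz)
      (d.gen_pow_eq_one r' hy)
      (((Nat.coprime_primes hp (Nat.prime_of_mem_primeFactors r'.2)).mpr hr'p).pow_right _)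
    rw [← commutatorElement_inv, this, inv_one]
  · exact key x y _ hz (d.gen_pow_eq_one r hx)
      (((Nat.coprime_primes hp (Nat.prime_of_mem_primeFactors r.2)).mpr
        (Ne.symm hrp)).pow_right _)

theorem comm_comp {r r' : M.primeFactors} (h : r ≠ r') {x y : d.Ext} (hx : x ∈ d.comp r)
    (hy : y ∈ d.comp r') : x * y = y * x := by
  have h1 : d.comp r ≤ Subgroup.centralizer (Set.range (d.genU r') ∪ Set.range (d.genL r')) := by
    rw [comp, Subgroup.closure_le]
    intro a ha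
    exact fun b hb => d.comm_gen h.symm hb ha
  have h2 : d.comp r' ≤ Subgroup.centralizer {x} := by
    rw [comp, Subgroup.closure_le]
    intro b hb a ha
    rw [Set.mem_singleton_iff.mp ha]
    exact (h1 hx b hb).symm
  exact h2 hy x rfl

/-- the product of the components in `s` -/
noncomputable def compSup (s : Finset M.primeFactors) : Subgroup d.Ext :=
  ⨆ r ∈ s, d.comp r

theorem comm_compSup {r : M.primeFactors} {s : Finset M.primeFactors} (hr : r ∉ s) {x y : d.Ext}
    (hx : x ∈ d.comp r) (hy : y ∈ d.compSup s) : x * y = y * x := by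
  have : d.compSup s ≤ Subgroup.centralizer {x} := by
    refine iSup₂_le fun r' hr' => ?_
    intro b hb a ha
    rw [Set.mem_singleton_iff.mp ha]
    exact d.comm_comp (fun e => hr (by subst e; exact hr')) hx hb
  exact this hy x rfl

theorem proj_compSup {r : M.primeFactors} {s : Finset M.primeFactors} (hr : r ∉ s) {x : d.Ext}
    (hx : x ∈ d.compSup s) : d.proj (ordProj_dvd_M (M := M) (r : ℕ)) x = 1 := by
  have : d.compSup s ≤ (d.proj (ordProj_dvd_M (M := M) (r : ℕ))).ker :=
    iSup₂_le fun r' hr' b hb => d.proj_comp (fun e => hr (by subst e; exact hr')) hb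
  exact this hx

theorem exists_split [DecidableEq M.primeFactors] {r : M.primeFactors}
    {s : Finset M.primeFactors} (_hr : r ∈ s) {x : d.Ext} (hx : x ∈ d.compSup s) :
    ∃ a ∈ d.comp r, ∃ b ∈ d.compSup (s.erase r), x = a * b := by
  have e : d.compSup s ≤ d.comp r ⊔ d.compSup (s.erase r) := by
    refine iSup₂_le fun r' hr' => ?_
    by_cases h : r' = r
    · exact h ▸ le_sup_left
    · exact le_trans (le_iSup₂ (f := fun i (_ : i ∈ s.erase r) => d.comp i) r'
        (Finset.mem_erase.mpr ⟨h, hr'⟩)) le_sup_right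
  have hn : d.comp r ≤ Subgroup.normalizer (d.compSup (s.erase r) : Set d.Ext) := by
    intro a ha
    rw [Subgroup.mem_normalizer_iff]
    have hc : ∀ b ∈ d.compSup (s.erase r), a * b * a⁻¹ = b := fun b hb => by
      rw [d.comm_compSup (Finset.notMem_erase r s) ha hb, mul_inv_cancel_right]
    intro b
    refine ⟨fun hb => by rwa [hc b hb], fun hb => ?_⟩
    have := hc _ hb
    have e : a * b * a⁻¹ = b := mul_right_cancel (mul_left_cancel
      (a := a) (by rw [← mul_assoc a, ← mul_assoc a] ; simpa [mul_assoc] using this))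
    rwa [e] at hb
  have hx' := e hx
  rw [← SetLike.mem_coe, Subgroup.coe_mul_of_left_le_normalizer_right _ _ hn] at hx'
  obtain ⟨a, ha, b, hb, rfl⟩ := hx'
  exact ⟨a, ha, b, hb, rfl⟩

/-- the restriction of the projection to a component -/
noncomputable def compProj (r : M.primeFactors) :
    d.comp r →* SL(2, ZMod (ordProj[(r : ℕ)] M)) :=
  (d.proj (ordProj_dvd_M (M := M) (r : ℕ))).comp (d.comp r).subtype

theorem compProj_ker (r : M.primeFactors) {x : d.comp r} (hx : x ∈ (d.compProj r).ker) :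
    (x : d.Ext) ∈ d.centre :=
  d.mem_centre_of_proj fun s => by
    by_cases h : r = s
    · exact h ▸ hx
    · exact d.proj_comp h x.2

theorem compProj_ker_le (r : M.primeFactors) :
    (d.compProj r).ker ≤ Subgroup.center (d.comp r) := fun _x hx =>
  Subgroup.mem_center_iff.mpr fun y =>
    Subtype.ext (Subgroup.mem_center_iff.mp (d.centre_le (d.compProj_ker r hx)) y)

theorem compProj_ker_pow (r : M.primeFactors) :
    ∀ z ∈ (d.compProj r).ker, z ^ p = 1 := fun z hz =>
  Subtype.ext (by simpa using d.centre_pow (d.compProj_ker r hz))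

theorem closure_comp (r : M.primeFactors) :
    Subgroup.closure (((↑) : d.comp r → d.Ext) ⁻¹'
      (Set.range (d.genU r) ∪ Set.range (d.genL r))) = ⊤ :=
  Subgroup.closure_closure_coe_preimage

theorem comp_ker_eq_bot_away (hp2 : p ≠ 2) {r : M.primeFactors} (hr : (r : ℕ) ≠ p) :
    (d.compProj r).ker = ⊥ := by
  have hrp := Nat.prime_of_mem_primeFactors r.2
  haveI : NeZero (ordProj[(r : ℕ)] M) := ⟨(Nat.ordProj_pos _ _).ne'⟩
  refine ker_eq_bot_of_periodic (d.compProj r) (d.compProj_ker_le r) (d.compProj_ker_pow r)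
    ?_ (d.closure_comp r) (n := ordProj[(r : ℕ)] M)
    (((Nat.coprime_primes Fact.out hrp).mpr (Ne.symm hr)).pow_right _)
    fun t ht => Subtype.ext (by simpa using d.gen_pow_eq_one r ht)
  obtain ⟨e, he⟩ : ∃ e, M.factorization (r : ℕ) = e + 1 :=
    ⟨_, (Nat.succ_pred_eq_of_pos (hrp.factorization_pos_of_dvd d.ne_zero
      (Nat.dvd_of_mem_primeFactors r.2))).symm⟩
  rw [he]
  exact fun P hP => isCyclic_pGroup_SL2_zmod hrp (Ne.symm hr) hp2 P hP

theorem conj_upr_congSub {h : SL(2, Zq q)} (h10 : (M : Zq q) ∣ h 1 0) (s : Zq q) :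
    h * upr s * h⁻¹ * upr (-(h 0 0 * h 0 0 * s)) ∈ congSub d.cop := by
  set a := h 0 0
  have e : slMap (red d.cop) (h * upr s * h⁻¹) = slMap (red d.cop) (upr (a * a * s)) := by
    rw [map_mul, map_mul, map_inv, mul_inv_eq_iff_eq_mul]
    have h0 : red d.cop (h 1 0) = 0 := (red_eq_zero_iff _).mpr h10
    have hd := congrArg (red d.cop) (det_eq h)
    rw [map_sub, map_mul, map_mul, h0, mul_zero, sub_zero, map_one] at hd
    apply sl_ext <;> simp [mul_apply00, mul_apply01, mul_apply10, mul_apply11, slMap_apply, h0, a]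
    linear_combination (-(red d.cop (h 0 0) * red d.cop s)) * hd
  rw [congSub, MonoidHom.mem_ker, map_mul, e, ← map_mul, ← upr_add, add_neg_cancel, upr_zero,
    map_one]

theorem mk_conj_upr {h : genSub q} (hN : (h : SL(2, Zq q)) ∈ gamma0Away q N)
    (h10 : (M : Zq q) ∣ (h : SL(2, Zq q)) 1 0) (s : Zq q) :
    d.cl h * d.cl ⟨upr s, upr_mem_genSub _⟩ * (d.cl h)⁻¹ =
      d.cl ⟨upr ((h : SL(2, Zq q)) 0 0 * (h : SL(2, Zq q)) 0 0 * s), upr_mem_genSub _⟩ := by
  set u' := (h : SL(2, Zq q)) 0 0 * (h : SL(2, Zq q)) 0 0 * s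
  rw [← map_inv, ← map_mul, ← map_mul, ← mul_inv_eq_one, ← map_inv, ← map_mul, cl_eq_one]
  have hm := d.conj_upr_congSub h10 s
  rw [upr_neg] at hm
  refine d.mem_kerSub.mpr ⟨hm, ?_⟩
  have : d.χ (⟨_, hN⟩ * ⟨upr s, upr_mem s⟩ * ⟨_, hN⟩⁻¹ * ⟨upr u', upr_mem u'⟩⁻¹) = 1 := by
    rw [map_mul, map_mul, map_mul, map_inv, map_inv, d.χ_upr, d.χ_upr, mul_one, mul_inv_cancel,
      inv_one, mul_one]
  exact this

include d in
theorem exists_torus (r : M.primeFactors) (hr2 : (r : ℕ) ≠ 2) :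
    ∃ h : genSub q, (h : SL(2, Zq q)) ∈ gamma0Away q N ∧ (M : Zq q) ∣ (h : SL(2, Zq q)) 1 0 ∧
      ∃ t : ℕ, (h : SL(2, Zq q)) 0 0 = (t : Zq q) ∧
        (t : ZMod (ordProj[(r : ℕ)] M)) = 2 := by
  set t := 1 + d.idem r
  have hrp := Nat.prime_of_mem_primeFactors r.2
  have htM : t.Coprime M := by
    refine Nat.coprime_of_dvd fun s hs hst hsM => ?_
    have hsf : s ∈ M.primeFactors := Nat.mem_primeFactors.mpr ⟨hs, hsM, d.ne_zero⟩
    have hdvd : s ∣ ordProj[s] M :=
      dvd_pow_self s (hs.factorization_pos_of_dvd d.ne_zero hsM).ne'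
    haveI := Fact.mk hs
    have h0 : (t : ZMod s) = 0 := (ZMod.natCast_eq_zero_iff _ _).mpr hst
    by_cases hsr : r = ⟨s, hsf⟩
    · have h1 := congrArg (ZMod.castHom hdvd (ZMod s))
        (show (d.idem r : ZMod (ordProj[s] M)) = 1 by
          have := (d.idem_spec r).1
          subst hsr
          exact this)
      simp only [map_natCast, map_one] at h1
      simp only [t, Nat.cast_add, Nat.cast_one, h1] at h0
      refine hr2 ((congrArg Subtype.val hsr).trans ?_)
      refine (Nat.prime_dvd_prime_iff_eq hs Nat.prime_two).mp ?_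
      rw [← ZMod.natCast_eq_zero_iff, Nat.cast_ofNat, ← h0]
      norm_num
    · have h1 := congrArg (ZMod.castHom hdvd (ZMod s)) (d.idem_eq_zero hsr)
      simp only [map_natCast, map_zero] at h1
      simp [t, h1] at h0
  obtain ⟨a, b, hab⟩ : IsCoprime (t : ℤ) ((M : ℤ) * M) :=
    by exact_mod_cast (htM.mul_right htM).isCoprime
  set g : SL(2, Zq q) := ⟨!![(t : Zq q), -((M : Zq q) * b); (M : Zq q), a], by
    rw [Matrix.det_fin_two_of]
    have := congrArg (fun z : ℤ => (z : Zq q)) hab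
    push_cast at this
    linear_combination this⟩
  have h10 : (M : Zq q) ∣ g 1 0 := dvd_rfl
  have hgen : g ∈ genSub q := by
    refine mem_genSub_of_two_dvd d.prime ?_
    rcases d.two with h2 | h2
    · subst h2
      have : IsUnit ((2 : ℕ) : Zq 2) := isUnit_natCast_self
      exact (by simpa using this : IsUnit (2 : Zq 2)).dvd
    · have h2' : ((2 : ℕ) : Zq q) ∣ (M : Zq q) := Nat.cast_dvd_cast h2
      simpa using h2'.trans h10
  refine ⟨⟨g, hgen⟩, ((Nat.cast_dvd_cast d.dvd).trans h10 : (N : Zq q) ∣ g 1 0), h10, t, rfl, ?_⟩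
  simp only [t, Nat.cast_add, Nat.cast_one, (d.idem_spec r).1]
  norm_num

theorem genU_natCast (r : M.primeFactors) (n : ℕ) : d.genU r (n : Zq q) = d.genU r 1 ^ n := by
  rw [genU, genU, ← map_pow]
  congr 1
  exact Subtype.ext (by simp [upr_pow, mul_comm])

theorem genU_congr (r : M.primeFactors) {s s' : Zq q} (h : (M : Zq q) ∣ s - s') :
    d.genU r s = d.genU r s' := by
  rw [genU, genU, ← mul_inv_eq_one, ← map_inv, ← map_mul, cl_eq_one, Subgroup.coe_mul,
    Subgroup.coe_inv, ← upr_neg, ← upr_add, ← sub_eq_add_neg, ← mul_sub]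
  exact d.elemSub_le_kerSub (upr_mem_elemSub (h.mul_left _))

theorem genL_congr (r : M.primeFactors) {s s' : Zq q} (h : (M : Zq q) ∣ s - s') :
    d.genL r s = d.genL r s' := by
  rw [genL, genL, ← mul_inv_eq_one, ← map_inv, ← map_mul, cl_eq_one, Subgroup.coe_mul,
    Subgroup.coe_inv, ← lwr_neg, ← lwr_add, ← sub_eq_add_neg, ← mul_sub, ← mul_sub]
  exact d.elemSub_le_kerSub (lwr_mem_elemSub ((h.mul_left _).mul_left _))

theorem mk_gen_eq_prod (s : Finset M.primeFactors) (x : Zq q) :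
    d.cl ⟨upr ((∑ r ∈ s, (d.idem r : Zq q)) * x), upr_mem_genSub _⟩ ∈ d.compSup s ∧
      d.cl ⟨lwr (2 * ((∑ r ∈ s, (d.idem r : Zq q)) * x)), lwr_mem_genSub _⟩ ∈ d.compSup s := by
  classical
  induction s using Finset.induction_on with
  | empty =>
    constructor <;> convert one_mem (d.compSup ∅) <;> rw [cl_eq_one] <;> simp
  | insert r s hr ih =>
    have hsub : d.compSup s ≤ d.compSup (insert r s) :=
      iSup₂_le fun i hi => le_iSup₂ (f := fun i (_ : i ∈ insert r s) => d.comp i) i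
        (Finset.mem_insert_of_mem hi)
    have hr' : d.comp r ≤ d.compSup (insert r s) :=
      le_iSup₂ (f := fun i (_ : i ∈ insert r s) => d.comp i) r (Finset.mem_insert_self r s)
    constructor
    · convert mul_mem (hr' (d.genU_mem r x)) (hsub ih.1) using 1
      rw [genU, ← map_mul]
      congr 1
      exact Subtype.ext (by simp [Finset.sum_insert hr, add_mul, upr_add])
    · convert mul_mem (hr' (d.genL_mem r x)) (hsub ih.2) using 1
      rw [genL, ← map_mul]
      congr 1
      exact Subtype.ext (by simp [Finset.sum_insert hr, add_mul, mul_add, lwr_add])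

/-- the class of `-1` -/
noncomputable def negOne : d.Ext :=
  d.cl ⟨-1, Subgroup.subset_closure (Or.inr rfl)⟩

theorem negOne_comm (x : d.Ext) : x * d.negOne = d.negOne * x := by
  obtain ⟨g, rfl⟩ := d.cl_surjective x
  rw [negOne, ← map_mul, ← map_mul]
  exact congrArg d.cl (Subtype.ext (by simp))

theorem negOne_sq : d.negOne * d.negOne = 1 := by
  rw [negOne, ← map_mul, ← map_one d.cl]
  exact congrArg d.cl (Subtype.ext (by simp))

theorem mem_sup (g : d.Ext) :
    ∃ x ∈ d.compSup Finset.univ, g = x ∨ g = x * d.negOne := by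
  obtain ⟨⟨g, hg⟩, rfl⟩ := d.cl_surjective g
  induction hg using Subgroup.closure_induction with
  | mem y hy =>
    rcases hy with (⟨s, rfl⟩ | ⟨t, rfl⟩) | hy
    · refine ⟨_, (d.mk_gen_eq_prod Finset.univ s).1, Or.inl ?_⟩
      rw [← mul_inv_eq_one, ← map_inv, ← map_mul, cl_eq_one, Subgroup.coe_mul, Subgroup.coe_inv,
        ← upr_neg, ← upr_add]
      refine d.elemSub_le_kerSub (upr_mem_elemSub ?_)
      have := d.sum_idem.mul_right (-s)
      convert this using 1; ring
    · refine ⟨_, (d.mk_gen_eq_prod Finset.univ t).2, Or.inl ?_⟩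
      rw [← mul_inv_eq_one, ← map_inv, ← map_mul, cl_eq_one, Subgroup.coe_mul, Subgroup.coe_inv,
        ← lwr_neg, ← lwr_add]
      refine d.elemSub_le_kerSub (lwr_mem_elemSub ?_)
      have := d.sum_idem.mul_right (-(2 * t))
      convert this using 1; ring
    · rw [Set.mem_singleton_iff] at hy
      subst hy
      exact ⟨1, one_mem _, Or.inr (one_mul _).symm⟩
  | one => exact ⟨1, one_mem _, Or.inl (map_one d.cl)⟩
  | mul a b ha hb iha ihb =>
    obtain ⟨x, hx, hx'⟩ := iha
    obtain ⟨y, hy, hy'⟩ := ihb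
    refine ⟨x * y, mul_mem hx hy, ?_⟩
    have e : d.cl ⟨a * b, mul_mem ha hb⟩ = d.cl ⟨a, ha⟩ * d.cl ⟨b, hb⟩ :=
      map_mul d.cl ⟨a, ha⟩ ⟨b, hb⟩
    rw [e]
    rcases hx' with h1 | h1 <;> rcases hy' with h2 | h2 <;> rw [h1, h2]
    · exact Or.inl rfl
    · exact Or.inr (mul_assoc _ _ _).symm
    · right; rw [mul_assoc x, ← d.negOne_comm y, mul_assoc]
    · left
      rw [mul_assoc x, ← mul_assoc d.negOne, ← d.negOne_comm y, mul_assoc y, d.negOne_sq,
        mul_one]
  | inv a ha iha =>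
    obtain ⟨x, hx, hx'⟩ := iha
    refine ⟨x⁻¹, inv_mem hx, ?_⟩
    have e : d.cl ⟨a⁻¹, (genSub q).inv_mem ha⟩ = (d.cl ⟨a, ha⟩)⁻¹ :=
      map_inv d.cl (⟨a, ha⟩ : genSub q)
    rw [e]
    rcases hx' with h1 | h1
    · exact Or.inl (by rw [h1])
    · right
      rw [h1, mul_inv_rev, inv_eq_of_mul_eq_one_left d.negOne_sq, ← d.negOne_comm x⁻¹]

theorem conj_comp {r : M.primeFactors} (g : d.Ext) :
    ∃ y ∈ d.comp r, ∀ x ∈ d.comp r, g * x * g⁻¹ = y * x * y⁻¹ := by
  classical
  obtain ⟨w, hw, hgw⟩ := d.mem_sup g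
  obtain ⟨a, ha, b, hb, rfl⟩ := d.exists_split (Finset.mem_univ r) hw
  refine ⟨a, ha, fun x hx => ?_⟩
  have hbx : b * x * b⁻¹ = x := by
    rw [← d.comm_compSup (Finset.notMem_erase r _) hx hb, mul_inv_cancel_right]
  rcases hgw with rfl | rfl
  · rw [mul_inv_rev]
    calc a * b * x * (b⁻¹ * a⁻¹) = a * (b * x * b⁻¹) * a⁻¹ := by group
      _ = _ := by rw [hbx]
  · rw [mul_inv_rev, mul_inv_rev]
    calc a * b * d.negOne * x * (d.negOne⁻¹ * (b⁻¹ * a⁻¹))
        = a * (b * (d.negOne * x * d.negOne⁻¹) * b⁻¹) * a⁻¹ := by group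
      _ = _ := by rw [← d.negOne_comm, mul_inv_cancel_right, hbx]

set_option maxHeartbeats 800000 in
theorem comp_ker_eq_bot_self (hp2 : p ≠ 2) (hM2 : ∀ x : d.Ext,
      x ∈ d.centre → x ∈ d.compSup (Finset.univ.filter fun r : M.primeFactors => (r : ℕ) ≠ p) →
      x = 1)
    {r : M.primeFactors} (hr : (r : ℕ) = p) : (d.compProj r).ker = ⊥ := by
  classical
  have hp : p.Prime := Fact.out
  obtain ⟨e, he⟩ : ∃ e, M.factorization p = e + 1 :=
    ⟨_, (Nat.succ_pred_eq_of_pos (hp.factorization_pos_of_dvd d.ne_zero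
      (hr ▸ Nat.dvd_of_mem_primeFactors r.2))).symm⟩
  have hpe : ordProj[(r : ℕ)] M = p ^ (e + 1) := by rw [hr, he]
  set n := p ^ (e + 1) with hn
  have hnM : n ∣ M := by rw [← hpe]; exact ordProj_dvd_M _
  haveI : NeZero n := ⟨pow_ne_zero _ hp.ne_zero⟩
  haveI : NeZero M := ⟨d.ne_zero⟩
  let π : d.comp r →* SL(2, ZMod n) := (d.proj hnM).comp (d.comp r).subtype
  have hker : ∀ x : d.comp r, x ∈ π.ker ↔ x ∈ (d.compProj r).ker := by
    intro x
    obtain ⟨g, hg⟩ := d.cl_surjective (x : d.Ext)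
    have hco := d.cop.coprime_dvd_right (ordProj_dvd_M (M := M) (r : ℕ))
    simp only [π, compProj, MonoidHom.mem_ker, MonoidHom.comp_apply, Subgroup.coe_subtype, ← hg,
      proj_cl]
    change (g : SL(2, Zq q)) ∈ congSub (d.cop.coprime_dvd_right hnM) ↔
      (g : SL(2, Zq q)) ∈ congSub hco
    rw [mem_congSub, mem_congSub, hpe]
  have hidem : (d.idem r : ZMod n) = 1 := by
    have := (d.idem_spec r).1
    rwa [hpe] at this
  have hcop2 : Nat.Coprime 2 n :=
    ((Nat.coprime_primes Nat.prime_two hp).mpr (Ne.symm hp2)).pow_right _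
  set h2 : ℕ := ((ZMod.unitOfCoprime 2 hcop2)⁻¹ : (ZMod n)ˣ).val.val with hh2
  have hh : (2 : ZMod n) * (h2 : ZMod n) = 1 := by
    rw [hh2, ZMod.natCast_zmod_val, ← Nat.cast_ofNat, ← ZMod.coe_unitOfCoprime 2 hcop2,
      Units.mul_inv]
  set u : d.comp r := ⟨d.genU r 1, d.genU_mem r 1⟩
  set l : d.comp r := ⟨d.genL r (h2 : Zq q), d.genL_mem r _⟩
  have hdvd : ∀ k : ℕ, (k : ZMod n) = 0 → (M : Zq q) ∣ (d.idem r : Zq q) * (k : Zq q) := by
    intro k hk
    rw [ZMod.natCast_eq_zero_iff] at hk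
    obtain ⟨j, rfl⟩ := hk
    rw [Nat.cast_mul, ← mul_assoc, mul_comm (d.idem r : Zq q), ← hpe]
    exact (d.dvd_ordProj_mul_idem r).mul_right _
  have hl2 : ∀ k : ℕ, d.genL r (k : Zq q) = d.genL r (h2 : Zq q) ^ (2 * k) := by
    intro k
    rw [genL, genL, ← map_pow, ← mul_inv_eq_one, ← map_inv, ← map_mul, cl_eq_one,
      Subgroup.coe_mul, Subgroup.coe_inv, SubgroupClass.coe_pow, lwr_pow, ← lwr_neg, ← lwr_add]
    refine d.elemSub_le_kerSub (lwr_mem_elemSub ?_)
    obtain ⟨z, hz⟩ : ((n : ℕ) : ℤ) ∣ 1 - 2 * (h2 : ℤ) := by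
      rw [← ZMod.intCast_zmod_eq_zero_iff_dvd]
      push_cast
      linear_combination -hh
    have hz' := congrArg (fun z : ℤ => (z : Zq q)) hz
    push_cast at hz'
    have key := (hdvd n (ZMod.natCast_self n)).mul_right (2 * (k : Zq q) * z)
    convert key using 1
    push_cast
    linear_combination (2 * (d.idem r : Zq q) * k) * hz'
  have hgen : Subgroup.closure {u, l} = ⊤ := by
    rw [eq_top_iff, ← d.closure_comp r, Subgroup.closure_le]
    rintro ⟨y, hy'⟩ (⟨s, hs⟩ | ⟨t, ht⟩)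
    · obtain ⟨k, hk⟩ := exists_int_sub_mem s d.cop
      have e : (⟨y, hy'⟩ : d.comp r) = u ^ k := Subtype.ext (by
        change y = d.genU r 1 ^ k
        rw [← d.genU_natCast]
        exact hs.symm.trans (d.genU_congr r hk))
      rw [e]
      exact pow_mem (Subgroup.subset_closure (Set.mem_insert _ _)) _
    · obtain ⟨k, hk⟩ := exists_int_sub_mem t d.cop
      have e : (⟨y, hy'⟩ : d.comp r) = l ^ (2 * k) := Subtype.ext (by
        change y = d.genL r (h2 : Zq q) ^ (2 * k)
        rw [← hl2]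
        exact ht.symm.trans (d.genL_congr r hk))
      rw [e, SetLike.mem_coe]
      exact Subgroup.pow_mem _ (Subgroup.subset_closure (Set.mem_insert_of_mem u (Set.mem_singleton l))) _
  have hu : π u = upr 1 := by simp [π, u, genU, proj_cl, hidem]
  have hl : π l = lwr 1 := by simp [π, l, genL, proj_cl, hidem, map_ofNat, hh]
  have hloc := pLocal hp2 e π u l hgen hu hl
    (fun x hx => d.compProj_ker_le r ((hker x).mp hx))
    (fun x hx => d.compProj_ker_pow r x ((hker x).mp hx))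
  set V : d.comp r →* Abelianization (d.comp r) := Abelianization.of
  set A := V u
  set B := V l
  have hAn : A ^ n = 1 := by
    rw [← map_pow]
    convert map_one V
    refine Subtype.ext ?_
    rw [← hpe]
    exact d.gen_pow_eq_one r (Or.inl ⟨1, rfl⟩)
  have hBn : B ^ n = 1 := by
    rw [← map_pow]
    convert map_one V
    refine Subtype.ext ?_
    rw [← hpe]
    exact d.gen_pow_eq_one r (Or.inr ⟨_, rfl⟩)
  -- torus
  have hA3 : A ^ 3 = 1 := by
    obtain ⟨h, hhN, hh10, t, ht00, ht2⟩ := d.exists_torus r (hr ▸ hp2)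
    obtain ⟨y, hy, hconj⟩ := d.conj_comp (r := r) (d.cl h)
    have e1 := hconj _ (d.genU_mem r 1)
    have e2 : d.cl h * d.genU r 1 * (d.cl h)⁻¹ = d.genU r 1 ^ (t * t) := by
      simp only [genU, mul_one]
      rw [d.mk_conj_upr hhN hh10, ← map_pow]
      congr 1
      exact Subtype.ext (by simp [upr_pow, ht00])
    rw [e2] at e1
    have e3 : A ^ (t * t) = A := by
      have h' : (u ^ (t * t) : d.comp r) = ⟨y, hy⟩ * u * ⟨y, hy⟩⁻¹ := Subtype.ext (by simpa using e1)
      have := congrArg V h'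
      rwa [map_pow, map_mul, map_mul, map_inv, mul_right_comm, mul_inv_cancel, one_mul] at this
    have h4 : t * t % n = 4 % n := by
      have ht2' : (t : ZMod n) = 2 := by rwa [hpe] at ht2
      have : ((t * t : ℕ) : ZMod n) = ((4 : ℕ) : ZMod n) := by push_cast; rw [ht2']; norm_num
      exact (ZMod.natCast_eq_natCast_iff _ _ _).mp this
    rw [pow_eq_pow_mod (t * t) hAn, h4, ← pow_eq_pow_mod 4 hAn] at e3
    exact mul_right_cancel (b := A) (by rw [one_mul, ← pow_succ]; exact e3)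
  -- the element of order four
  have hAB : A ^ 4 = B ^ 8 := by
    set g₁ : genSub q := ⟨upr 1, upr_mem_genSub _⟩
    set g₂ : genSub q := ⟨lwr (2 * 1), lwr_mem_genSub _⟩
    have hg4 : (g₁ * g₂⁻¹) ^ 4 = 1 := by
      refine Subtype.ext ?_
      simp only [Subgroup.coe_mul, Subgroup.coe_inv, OneMemClass.coe_one,
        g₁, g₂, ← lwr_neg, pow_succ, pow_zero, one_mul]
      apply sl_ext <;> simp [mul_apply00, mul_apply01, mul_apply10, mul_apply11] <;> ring
    set others := Finset.univ.erase r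
    have hU : d.cl g₁ = d.genU r 1 *
        d.cl ⟨upr ((∑ s ∈ others, (d.idem s : Zq q)) * 1), upr_mem_genSub _⟩ := by
      rw [genU, ← map_mul, ← mul_inv_eq_one, ← map_inv, ← map_mul, cl_eq_one]
      simp only [Subgroup.coe_mul, Subgroup.coe_inv, g₁, ← upr_add, ← upr_neg]
      refine d.elemSub_le_kerSub (upr_mem_elemSub ?_)
      convert d.sum_idem.neg_right using 1
      rw [← Finset.add_sum_erase _ _ (Finset.mem_univ r)]; ring
    have hL : d.cl g₂ = d.genL r 1 *
        d.cl ⟨lwr (2 * ((∑ s ∈ others, (d.idem s : Zq q)) * 1)), lwr_mem_genSub _⟩ := by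
      rw [genL, ← map_mul, ← mul_inv_eq_one, ← map_inv, ← map_mul, cl_eq_one]
      simp only [Subgroup.coe_mul, Subgroup.coe_inv, g₂, ← lwr_add, ← lwr_neg]
      refine d.elemSub_le_kerSub (lwr_mem_elemSub ?_)
      convert (d.sum_idem.neg_right).mul_left 2 using 1
      rw [← Finset.add_sum_erase _ _ (Finset.mem_univ r)]; ring
    set a := d.cl ⟨upr ((∑ s ∈ others, (d.idem s : Zq q)) * 1), upr_mem_genSub _⟩
    set b := d.cl ⟨lwr (2 * ((∑ s ∈ others, (d.idem s : Zq q)) * 1)), lwr_mem_genSub _⟩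
    have ha : a ∈ d.compSup others := (d.mk_gen_eq_prod others 1).1
    have hb : b ∈ d.compSup others := (d.mk_gen_eq_prod others 1).2
    set y := d.genU r 1 * (d.genL r 1)⁻¹
    have hy : y ∈ d.comp r := mul_mem (d.genU_mem r 1) (inv_mem (d.genL_mem r 1))
    have hnot : r ∉ others := Finset.notMem_erase r _
    have hz : d.cl (g₁ * g₂⁻¹) = y * (a * b⁻¹) := by
      rw [map_mul, map_inv, hU, hL, mul_inv_rev]
      calc d.genU r 1 * a * (b⁻¹ * (d.genL r 1)⁻¹)
          = d.genU r 1 * ((a * b⁻¹) * (d.genL r 1)⁻¹) := by group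
        _ = d.genU r 1 * ((d.genL r 1)⁻¹ * (a * b⁻¹)) := by
          rw [d.comm_compSup hnot (inv_mem (d.genL_mem r 1)) (mul_mem ha (inv_mem hb))]
        _ = _ := by rw [mul_assoc]
    set w := a * b⁻¹
    have hw : w ∈ d.compSup others := mul_mem ha (inv_mem hb)
    have hyw : y ^ 4 * w ^ 4 = 1 := by
      rw [← Commute.mul_pow (d.comm_compSup hnot hy hw), ← hz, ← map_pow, hg4, map_one]
    have hy4 : d.proj (ordProj_dvd_M (M := M) (r : ℕ)) (y ^ 4) = 1 := by
      have := congrArg (d.proj (ordProj_dvd_M (M := M) (r : ℕ))) hyw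
      rwa [map_mul, d.proj_compSup hnot (pow_mem hw 4), mul_one, map_one] at this
    have hyker : (⟨y, hy⟩ ^ 4 : d.comp r) ∈ (d.compProj r).ker := hy4
    have hwc : w ^ 4 ∈ d.centre := by
      rw [eq_inv_of_mul_eq_one_right hyw]
      exact inv_mem (by simpa using d.compProj_ker r hyker)
    have hothers : others = Finset.univ.filter fun s : M.primeFactors => (s : ℕ) ≠ p := by
      ext s
      simp only [others, Finset.mem_erase, Finset.mem_univ, and_true, Finset.mem_filter, true_and]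
      exact ⟨fun h1 h2 => h1 (Subtype.ext (h2.trans hr.symm)), fun h1 h2 => h1 (h2 ▸ hr)⟩
    have hw1 : w ^ 4 = 1 := hM2 _ hwc (hothers ▸ pow_mem hw 4)
    rw [hw1, mul_one] at hyw
    have hone : (⟨y, hy⟩ ^ 4 : d.comp r) = 1 := Subtype.ext (by simpa using hyw)
    have := congrArg V hone
    have hly : (⟨y, hy⟩ : d.comp r) = u * (l ^ (2 * 1))⁻¹ := Subtype.ext (by
      simp only [Subgroup.coe_mul, Subgroup.coe_inv, SubgroupClass.coe_pow, u, l, ← hl2]
      simp [y])
    rw [hly, map_pow, map_one, map_mul, map_inv, map_pow, mul_one, mul_pow, inv_pow, ← pow_mul,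
      mul_inv_eq_one] at this
    exact this
  rw [eq_bot_iff]
  intro z hz
  have hloc' : π.ker ⊓ commutator (d.comp r) = ⊥ := hloc
  rw [← hloc']
  refine ⟨(hker z).mpr hz, ?_⟩
  refine (QuotientGroup.eq_one_iff z).mp ?_
  change V z = 1
  by_cases hp3 : p = 3
  · subst hp3
    have hA1 : A = B ^ 8 := by rw [← hAB, pow_succ A 3, hA3, one_mul]
    have hB3 : B ^ 3 = 1 := by
      have h24 : B ^ 24 = 1 := by rw [show 24 = 8 * 3 from rfl, pow_mul, ← hA1, hA3]
      have hg : orderOf B ∣ Nat.gcd 24 n :=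
        Nat.dvd_gcd (orderOf_dvd_of_pow_eq_one h24) (orderOf_dvd_of_pow_eq_one hBn)
      have h3 : Nat.gcd 24 n ∣ 3 := by
        have h8 : Nat.Coprime n 8 := ((by decide : Nat.Coprime 3 8)).pow_left _
        rw [show 24 = 8 * 3 from rfl, Nat.Coprime.gcd_mul_left_cancel 3 h8.symm]
        exact Nat.gcd_dvd_left 3 n
      exact orderOf_dvd_iff_pow_eq_one.mp (hg.trans h3)
    have hn3 : (3 : ℕ) ∣ n := dvd_pow_self 3 (Nat.succ_ne_zero e)
    set ψ : d.comp r → ZMod 3 := fun x => char3 (slMap (ZMod.castHom hn3 (ZMod 3)) (π x))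
    have key : ∀ x : d.comp r, V x = A ^ (ψ x).val := by
      intro x
      have hx : x ∈ Subgroup.closure {u, l} := hgen ▸ Subgroup.mem_top x
      have hAp : ∀ (i : ZMod 3) (k : ℕ), A ^ (i + k).val = A ^ i.val * A ^ k := by
        intro i k
        rw [← pow_add, pow_eq_pow_mod (i.val + k) hA3, ZMod.val_add, ZMod.val_natCast,
          Nat.add_mod_mod]
      have hB2 : B = A ^ 2 := by
        rw [hA1, ← pow_mul, pow_eq_pow_mod (8 * 2) hB3]; simp
      induction hx using Subgroup.closure_induction_right with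
      | one => simp [ψ, char3_one]
      | mul_right y z _ hz ihy =>
        rcases hz with rfl | rfl
        · rw [map_mul, ihy]
          have : ψ (y * u) = ψ y + ((1 : ℕ) : ZMod 3) := by
            simp only [ψ, map_mul, hu, slMap_upr, map_one, char3_mul_upr, Nat.cast_one]
          rw [this, hAp, pow_one]
        · rw [map_mul, ihy]
          have : ψ (y * l) = ψ y + ((2 : ℕ) : ZMod 3) := by
            simp only [ψ, map_mul, hl, slMap_lwr, map_one, char3_mul_lwr]
            rw [show ((2 : ℕ) : ZMod 3) = -1 from rfl, sub_eq_add_neg]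
          rw [this, hAp]
          exact congrArg _ hB2
      | mul_inv_cancel y z _ hz ihy =>
        rcases hz with rfl | rfl
        · rw [map_mul, map_inv, ihy]
          have : ψ (y * u⁻¹) = ψ y + ((2 : ℕ) : ZMod 3) := by
            simp only [ψ, map_mul, map_inv, hu, slMap_upr, map_one, map_neg, ← upr_neg, char3_mul_upr]
            rw [show ((2 : ℕ) : ZMod 3) = -1 from rfl]
          rw [this, hAp]
          congr 1
          exact inv_eq_of_mul_eq_one_right (by rw [← pow_succ']; exact hA3)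
        · rw [map_mul, map_inv, ihy]
          have : ψ (y * l⁻¹) = ψ y + ((1 : ℕ) : ZMod 3) := by
            simp only [ψ, map_mul, map_inv, hl, slMap_lwr, map_one, map_neg, ← lwr_neg, char3_mul_lwr,
              Nat.cast_one, sub_neg_eq_add]
          rw [this, hAp, pow_one]
          congr 1
          change B⁻¹ = A
          rw [hB2]
          exact inv_eq_of_mul_eq_one_right (by rw [← pow_succ]; exact hA3)
    rw [key]
    simp [ψ, MonoidHom.mem_ker.mp ((hker z).mpr hz), char3_one]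
  · have hA1 : A = 1 := by
      have h : orderOf A ∣ Nat.gcd 3 n :=
        Nat.dvd_gcd (orderOf_dvd_of_pow_eq_one hA3) (orderOf_dvd_of_pow_eq_one hAn)
      rw [((Nat.coprime_primes Nat.prime_three hp).mpr (Ne.symm hp3)).pow_right (e + 1),
        Nat.dvd_one, orderOf_eq_one_iff] at h
      exact h
    have hB1 : B = 1 := by
      rw [hA1, one_pow] at hAB
      have h : orderOf B ∣ Nat.gcd 8 n :=
        Nat.dvd_gcd (orderOf_dvd_of_pow_eq_one hAB.symm) (orderOf_dvd_of_pow_eq_one hBn)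
      have h8 : Nat.Coprime 8 n := (show 8 = 2 ^ 3 from rfl) ▸ hcop2.pow_left 3
      rw [h8, Nat.dvd_one, orderOf_eq_one_iff] at h
      exact h
    have hall : (⊤ : Subgroup (d.comp r)) ≤ V.ker := by
      rw [← hgen, Subgroup.closure_le]
      rintro _ (rfl | rfl)
      · exact hA1
      · exact hB1
    exact hall (Subgroup.mem_top z)

theorem compSup_centre_eq_bot {s : Finset M.primeFactors}
    (hs : ∀ r ∈ s, (d.compProj r).ker = ⊥) {x : d.Ext} (hxc : x ∈ d.centre)
    (hx : x ∈ d.compSup s) : x = 1 := by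
  classical
  induction s using Finset.induction_on generalizing x with
  | empty =>
    simpa [compSup] using hx
  | insert r s hr ih =>
    obtain ⟨a, ha, b, hb, rfl⟩ := d.exists_split (Finset.mem_insert_self r s) hx
    rw [Finset.erase_insert hr] at hb
    have hpa : d.proj (ordProj_dvd_M (M := M) (r : ℕ)) a = 1 := by
      obtain ⟨g, hg⟩ := d.cl_surjective (a * b)
      have h0 : d.proj (ordProj_dvd_M (M := M) (r : ℕ)) (a * b) = 1 := by
        rw [← hg] at hxc ⊢
        have h := mem_congSub.mp (d.mem_centre.mp hxc)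
        have hd : ((ordProj[(r : ℕ)] M : ℕ) : Zq q) ∣ (M : Zq q) :=
          Nat.cast_dvd_cast (ordProj_dvd_M _)
        exact mem_congSub.mpr
          ⟨hd.trans h.1, hd.trans h.2.1, hd.trans h.2.2.1, hd.trans h.2.2.2⟩
      rwa [map_mul, d.proj_compSup hr hb, mul_one] at h0
    have : (⟨a, ha⟩ : d.comp r) ∈ (d.compProj r).ker := hpa
    rw [hs r (Finset.mem_insert_self r s), Subgroup.mem_bot] at this
    have ha1 : a = 1 := congrArg Subtype.val this
    rw [ha1, one_mul] at hxc ⊢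
    exact ih (fun i hi => hs i (Finset.mem_insert_of_mem hi)) hxc hb

theorem centre_eq_bot (hp2 : p ≠ 2) : d.centre = ⊥ := by
  classical
  have h1 : ∀ x : d.Ext, x ∈ d.centre →
      x ∈ d.compSup (Finset.univ.filter fun r : M.primeFactors => (r : ℕ) ≠ p) → x = 1 :=
    fun x hxc hx => d.compSup_centre_eq_bot
      (fun r hr => d.comp_ker_eq_bot_away hp2 (Finset.mem_filter.mp hr).2) hxc hx
  have hall : ∀ r : M.primeFactors, (d.compProj r).ker = ⊥ := fun r => by
    by_cases hr : (r : ℕ) = p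
    · exact d.comp_ker_eq_bot_self hp2 h1 hr
    · exact d.comp_ker_eq_bot_away hp2 hr
  rw [eq_bot_iff]
  intro z hz
  obtain ⟨x, hx, hzx⟩ := d.mem_sup z
  have hsq : z * z = x * x := by
    rcases hzx with rfl | rfl
    · rfl
    · calc x * d.negOne * (x * d.negOne) = x * (d.negOne * x) * d.negOne := by group
        _ = x * (x * d.negOne) * d.negOne := by rw [d.negOne_comm x]
        _ = x * x * (d.negOne * d.negOne) := by group
        _ = _ := by rw [d.negOne_sq, mul_one]
  have h2 : z ^ 2 = 1 := by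
    rw [sq, hsq]
    exact d.compSup_centre_eq_bot (fun r _ => hall r) (hsq ▸ mul_mem hz hz) (mul_mem hx hx)
  have h3 : orderOf z ∣ Nat.gcd 2 p :=
    Nat.dvd_gcd (orderOf_dvd_of_pow_eq_one h2) (orderOf_dvd_of_pow_eq_one (d.centre_pow hz))
  rw [(Nat.coprime_primes Nat.prime_two Fact.out).mpr (Ne.symm hp2), Nat.dvd_one,
    orderOf_eq_one_iff] at h3
  exact h3

end CongData

end Main

/-- Congruence subgroup property, abelian mod `p` form: a homomorphism on `Γ₀(N) ⊆ SL(2,ℤ[1/q])`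
to a group of odd prime exponent killing all unipotents kills the principal congruence subgroup of
level `levelM q N`. -/
theorem hom_trivial_on_congSub {q N p : ℕ} (hq : q.Prime) (hN : N ≠ 0) (hqN : ¬ q ∣ N)
    (hp : p.Prime) (hp2 : p ≠ 2) {C : Type*} [CommGroup C] (hC : ∀ c : C, c ^ p = 1)
    (χ : gamma0Away q N →* C)
    (hχ : ∀ (g : SL(2, Zq q)) (t : Zq q) (h : g * upr t * g⁻¹ ∈ gamma0Away q N),
      χ ⟨g * upr t * g⁻¹, h⟩ = 1)
    {g : SL(2, Zq q)} (hg : g ∈ congSub (coprime_levelM hq hqN)) :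
    χ ⟨g, congSub_le_gamma0Away dvd_levelM hg⟩ = 1 := by
  haveI := Fact.mk hp
  let d : CongData q N (levelM q N) p C :=
    { χ := χ
      prime := hq
      cop := coprime_levelM hq hqN
      ne_zero := levelM_ne_zero hN
      dvd := dvd_levelM
      two := by
        by_cases h : q = 2
        · exact Or.inl h
        · refine Or.inr ?_
          rw [levelM, if_neg h]
          exact dvd_mul_of_dvd_left (dvd_pow_self 2 (by omega)) _
      level := twistLevel_levelM hq hN hqN
      exp := hC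
      unip := hχ }
  set g' : genSub q := ⟨g, mem_genSub_of_mem_congSub hq d.two hg⟩
  have : d.cl g' ∈ d.centre := hg
  rw [d.centre_eq_bot hp2, Subgroup.mem_bot, CongData.cl_eq_one] at this
  obtain ⟨h, h'⟩ := d.mem_kerSub.mp this
  exact h'

end Fermat.Agent.LevelRaising
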