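import Fermat.Agent.LevelRaising.Operators
import Fermat.Agent.LevelRaising.Symbols.Span

/-!
# Double coset operators on crossing homomorphisms
-/

set_option autoImplicit false

noncomputable section

namespace Fermat.Agent.LevelRaising

open CongruenceSubgroup Function Fermat.Agent.Periods UpperHalfPlane
open Matrix.SpecialLinearGroup
open P2MW.S_ModularForm_heckeT_slash_eq_self_of_mem_Gamma0.ModularForm.HeckeSlashInvariance
open scoped MatrixGroups BigOperators Matrix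

/-- an integral matrix acting on rational vectors -/
def actM (B : Matrix (Fin 2) (Fin 2) ℤ) (u : Fin 2 → ℚ) : Fin 2 → ℚ :=
  B.map (fun x : ℤ => (x : ℚ)) *ᵥ u

section General

variable {Γ' Γ : Subgroup SL(2, ℤ)} {ι κ : Type} [Fintype ι] [Fintype κ]

/-- A double coset operator applied to a crossing homomorphism. -/
theorem apply_crossHom (S : HeckeSystem Γ' Γ ι) (δ : κ → GL (Fin 2) ℝ)
    (hδ : ∀ j, 0 < (δ j).det.val) (M : κ → Matrix (Fin 2) (Fin 2) ℚ)
    (hM : ∀ j, ∃ c : ℝ, c ≠ 0 ∧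
      (δ j : Matrix (Fin 2) (Fin 2) ℝ) * (M j).map (fun x => (x : ℝ)) = c • 1)
    (h1 : ∀ (g : Γ') i, ∃ (j : κ) (k : Γ),
      mapGL ℝ (g : SL(2, ℤ)) * S.rep i = δ j * mapGL ℝ (k : SL(2, ℤ)))
    (h2 : ∀ j (k : Γ), ∃ (g : Γ') (i : ι),
      mapGL ℝ (g : SL(2, ℤ)) * S.rep i = δ j * mapGL ℝ (k : SL(2, ℤ)))
    (h3 : ∀ j j' (k : Γ), δ j = δ j' * mapGL ℝ (k : SL(2, ℤ)) → j = j')
    (u v : Fin 2 → ℚ) :
    S.apply (crossHom Γ' u v) = ∑ j, crossHom Γ (M j *ᵥ u) (M j *ᵥ v) := by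
  classical
  choose σj σk hσ using h1
  let σ : Γ' × ι → κ × Γ := fun p => (σj p.1 p.2, σk p.1 p.2)
  have hcan : ∀ (j j' : κ) (k k' : Γ), δ j * mapGL ℝ (k : SL(2, ℤ)) = δ j' * mapGL ℝ (k' : SL(2, ℤ)) →
      j = j' ∧ k = k' := by
    intro j j' k k' e
    have hj : j = j' := h3 j j' (k' * k⁻¹) (by
      rw [Subgroup.coe_mul, InvMemClass.coe_inv, map_mul, map_inv, ← mul_assoc, ← e,
        mul_inv_cancel_right])
    subst hj
    exact ⟨rfl, Subtype.ext (mapGL_int_injective (mul_left_cancel e))⟩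
  have hbij : Bijective σ := by
    constructor
    · rintro ⟨g, i⟩ ⟨g', i'⟩ e
      simp only [σ, Prod.mk.injEq] at e
      have e' := hσ g i
      rw [e.1, e.2, ← hσ g' i'] at e'
      obtain ⟨h1, h2⟩ := S.eq_of_mapGL_mul_rep e'
      exact Prod.ext h2 h1
    · rintro ⟨j, k⟩
      obtain ⟨g, i, e⟩ := h2 j k
      rw [hσ] at e
      obtain ⟨e1, e2⟩ := hcan _ _ _ _ e
      exact ⟨(g, i), Prod.ext e1 e2⟩
  refine AddMonoidHom.ext fun x => ?_
  rw [← ofMul_toMul x]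
  set γ := Additive.toMul x
  rw [AddMonoidHom.finsetSum_apply, HeckeSystem.apply_apply]
  simp only [crossHom_apply]
  set z : ℍ := (γ : SL(2, ℤ)) • rhoPt
  -- the value on each cocycle
  have hval : ∀ i, crossFun Γ' u v ((S.cocycle γ i : SL(2, ℤ)) • rhoPt) =
      crossFun Γ' u v (S.rep i • z) - crossFun Γ' u v (S.rep (S.perm γ i) • rhoPt) := by
    intro i
    have e : S.rep i • z = (S.cocycle γ i : SL(2, ℤ)) • (S.rep (S.perm γ i) • rhoPt) := by
      show S.rep i • mapGL ℝ (γ : SL(2, ℤ)) • rhoPt =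
        mapGL ℝ (S.cocycle γ i : SL(2, ℤ)) • (S.rep (S.perm γ i) • rhoPt)
      rw [← mul_smul, ← mul_smul, S.spec]
    have e2 := crossFun_smul_sub Γ' u v (S.cocycle γ i) (S.rep (S.perm γ i) • rhoPt) rhoPt
    rw [← e, crossFun_rho, sub_zero] at e2
    linarith
  simp only [hval, Finset.sum_sub_distrib]
  rw [(S.perm_bijective γ).sum_comp fun i => crossFun Γ' u v (S.rep i • rhoPt),
    ← Finset.sum_sub_distrib]
  simp only [crossFun_sub]
  rw [sum_finsum_comm _ _ fun i _ => finite_support_side Γ' u v _ _]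
  -- both sides are sums over the pairs
  let F : κ × Γ → ℤ := fun p => side (M p.1 *ᵥ u) (M p.1 *ᵥ v) ((p.2 : SL(2, ℤ)) • z) -
    side (M p.1 *ᵥ u) (M p.1 *ᵥ v) ((p.2 : SL(2, ℤ)) • rhoPt)
  have hF : HasFiniteSupport F := by
    refine ((Set.toFinite (Set.univ : Set κ)).prod (Set.finite_iUnion fun j =>
      finite_support_side Γ (M j *ᵥ u) (M j *ᵥ v) z rhoPt)).subset fun p hp => ?_
    exact ⟨Set.mem_univ _, Set.mem_iUnion.mpr ⟨p.1, hp⟩⟩
  have hGF : ∀ g : Γ', ∀ i, side u v ((g : SL(2, ℤ)) • S.rep i • z) -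
      side u v ((g : SL(2, ℤ)) • S.rep i • rhoPt) = F (σ (g, i)) := by
    intro g i
    have key : ∀ y : ℍ, side u v ((g : SL(2, ℤ)) • S.rep i • y) =
        side (M (σj g i) *ᵥ u) (M (σj g i) *ᵥ v) ((σk g i : SL(2, ℤ)) • y) := fun y => by
      show side u v (mapGL ℝ (g : SL(2, ℤ)) • S.rep i • y) = _
      rw [← mul_smul, hσ, mul_smul]
      obtain ⟨c, hc, hMc⟩ := hM (σj g i)
      exact side_glSmul (δ (σj g i)) (hδ _) (M _) hc hMc u v _
    rw [key, key]
  have hG : HasFiniteSupport (F ∘ σ) := hF.preimage hbij.1.injOn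
  calc ∑ᶠ (g : Γ'), ∑ i, (side u v ((g : SL(2, ℤ)) • S.rep i • z) -
        side u v ((g : SL(2, ℤ)) • S.rep i • rhoPt))
      = ∑ᶠ (g : Γ'), ∑ᶠ i, (F ∘ σ) (g, i) := finsum_congr fun g => by
        rw [finsum_eq_sum_of_fintype]; exact Finset.sum_congr rfl fun i _ => hGF g i
    _ = ∑ᶠ p, (F ∘ σ) p := (finsum_curry _ hG).symm
    _ = ∑ᶠ p, F p := finsum_eq_of_bijective σ hbij fun _ => rfl
    _ = ∑ᶠ j, ∑ᶠ k : Γ, F (j, k) := finsum_curry F hF
    _ = _ := by rw [finsum_eq_sum_of_fintype]; rfl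

end General

theorem actM_eq_act (g : SL(2, ℤ)) (u : Fin 2 → ℚ) :
    actM (g : Matrix (Fin 2) (Fin 2) ℤ) u = act g u := rfl

theorem actM_mul (A B : Matrix (Fin 2) (Fin 2) ℤ) (u : Fin 2 → ℚ) :
    actM (A * B) u = actM A (actM B u) := by
  rw [actM, actM, actM, Matrix.mulVec_mulVec]
  congr 1
  exact Matrix.map_mul (f := Int.castRingHom ℚ)

/-- `intGL A` times the adjugate is scalar -/
theorem intGL_mul_adjugate {A : Matrix (Fin 2) (Fin 2) ℤ} (h : A.det ≠ 0) :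
    ∃ c : ℝ, c ≠ 0 ∧ (intGL A : Matrix (Fin 2) (Fin 2) ℝ) *
      (A.adjugate.map fun x : ℤ => (x : ℚ)).map (fun x => (x : ℝ)) = c • 1 := by
  refine ⟨A.det, Int.cast_ne_zero.mpr h, ?_⟩
  rw [intGL_val h, Matrix.map_map]
  have e : A.adjugate.map ((fun x : ℚ => (x : ℝ)) ∘ fun x : ℤ => (x : ℚ)) =
      A.adjugate.map fun x : ℤ => (x : ℝ) := by
    ext i j; simp
  rw [e]
  ext i j
  fin_cases i <;> fin_cases j <;>
    simp [Matrix.mul_apply, Fin.sum_univ_two, Matrix.adjugate_fin_two, Matrix.det_fin_two] <;> ring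

theorem exists_intGL_adjugate {L ℓ : ℕ} (hℓ : ℓ.Prime) (hL : ¬ ℓ ∣ L) {A : Matrix (Fin 2) (Fin 2) ℤ}
    (hdet : A.det = ℓ) (hA : (L : ℤ) ∣ A 1 0) :
    ∃ (γ : Gamma0 L) (i : Option (ZMod ℓ)),
      intGL A = intGL (tMat ℓ i).adjugate * mapGL ℝ (γ : SL(2, ℤ)) := by
  have hdA : A.adjugate.det = ℓ := by rw [Matrix.det_adjugate, hdet]; simp
  obtain ⟨γ, i, e⟩ := exists_tMat_coset hℓ hL hdA
    (by rw [Matrix.adjugate_fin_two]; simpa using hA)
  have hne : (tMat ℓ i).det ≠ 0 := by simp [det_tMat, hℓ.ne_zero]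
  have hne' : (tMat ℓ i).adjugate.det ≠ 0 := by rw [Matrix.det_adjugate]; simpa using hne
  have e' := eq_mul_of_intGL (by rw [hdA]; simp [hℓ.ne_zero]) hne _ e
  have e'' := congrArg Matrix.adjugate e'
  rw [Matrix.adjugate_adjugate _ (by simp), Matrix.adjugate_mul_distrib,
    Fintype.card_fin, show (2 : ℕ) - 2 = 0 from rfl, pow_zero, one_smul] at e''
  refine ⟨γ⁻¹, i, ?_⟩
  rw [mapGL_eq_intGL, ← intGL_mul hne' (by simp [Matrix.det_adjugate, (γ : SL(2, ℤ)).det_coe]), e'']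
  congr 1

theorem tMat_adjugate_unique {L ℓ : ℕ} [NeZero L] (hℓ : ℓ.Prime) (hL : ¬ ℓ ∣ L)
    (j j' : Option (ZMod ℓ)) (k : Gamma0 L)
    (e : intGL (tMat ℓ j).adjugate = intGL (tMat ℓ j').adjugate * mapGL ℝ (k : SL(2, ℤ))) :
    j = j' := by
  have : NeZero ℓ := ⟨hℓ.ne_zero⟩
  have hne : ∀ i, (tMat ℓ i).det ≠ 0 := fun i => by simp [det_tMat, hℓ.ne_zero]
  have hne' : ∀ i, (tMat ℓ i).adjugate.det ≠ 0 := fun i => by
    rw [Matrix.det_adjugate]; simpa using hne i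
  rw [mapGL_eq_intGL, ← intGL_mul (hne' j') (by simp [(k : SL(2, ℤ)).det_coe])] at e
  have e' := intGL_inj (hne' j) (by simp [hne' j', (k : SL(2, ℤ)).det_coe]) e
  have e'' := congrArg Matrix.adjugate e'
  rw [Matrix.adjugate_adjugate _ (by simp), Matrix.adjugate_mul_distrib,
    Matrix.adjugate_adjugate _ (by simp), Fintype.card_fin, show (2 : ℕ) - 2 = 0 from rfl] at e''
  simp only [pow_zero, one_smul] at e''
  refine (systemT (N := L) hℓ hL).unique j j' k⁻¹ ?_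
  simp only [systemT, heckeRep_eq_intGL hℓ.ne_zero, mapGL_eq_intGL]
  rw [← intGL_mul (by simp [Matrix.det_adjugate, (k : SL(2, ℤ)).det_coe]) (hne j'), e'']
  congr 1

variable {R : Type*} [CommRing R]

theorem crossHomR_congr {Γ : Subgroup SL(2, ℤ)} {u v u' v' : Fin 2 → ℚ}
    (h : crossHom Γ u v = crossHom Γ u' v') : crossHomR R Γ u v = crossHomR R Γ u' v' := by
  rw [crossHomR, crossHomR, h]

theorem apply_crossHomR {Γ' Γ : Subgroup SL(2, ℤ)} {ι κ : Type} [Fintype ι] [Fintype κ]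
    (S : HeckeSystem Γ' Γ ι) {u v : Fin 2 → ℚ} {a b : κ → Fin 2 → ℚ}
    (h : S.apply (crossHom Γ' u v) = ∑ j, crossHom Γ (a j) (b j)) :
    S.apply (crossHomR R Γ' u v) = ∑ j, crossHomR R Γ (a j) (b j) := by
  rw [crossHomR, HeckeSystem.apply_comp, h]
  refine AddMonoidHom.ext fun x => ?_
  simp [crossHomR_apply]

/-- `T_ℓ` of a crossing homomorphism -/
theorem homT_crossHomR {L ℓ : ℕ} [NeZero L] (hℓ : ℓ.Prime) (hL : ¬ ℓ ∣ L) (u v : Fin 2 → ℚ) :
    haveI : NeZero ℓ := ⟨hℓ.ne_zero⟩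
    homT hℓ hL R (crossHomR R (Gamma0 L) u v) =
      ∑ j, crossHomR R (Gamma0 L) (actM (tMat ℓ j) u) (actM (tMat ℓ j) v) := by
  have : NeZero ℓ := ⟨hℓ.ne_zero⟩
  have hne : ∀ i, (tMat ℓ i).det ≠ 0 := fun i => by simp [det_tMat, hℓ.ne_zero]
  have hne' : ∀ i, (tMat ℓ i).adjugate.det ≠ 0 := fun i => by
    rw [Matrix.det_adjugate]; simpa using hne i
  have hdadj : ∀ i, (tMat ℓ i).adjugate.det = ℓ := fun i => by
    rw [Matrix.det_adjugate, det_tMat]; simp
  rw [homT, HeckeSystem.op_apply]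
  refine apply_crossHomR _ (apply_crossHom _ (fun j => intGL (tMat ℓ j).adjugate)
    (fun j => det_intGL_pos (by rw [hdadj]; exact_mod_cast hℓ.pos))
    (fun j => (tMat ℓ j).map fun x : ℤ => (x : ℚ)) (fun j => ?_) (fun g i => ?_) (fun j k => ?_)
    (fun j j' k e => tMat_adjugate_unique hℓ hL j j' k e) u v)
  · have := intGL_mul_adjugate (hne' j)
    rwa [Matrix.adjugate_adjugate _ (by simp), Fintype.card_fin,
      show (2 : ℕ) - 2 = 0 from rfl, pow_zero, one_smul] at this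
  · obtain ⟨c, hc⟩ := gamma0_dvd g
    obtain ⟨γ, j, e⟩ := exists_intGL_adjugate (L := L) hℓ hL
      (A := ((g : SL(2, ℤ)) : Matrix _ _ ℤ) * tMat ℓ i)
      (by simp [det_tMat, (g : SL(2, ℤ)).det_coe])
      (by
        cases i <;> simp [tMat, Matrix.mul_apply, Fin.sum_univ_two] <;>
          first | exact gamma0_dvd g | exact dvd_mul_of_dvd_left (gamma0_dvd g) _)
    refine ⟨j, γ, ?_⟩
    show mapGL ℝ (g : SL(2, ℤ)) * heckeRep ℓ i = _
    rw [heckeRep_eq_intGL hℓ.ne_zero, mapGL_eq_intGL,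
      ← intGL_mul (by simp [(g : SL(2, ℤ)).det_coe]) (hne i)]
    exact e
  · obtain ⟨γ, i, e⟩ := exists_tMat_coset (L := L) hℓ hL
      (M := (tMat ℓ j).adjugate * ((k : SL(2, ℤ)) : Matrix _ _ ℤ))
      (by simp [hdadj, (k : SL(2, ℤ)).det_coe])
      (by
        obtain ⟨c, hc⟩ := gamma0_dvd k
        cases j
        · exact ⟨ℓ * c, by simp [tMat, Matrix.adjugate_fin_two_of, Matrix.mul_apply, Fin.sum_univ_two, hc]; ring⟩
        · exact ⟨c, by simp [tMat, Matrix.adjugate_fin_two_of, Matrix.mul_apply, Fin.sum_univ_two, hc]⟩)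
    refine ⟨γ, i, ?_⟩
    show mapGL ℝ (γ : SL(2, ℤ)) * heckeRep ℓ i = _
    rw [heckeRep_eq_intGL hℓ.ne_zero, ← e,
      intGL_mul (hne' j) (by simp [(k : SL(2, ℤ)).det_coe]), mapGL_eq_intGL]

namespace RaiseData

variable {q N : ℕ} (h : RaiseData q N)
include h

theorem cor_crossHomR (u v : Fin 2 → ℚ) :
    h.corSys.apply (crossHomR R (Gamma0 (N * q)) u v) = crossHomR R (Gamma0 N) u v := by
  have key := apply_crossHom h.corSys (fun _ : Unit => (1 : GL (Fin 2) ℝ)) (fun _ => by simp)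
    (fun _ => 1) (fun _ => ⟨1, one_ne_zero, by simp⟩) (fun g i => ?_) (fun j k => ?_)
    (fun _ _ _ _ => rfl) u v
  · rw [apply_crossHomR (R := R) _ key, Fintype.sum_unique]
    simp
  · refine ⟨(), ⟨(g : SL(2, ℤ)) * ⟨corMat q N i, h.det_corMat i⟩, ?_⟩, ?_⟩
    · refine Subgroup.mul_mem _ ?_ (Gamma0_mem.mpr ((ZMod.intCast_zmod_eq_zero_iff_dvd _ _).mpr ?_))
      · exact Gamma0_mem.mpr ((ZMod.intCast_zmod_eq_zero_iff_dvd _ _).mpr
          (dvd_trans (by simp) (gamma0_dvd g)))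
      · rcases i with _ | x <;> simp [corMat]
    · simp [corSys, mkSystem, mapGL_eq_intGL (⟨corMat q N i, h.det_corMat i⟩ : SL(2, ℤ)), map_mul]
  · obtain ⟨γ, i, e⟩ := h.exists_corMat (M := ((k : SL(2, ℤ)) : Matrix _ _ ℤ))
      (k : SL(2, ℤ)).det_coe (gamma0_dvd k)
    exact ⟨γ, i, by
      show mapGL ℝ (γ : SL(2, ℤ)) * intGL (corMat q N i) = 1 * mapGL ℝ (k : SL(2, ℤ))
      rw [← e, one_mul, mapGL_eq_intGL (k : SL(2, ℤ))]⟩

theorem star_crossHomR (u v : Fin 2 → ℚ) :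
    h.starSys.apply (crossHomR R (Gamma0 (N * q)) u v) =
      crossHomR R (Gamma0 N) (actM (alphaMat q) u) (actM (alphaMat q) v) := by
  have hadj : (alphaMat q).adjugate = !![1, 0; 0, (q : ℤ)] := by
    rw [alphaMat, Matrix.adjugate_fin_two_of]; simp
  have hne : (alphaMat q).adjugate.det ≠ 0 := by
    simp [hadj, Matrix.det_fin_two_of, h.prime.ne_zero]
  have key := apply_crossHom h.starSys (fun _ : Unit => intGL (alphaMat q).adjugate)
    (fun _ => det_intGL_pos (by simp [hadj, Matrix.det_fin_two_of]; exact h.prime.pos))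
    (fun _ => (alphaMat q).map fun x : ℤ => (x : ℚ)) (fun _ => ?_) (fun g i => ?_) (fun j k => ?_)
    (fun _ _ _ _ => rfl) u v
  · rw [apply_crossHomR (R := R) _ key, Fintype.sum_unique]
    rfl
  · have := intGL_mul_adjugate hne
    rwa [Matrix.adjugate_adjugate _ (by simp), Fintype.card_fin,
      show (2 : ℕ) - 2 = 0 from rfl, pow_zero, one_smul] at this
  · obtain ⟨c, hc⟩ := gamma0_dvd g
    push_cast at hc
    set M := ((g : SL(2, ℤ)) : Matrix _ _ ℤ) * starMat q N i with hM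
    have h10 : (q : ℤ) * N ∣ M 1 0 ∧ (q : ℤ) ∣ M 1 1 := by
      rcases i with _ | x
      · constructor
        · exact ⟨c * q * bezQ q N + (g : SL(2, ℤ)) 1 1, by
            simp [hM, starMat, wMat, Matrix.mul_apply, Fin.sum_univ_two, hc]; ring⟩
        · exact ⟨-(N * c * bezN q N) + (g : SL(2, ℤ)) 1 1, by
            simp [hM, starMat, wMat, Matrix.mul_apply, Fin.sum_univ_two, hc]; ring⟩
      · constructor
        · exact ⟨c, by
            simp only [hM, starMat, Matrix.mul_apply, Fin.sum_univ_two, hc, Matrix.cons_val',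
              Matrix.cons_val_zero, Matrix.cons_val_one, Matrix.of_apply, Matrix.cons_val_fin_one]
            ring⟩
        · exact ⟨N * c * (x : ℕ) + (g : SL(2, ℤ)) 1 1, by
            simp [hM, starMat, Matrix.mul_apply, Fin.sum_univ_two, hc]; ring⟩
    obtain ⟨⟨e, he⟩, ⟨d, hd⟩⟩ := h10
    set k : Matrix (Fin 2) (Fin 2) ℤ := !![M 0 0, M 0 1; N * e, d] with hk
    have hMk : M = (alphaMat q).adjugate * k := by
      ext a b
      fin_cases a <;> fin_cases b <;>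
        simp [hadj, hk, Matrix.mul_apply, Fin.sum_univ_two, he, hd]
      all_goals ring
    have hdM : M.det = q := by simp [hM, h.det_starMat, (g : SL(2, ℤ)).det_coe]
    have hdk : k.det = 1 := by
      have e' : M.det = ((alphaMat q).adjugate * k).det := congrArg Matrix.det hMk
      rw [hdM, Matrix.det_mul, hadj, Matrix.det_fin_two_of] at e'
      refine mul_left_cancel₀ h.ne_zero ?_
      linear_combination -e'
    refine ⟨(), ⟨⟨k, hdk⟩, Gamma0_mem.mpr ((ZMod.intCast_zmod_eq_zero_iff_dvd _ _).mpr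
      (by simp [hk]))⟩, ?_⟩
    show mapGL ℝ (g : SL(2, ℤ)) * intGL (starMat q N i) = _
    rw [mapGL_eq_intGL, ← intGL_mul (by simp [(g : SL(2, ℤ)).det_coe])
      (by simp [h.det_starMat, h.prime.ne_zero]), mapGL_eq_intGL, ← intGL_mul hne (by simp [hdk])]
    exact congrArg intGL hMk
  · obtain ⟨c, hc⟩ := gamma0_dvd k
    obtain ⟨γ, i, e⟩ := h.exists_starMat
      (M := (alphaMat q).adjugate * ((k : SL(2, ℤ)) : Matrix _ _ ℤ))
      (by rw [Matrix.det_mul, hadj, Matrix.det_fin_two_of, (k : SL(2, ℤ)).det_coe]; ring)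
      ⟨q * c, by simp [hadj, Matrix.mul_apply, Fin.sum_univ_two, hc]; ring⟩
      ⟨(k : SL(2, ℤ)) 1 0, by simp [hadj, Matrix.mul_apply, Fin.sum_univ_two]⟩
      ⟨(k : SL(2, ℤ)) 1 1, by simp [hadj, Matrix.mul_apply, Fin.sum_univ_two]⟩
    refine ⟨γ, i, ?_⟩
    show _ * intGL (starMat q N i) = _
    rw [← e, intGL_mul hne (by simp [(k : SL(2, ℤ)).det_coe]), mapGL_eq_intGL]

end RaiseData

end Fermat.Agent.LevelRaising
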