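import Fermat.Agent.LevelRaising.Cusps.HeckeFun

/-!
# `T_ℓ - (1 + ℓ)` kills the values at parabolic elements
-/

set_option autoImplicit false

noncomputable section

namespace Fermat.Agent.LevelRaising

open CongruenceSubgroup Fermat.Agent.Periods Function
open Matrix.SpecialLinearGroup
open P2MW.S_ModularForm_heckeT_slash_eq_self_of_mem_Gamma0.ModularForm.HeckeSlashInvariance
open ModularCurve.Period
open scoped MatrixGroups BigOperators Matrix

/-- the parabolic element `1 + h · v ⊗ v^⊥` -/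
def parEl (v : Fin 2 → ℤ) (h : ℤ) : SL(2, ℤ) :=
  ⟨!![1 - h * v 0 * v 1, h * v 0 ^ 2; -(h * v 1 ^ 2), 1 + h * v 0 * v 1], by
    rw [Matrix.det_fin_two_of]; ring⟩

theorem parEl_add (v : Fin 2 → ℤ) (h k : ℤ) : parEl v (h + k) = parEl v h * parEl v k := by
  apply sl_ext <;> simp only [mul_apply00, mul_apply01, mul_apply10, mul_apply11] <;>
    simp [parEl] <;> ring

theorem parEl_pow (v : Fin 2 → ℤ) (h : ℤ) : ∀ n : ℕ, parEl v h ^ n = parEl v (n * h)
  | 0 => by rw [pow_zero]; apply sl_ext <;> simp [parEl]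
  | n + 1 => by rw [pow_succ, parEl_pow v h n, ← parEl_add]; push_cast; ring_nf

/-- The square of an element fixing a primitive vector up to a factor is a `parEl`. -/
theorem exists_sq_eq_parEl {v : Fin 2 → ℤ} (hv : IsCoprime (v 0) (v 1)) {γ : SL(2, ℤ)} {n : ℤ}
    (hn : actZ γ v = n • v) : ∃ h, γ ^ 2 = parEl v h := by
  obtain ⟨s, t, hst⟩ := hv
  set σ : SL(2, ℤ) := ⟨!![v 0, -t; v 1, s], by rw [Matrix.det_fin_two_of]; linear_combination hst⟩
    with hσ
  set m : SL(2, ℤ) := σ⁻¹ * γ * σ with hm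
  have q0 : γ 0 0 * v 0 + γ 0 1 * v 1 = n * v 0 := by
    have := congrFun hn 0
    simpa [actZ, Matrix.mulVec, dotProduct, Fin.sum_univ_two] using this
  have q1 : γ 1 0 * v 0 + γ 1 1 * v 1 = n * v 1 := by
    have := congrFun hn 1
    simpa [actZ, Matrix.mulVec, dotProduct, Fin.sum_univ_two] using this
  have m00 : m 0 0 = n := by
    rw [hm]; simp only [mul_apply00, mul_apply01, Matrix.SpecialLinearGroup.coe_inv]
    simp [hσ, Matrix.adjugate_fin_two]
    linear_combination s * q0 + t * q1 + n * hst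
  have m10 : m 1 0 = 0 := by
    rw [hm]; simp only [mul_apply10, mul_apply11, Matrix.SpecialLinearGroup.coe_inv]
    simp [hσ, Matrix.adjugate_fin_two]
    linear_combination (-(v 1)) * q0 + v 0 * q1
  have hd := det_eq m
  rw [m00, m10, mul_zero, sub_zero] at hd
  have h11 : m 1 1 = n := by
    rcases Int.eq_one_or_neg_one_of_mul_eq_one hd with h1 | h1 <;> rw [h1] at hd ⊢ <;> linarith
  rw [h11] at hd
  refine ⟨2 * n * m 0 1, ?_⟩
  have e : γ ^ 2 = σ * m ^ 2 * σ⁻¹ := by rw [hm, sq, sq]; group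
  have hm2 : m ^ 2 = upr (2 * n * m 0 1) := by
    rw [sq]
    apply sl_ext <;>
      simp [mul_apply00, mul_apply01, mul_apply10, mul_apply11, m00, m10, h11, hd]
    ring
  rw [e, hm2]
  apply sl_ext <;> simp only [mul_apply00, mul_apply01, mul_apply10, mul_apply11, Matrix.SpecialLinearGroup.coe_inv] <;>
    simp [hσ, parEl, Matrix.adjugate_fin_two]
  · linear_combination hst
  · ring
  · ring
  · linear_combination hst

variable {A : Type*} [AddCommGroup A]

/-- The content of the image of a primitive vector. -/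
def contentSq (ℓ : ℕ) (v : Fin 2 → ℤ) (j : Option (ZMod ℓ)) : ℕ :=
  Int.gcd ((tMat ℓ j *ᵥ v) 0) ((tMat ℓ j *ᵥ v) 1) ^ 2

theorem gcd_tMat_mulVec {ℓ : ℕ} [NeZero ℓ] (hℓ : ℓ.Prime) {v : Fin 2 → ℤ}
    (hv : IsCoprime (v 0) (v 1)) (j : Option (ZMod ℓ)) :
    Int.gcd ((tMat ℓ j *ᵥ v) 0) ((tMat ℓ j *ᵥ v) 1) =
      if ((ℓ : ℤ) ∣ (tMat ℓ j *ᵥ v) 0 ∧ (ℓ : ℤ) ∣ (tMat ℓ j *ᵥ v) 1) then ℓ else 1 := by
  set b := tMat ℓ j *ᵥ v
  have hgl : Int.gcd (b 0) (b 1) ∣ ℓ := by
    have e : (tMat ℓ j).adjugate *ᵥ b = (ℓ : ℤ) • v := by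
      rw [show b = tMat ℓ j *ᵥ v from rfl, Matrix.mulVec_mulVec, Matrix.adjugate_mul, det_tMat,
        Matrix.smul_mulVec, Matrix.one_mulVec]
    have hi : ∀ i, (Int.gcd (b 0) (b 1) : ℤ) ∣ (ℓ : ℤ) * v i := fun i => by
      have := congrFun e i
      simp only [Matrix.mulVec, dotProduct, Fin.sum_univ_two, Pi.smul_apply, smul_eq_mul] at this
      rw [← this]
      exact dvd_add (dvd_mul_of_dvd_right (Int.gcd_dvd_left _ _) _)
        (dvd_mul_of_dvd_right (Int.gcd_dvd_right _ _) _)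
    obtain ⟨s, t, hst⟩ := hv
    have : (Int.gcd (b 0) (b 1) : ℤ) ∣ (ℓ : ℤ) := by
      rw [show (ℓ : ℤ) = s * ((ℓ : ℤ) * v 0) + t * ((ℓ : ℤ) * v 1) by
        linear_combination (-(ℓ : ℤ)) * hst]
      exact dvd_add ((hi 0).mul_left _) ((hi 1).mul_left _)
    exact_mod_cast this
  rcases (Nat.dvd_prime hℓ).mp hgl with h1 | h1 <;> split_ifs with h
  · exfalso
    have := Int.dvd_gcd h.1 h.2
    rw [h1] at this
    exact hℓ.not_dvd_one (by exact_mod_cast this)
  · exact h1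
  · exact h1
  · exact absurd ⟨h1 ▸ Int.gcd_dvd_left _ _, h1 ▸ Int.gcd_dvd_right _ _⟩ h

theorem sum_contentSq {ℓ : ℕ} [NeZero ℓ] (hℓ : ℓ.Prime) {v : Fin 2 → ℤ}
    (hv : IsCoprime (v 0) (v 1)) :
    ∑ j, contentSq ℓ v j = ℓ * (1 + ℓ) := by
  classical
  have : Fact ℓ.Prime := ⟨hℓ⟩
  let P : Option (ZMod ℓ) → Prop := fun j =>
    (ℓ : ℤ) ∣ (tMat ℓ j *ᵥ v) 0 ∧ (ℓ : ℤ) ∣ (tMat ℓ j *ᵥ v) 1
  obtain ⟨j₀, hj₀⟩ : ∃ j₀, ∀ j, P j ↔ j = j₀ := by
    by_cases h1 : ((v 1 : ℤ) : ZMod ℓ) = 0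
    · have h0 : ((v 0 : ℤ) : ZMod ℓ) ≠ 0 := fun h0 => by
        obtain ⟨s, t, hst⟩ := hv
        have := congrArg (Int.cast : ℤ → ZMod ℓ) hst
        push_cast at this
        simp [h0, h1] at this
      refine ⟨none, fun j => ?_⟩
      simp only [P, ← ZMod.intCast_zmod_eq_zero_iff_dvd]
      cases j <;>
        simp [tMat, Matrix.mulVec, dotProduct, Fin.sum_univ_two, h0, h1]
    · refine ⟨some (-((v 0 : ℤ) : ZMod ℓ) / (v 1 : ℤ)), fun j => ?_⟩
      simp only [P, ← ZMod.intCast_zmod_eq_zero_iff_dvd]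
      cases j with
      | none => simp [tMat, Matrix.mulVec, dotProduct, Fin.sum_univ_two, h1]
      | some x =>
        simp [tMat, Matrix.mulVec, dotProduct, Fin.sum_univ_two]
        rw [eq_div_iff h1]
        constructor <;> intro h <;> linear_combination h
  have : ∀ j, contentSq ℓ v j = 1 + (if j = j₀ then ℓ ^ 2 - 1 else 0) := fun j => by
    have hpos : 1 ≤ ℓ ^ 2 := Nat.one_le_pow _ _ hℓ.pos
    rw [contentSq, gcd_tMat_mulVec hℓ hv]
    by_cases h : P j
    · rw [if_pos h, if_pos ((hj₀ j).mp h)]; omega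
    · rw [if_neg h, if_neg (fun e => h ((hj₀ j).mpr e))]; norm_num
  simp only [this, Finset.sum_add_distrib, Finset.sum_ite_eq', Finset.mem_univ, if_true,
    Finset.sum_const, Finset.card_univ, card_tReps, smul_eq_mul, mul_one]
  have hpos : 1 ≤ ℓ ^ 2 := Nat.one_le_pow _ _ hℓ.pos
  have : ℓ * (1 + ℓ) = ℓ + ℓ ^ 2 := by ring
  omega

/-- For torsion-free coefficients, `T_ℓ - (1 + ℓ)` lands in homomorphisms vanishing at parabolic
elements. -/
theorem homT_apply_parabolic {L ℓ : ℕ} [NeZero L] [NeZero ℓ] (hℓ : ℓ.Prime) (hℓL : ¬ ℓ ∣ L)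
    (hL : (L : ℤ) ∣ (ℓ : ℤ) - 1) (htf : ∀ (n : ℕ) (a : A), n ≠ 0 → n • a = 0 → a = 0)
    (φ : Additive (Gamma0 L) →+ A) (γ : Gamma0 L)
    (hγ : ((γ : SL(2, ℤ)) : Matrix (Fin 2) (Fin 2) ℤ).trace ^ 2 = 4) :
    homT hℓ hℓL ℤ φ (Additive.ofMul γ) = (1 + ℓ) • φ (Additive.ofMul γ) := by
  classical
  set S := systemT (N := L) hℓ hℓL
  -- a fixed primitive vector
  obtain ⟨v, n, hv, hvγ⟩ : ∃ (v : Fin 2 → ℤ) (n : ℤ), IsCoprime (v 0) (v 1) ∧
      actZ (γ : SL(2, ℤ)) v = n • v := by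
    set g : SL(2, ℤ) := (γ : SL(2, ℤ))
    rw [Matrix.trace_fin_two] at hγ
    have hd : g 0 0 * g 1 1 - g 0 1 * g 1 0 = 1 := det_eq g
    obtain ⟨e, he, he2⟩ : ∃ e : ℤ, e * e = 1 ∧ g 0 0 + g 1 1 = 2 * e := by
      rcases (sq_eq_sq_iff_eq_or_eq_neg (b := (2 : ℤ))).mp (by rw [hγ]; norm_num) with h | h
      · exact ⟨1, rfl, by rw [h]; norm_num⟩
      · exact ⟨-1, rfl, by rw [h]; norm_num⟩
    by_cases hc : g 1 0 = 0
    · refine ⟨![1, 0], g 0 0, by simpa using isCoprime_one_left, ?_⟩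
      ext i; fin_cases i <;> simp [actZ, g, hc, Matrix.mulVec, dotProduct, Fin.sum_univ_two]
    · obtain ⟨c, a, hcne, ha, hx⟩ := exists_primitive_vec (x := ![((g 0 0 - e : ℤ) : ℚ), (g 1 0 : ℚ)])
        (fun h => hc (by simpa using congrFun h 1))
      have hfix : act g ![((g 0 0 - e : ℤ) : ℚ), (g 1 0 : ℚ)] =
          (e : ℚ) • ![((g 0 0 - e : ℤ) : ℚ), (g 1 0 : ℚ)] := by
        have hd' : ((g 0 0 : ℚ) * g 1 1 - g 0 1 * g 1 0) = 1 := by exact_mod_cast hd
        have he' : (e : ℚ) * e = 1 := by exact_mod_cast he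
        have he2' : (g 0 0 : ℚ) + g 1 1 = 2 * e := by exact_mod_cast he2
        ext i; fin_cases i <;> simp [act_apply]
        · linear_combination -hd' + (g 0 0 : ℚ) * he2' + he'
        · linear_combination (g 1 0 : ℚ) * he2'
      rw [hx, act_smul, act_castQ, smul_comm] at hfix
      have h' := smul_right_injective (Fin 2 → ℚ) hcne hfix
      refine ⟨a, e, ha, ?_⟩
      ext i
      have := congrFun h' i
      simp only [castQ, Pi.smul_apply, smul_eq_mul] at this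
      simp only [Pi.smul_apply, smul_eq_mul]
      exact_mod_cast this
  -- a power fixing all representatives
  let e : Equiv.Perm (Option (ZMod ℓ)) := Equiv.ofBijective _ (S.perm_bijective γ)
  set k := 2 * orderOf e with hk
  have hk0 : k ≠ 0 := by have := orderOf_pos e; omega
  have hfix : ∀ i, S.perm (γ ^ k) i = i := fun i => by
    rw [(S.perm_cocycle_pow (A := A) γ i k).1]
    have hek : e ^ k = 1 := by rw [hk, mul_comm, pow_mul, pow_orderOf_eq_one, one_pow]
    have := congrArg (fun f : Equiv.Perm (Option (ZMod ℓ)) => f i) hek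
    simp only [Equiv.Perm.coe_pow, Equiv.Perm.one_apply] at this
    exact this
  obtain ⟨H, hH⟩ := exists_sq_eq_parEl hv hvγ
  have hg : ((γ ^ k : Gamma0 L) : SL(2, ℤ)) = parEl v (orderOf e * H) := by
    rw [SubmonoidClass.coe_pow, hk, pow_mul, hH, parEl_pow]
  -- the value at each fixed representative
  have hval : ∀ j, (2 * ℓ) • φ (Additive.ofMul (S.cocycle (γ ^ k) j)) =
      (2 * contentSq ℓ v j) • φ (Additive.ofMul (γ ^ k)) := by
    intro j
    set c := S.cocycle (γ ^ k) j with hc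
    have hspec := tMat_spec (L := L) hℓ hℓL (γ ^ k) j
    rw [show (systemT hℓ hℓL).perm (γ ^ k) j = j from hfix j] at hspec
    obtain ⟨δ, r, hr, hδ⟩ := exists_act_eq_actM hℓ hL j (castQ_ne_zero hv)
    set w := actZ (δ : SL(2, ℤ)) v with hw
    have hwc : IsCoprime (w 0) (w 1) := by
      obtain ⟨s, t, hst⟩ := hv
      have hd := det_eq (δ : SL(2, ℤ))
      refine ⟨s * (δ : SL(2, ℤ)) 1 1 - t * (δ : SL(2, ℤ)) 1 0,
        -(s * (δ : SL(2, ℤ)) 0 1) + t * (δ : SL(2, ℤ)) 0 0, ?_⟩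
      simp [hw, actZ]
      linear_combination (s * v 0 + t * v 1) * hd + hst
    set b := tMat ℓ j *ᵥ v with hb
    rw [act_castQ, ← hw] at hδ
    have hbq : ∀ i, (b i : ℚ) = r * (w i : ℚ) := fun i => by
      have := congrFun hδ i
      simp only [Pi.smul_apply, smul_eq_mul, castQ] at this
      rw [← this]
      fin_cases i <;> simp [actM, castQ, hb, Matrix.mulVec, dotProduct, Fin.sum_univ_two]
    obtain ⟨s, t, hst⟩ := hwc
    set lam : ℤ := s * b 0 + t * b 1 with hlam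
    have hrl : r = (lam : ℚ) := by
      have : ((s : ℚ) * w 0 + t * w 1) = 1 := by exact_mod_cast hst
      rw [hlam]; push_cast; rw [hbq, hbq]; linear_combination (-r) * this
    have hbl : ∀ i, b i = lam * w i := fun i => by
      have := hbq i; rw [hrl] at this; exact_mod_cast this
    have hlam2 : lam.natAbs ^ 2 = contentSq ℓ v j := by
      rw [contentSq, ← hb, hbl, hbl, Int.gcd_mul_left,
        Int.isCoprime_iff_gcd_eq_one.mp ⟨s, t, hst⟩, mul_one]
    have hlam0 : lam ≠ 0 := fun h0 => hr (by rw [hrl, h0, Int.cast_zero])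
    -- conjugate back
    set d : Gamma0 L := δ⁻¹ * c * δ with hd
    set M : Matrix (Fin 2) (Fin 2) ℤ :=
      (((δ⁻¹ : Gamma0 L) : SL(2, ℤ)) : Matrix (Fin 2) (Fin 2) ℤ) * tMat ℓ j with hM
    have hMd : M * ((γ ^ k : Gamma0 L) : SL(2, ℤ)).1 = (d : SL(2, ℤ)).1 * M := by
      rw [hM, mul_assoc, hspec, hd, Subgroup.coe_mul, Subgroup.coe_mul, coe_mul, coe_mul,
        mul_assoc _ ((δ : SL(2, ℤ)) : Matrix (Fin 2) (Fin 2) ℤ), ← mul_assoc ((δ : SL(2, ℤ)) : Matrix (Fin 2) (Fin 2) ℤ),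
        InvMemClass.coe_inv, ← coe_mul (δ : SL(2, ℤ)), mul_inv_cancel, coe_one, one_mul, ← mul_assoc]
    have hMv : M *ᵥ v = lam • v := by
      rw [hM, ← Matrix.mulVec_mulVec, ← hb]
      have : b = lam • w := funext fun i => by simpa using hbl i
      rw [this, Matrix.mulVec_smul, hw]
      congr 1
      rw [actZ, Matrix.mulVec_mulVec, InvMemClass.coe_inv, ← coe_mul, inv_mul_cancel, coe_one,
        Matrix.one_mulVec]
    have hdv : actZ (d : SL(2, ℤ)) v = v := by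
      have e1 : ((γ ^ k : Gamma0 L) : SL(2, ℤ)).1 *ᵥ v = v := by
        rw [hg]; ext i; fin_cases i <;>
          simp [parEl, Matrix.mulVec, dotProduct, Fin.sum_univ_two] <;> ring
      have e2 := congrArg (fun X : Matrix (Fin 2) (Fin 2) ℤ => X *ᵥ v) hMd
      simp only [← Matrix.mulVec_mulVec, e1, hMv, Matrix.mulVec_smul] at e2
      exact (smul_right_injective (Fin 2 → ℤ) hlam0 e2).symm
    obtain ⟨K, hK⟩ := exists_sq_eq_parEl hv (n := 1) (by rw [one_smul]; exact hdv)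
    set H' : ℤ := (orderOf e : ℤ) * H
    have hMd2 : M * (parEl v (2 * H')).1 = (parEl v K).1 * M := by
      rw [show parEl v (2 * H') = ((γ ^ k : Gamma0 L) : SL(2, ℤ)) ^ 2 by
        rw [hg, parEl_pow]; norm_num [H'], ← hK, sq, sq, coe_mul, coe_mul,
        ← mul_assoc, hMd, mul_assoc, hMd, ← mul_assoc]
    have hdetM : M 0 0 * M 1 1 - M 0 1 * M 1 0 = ℓ := by
      rw [← Matrix.det_fin_two, hM, Matrix.det_mul, det_tMat,
        ((δ⁻¹ : Gamma0 L) : SL(2, ℤ)).det_coe, one_mul]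
    have q0 : M 0 0 * v 0 + M 0 1 * v 1 = lam * v 0 := by
      simpa [Matrix.mulVec, dotProduct, Fin.sum_univ_two] using congrFun hMv 0
    have q1 : M 1 0 * v 0 + M 1 1 * v 1 = lam * v 1 := by
      simpa [Matrix.mulVec, dotProduct, Fin.sum_univ_two] using congrFun hMv 1
    have key : K * ℓ = 2 * H' * lam ^ 2 := by
      have f00 := congrFun (congrFun hMd2 0) 0
      have f01 := congrFun (congrFun hMd2 0) 1
      have f10 := congrFun (congrFun hMd2 1) 0
      have f11 := congrFun (congrFun hMd2 1) 1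
      simp [parEl, Matrix.mul_apply, Fin.sum_univ_two] at f00 f01 f10 f11
      obtain ⟨s, t, hst⟩ := hv
      have g00 : (K * ℓ - 2 * H' * lam ^ 2) * (v 0 * v 0) = 0 := by
        linear_combination -lam * f01 + (2 * H' * v 0 * lam + K * v 0 * M 1 1) * q0
          - K * v 0 * M 0 1 * q1 - K * v 0 * v 0 * hdetM
      have g11 : (K * ℓ - 2 * H' * lam ^ 2) * (v 1 * v 1) = 0 := by
        linear_combination lam * f10 - K * v 1 * M 1 0 * q0
          + (2 * H' * v 1 * lam + K * v 1 * M 0 0) * q1 - K * v 1 * v 1 * hdetM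
      rw [← sub_eq_zero]
      rcases mul_eq_zero.mp g00 with h | h
      · exact h
      rcases mul_eq_zero.mp g11 with h' | h'
      · exact h'
      exfalso
      simp [mul_self_eq_zero.mp h, mul_self_eq_zero.mp h'] at hst
    have hpow : (d ^ 2) ^ ℓ = ((γ ^ k) ^ 2) ^ (lam.natAbs ^ 2) := by
      apply Subtype.ext
      rw [SubmonoidClass.coe_pow, SubmonoidClass.coe_pow, SubmonoidClass.coe_pow,
        SubmonoidClass.coe_pow, hK, hg, parEl_pow, parEl_pow, parEl_pow]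
      congr 1
      push_cast
      rw [sq_abs]
      linear_combination key
    have := congrArg (fun x => φ (Additive.ofMul x)) hpow
    simp only [ofMul_pow, map_nsmul, smul_smul, hlam2] at this
    rw [show φ (Additive.ofMul c) = φ (Additive.ofMul d) by
      rw [hd, ofMul_mul, ofMul_mul, ofMul_inv, map_add, map_add, map_neg]; abel]
    rw [mul_comm 2 ℓ, this, ofMul_pow, map_nsmul, smul_smul]
    ring_nf
  -- sum up
  have hsum : (2 * ℓ) • homT hℓ hℓL ℤ φ (Additive.ofMul (γ ^ k)) =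
      (2 * ℓ) • ((1 + ℓ) • φ (Additive.ofMul (γ ^ k))) := by
    rw [homT, HeckeSystem.op_apply, HeckeSystem.apply_apply, Finset.smul_sum,
      Finset.sum_congr rfl fun j _ => hval j, ← Finset.sum_smul, ← Finset.mul_sum,
      sum_contentSq hℓ hv, smul_smul, mul_assoc]
  rw [ofMul_pow, map_nsmul, map_nsmul, smul_smul, smul_smul, smul_smul] at hsum
  refine sub_eq_zero.mp (htf (2 * ℓ * k) _ (by simp [hℓ.ne_zero, hk0]) ?_)
  rw [smul_sub, sub_eq_zero, smul_smul, hsum]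
  congr 1
  ring

end Fermat.Agent.LevelRaising
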