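import Fermat.Agent.LevelRaising.Transfer

/-!
# Degeneracy operators between `Γ₀(N)` and `Γ₀(Nq)`
-/

set_option autoImplicit false

noncomputable section

namespace Fermat.Agent.LevelRaising

open CongruenceSubgroup Function Fermat.Agent.Periods
open Matrix.SpecialLinearGroup
open P2MW.S_ModularForm_heckeT_slash_eq_self_of_mem_Gamma0.ModularForm.HeckeSlashInvariance
open scoped MatrixGroups BigOperators

theorem gamma0_dvd {L : ℕ} (γ : Gamma0 L) : (L : ℤ) ∣ (γ : SL(2, ℤ)) 1 0 :=
  (ZMod.intCast_zmod_eq_zero_iff_dvd _ _).mp (Gamma0_mem.mp γ.2)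

/-- The standing hypotheses on the level and the added prime. -/
structure RaiseData (q N : ℕ) : Prop where
  prime : q.Prime
  not_dvd : ¬ q ∣ N

/-- Bezout coefficient of `q` -/
def bezQ (q N : ℕ) : ℤ := Nat.gcdA q N
/-- Bezout coefficient of `N` -/
def bezN (q N : ℕ) : ℤ := Nat.gcdB q N

/-- the matrix `diag(q, 1)` -/
def alphaMat (q : ℕ) : Matrix (Fin 2) (Fin 2) ℤ := !![(q : ℤ), 0; 0, 1]

/-- representatives of `Γ₀(Nq) \ Γ₀(N)` -/
def corMat (q N : ℕ) : Option (Fin q) → Matrix (Fin 2) (Fin 2) ℤ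
  | none => !![bezQ q N, -bezN q N; (N : ℤ), (q : ℤ)]
  | some x => !![1, 0; (N : ℤ) * (x : ℕ), 1]

/-- the Atkin-Lehner matrix at `q` -/
def wMat (q N : ℕ) : Matrix (Fin 2) (Fin 2) ℤ :=
  !![(q : ℤ) * bezQ q N, -bezN q N; (N : ℤ) * q, (q : ℤ)]

/-- representatives of the second degeneracy correspondence -/
def starMat (q N : ℕ) : Option (Fin q) → Matrix (Fin 2) (Fin 2) ℤ
  | none => wMat q N
  | some x => !![1, ((x : ℕ) : ℤ); 0, (q : ℤ)]

variable {q N : ℕ}

namespace RaiseData

variable (h : RaiseData q N)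
include h

theorem bez : bezQ q N * q + bezN q N * N = 1 := by
  have e := Nat.gcd_eq_gcd_ab q N
  rw [Nat.Coprime.gcd_eq_one (h.prime.coprime_iff_not_dvd.mpr h.not_dvd)] at e
  simp only [bezQ, bezN]
  push_cast at e
  linear_combination -e

theorem ne_zero : (q : ℤ) ≠ 0 := Int.natCast_ne_zero.mpr h.prime.ne_zero

theorem isCoprime : IsCoprime (q : ℤ) (N : ℤ) := ⟨bezQ q N, bezN q N, h.bez⟩

theorem prime_int : Prime (q : ℤ) := Nat.prime_iff_prime_int.mp h.prime

theorem level_ne_zero : N ≠ 0 := fun h0 => h.not_dvd (h0 ▸ dvd_zero q)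

theorem det_alphaMat : (alphaMat q).det = q := by simp [alphaMat, Matrix.det_fin_two_of]

theorem det_wMat : (wMat q N).det = q := by
  simp only [wMat, Matrix.det_fin_two_of]
  linear_combination (q : ℤ) * h.bez

theorem det_corMat (i : Option (Fin q)) : (corMat q N i).det = 1 := by
  cases i
  · simp only [corMat, Matrix.det_fin_two_of]; linear_combination h.bez
  · simp [corMat, Matrix.det_fin_two_of]

theorem det_starMat (i : Option (Fin q)) : (starMat q N i).det = q := by
  cases i
  · exact h.det_wMat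
  · simp [starMat, Matrix.det_fin_two_of]

theorem exists_corMat {M : Matrix (Fin 2) (Fin 2) ℤ} (hdet : M.det = 1)
    (hN : (N : ℤ) ∣ M 1 0) :
    ∃ (γ : Gamma0 (N * q)) (i : Option (Fin q)),
      intGL M = mapGL ℝ (γ : SL(2, ℤ)) * intGL (corMat q N i) := by
  have : Fact q.Prime := ⟨h.prime⟩
  obtain ⟨c, hc⟩ := hN
  by_cases hd : (q : ℤ) ∣ M 1 1
  · obtain ⟨d, hd⟩ := hd
    obtain ⟨γ, -, hγ⟩ := exists_left (L := N * q) (M := M) (B := corMat q N none)
      (by simp [h.det_corMat]) (by rw [h.det_corMat, hdet])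
      !![M 0 0 * q - M 0 1 * N, M 0 0 * bezN q N + M 0 1 * bezQ q N;
        M 1 0 * q - M 1 1 * N, M 1 0 * bezN q N + M 1 1 * bezQ q N]
      (by
        ext i j; fin_cases i <;> fin_cases j <;>
          simp [corMat, Matrix.mul_apply, Fin.sum_univ_two]
        · linear_combination -(M 0 0) * h.bez
        · linear_combination -(M 0 1) * h.bez
        · linear_combination -(M 1 0) * h.bez
        · linear_combination -(M 1 1) * h.bez)
      (by
        refine ⟨c - d, ?_⟩
        simp only [Matrix.cons_val', Matrix.cons_val_zero, Matrix.cons_val_one, Matrix.of_apply,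
          Matrix.cons_val_fin_one, hc, hd]
        push_cast; ring)
    exact ⟨γ, none, hγ⟩
  · have hd' : ((M 1 1 : ℤ) : ZMod q) ≠ 0 := fun h0 =>
      hd ((ZMod.intCast_zmod_eq_zero_iff_dvd _ _).mp h0)
    set x : ZMod q := (c : ZMod q) / (M 1 1 : ZMod q) with hx
    obtain ⟨k, hk⟩ : (q : ℤ) ∣ c - M 1 1 * (x.val : ℤ) := by
      rw [← ZMod.intCast_zmod_eq_zero_iff_dvd]
      push_cast
      rw [ZMod.natCast_zmod_val, hx]
      field_simp
      ring
    obtain ⟨γ, -, hγ⟩ := exists_left (L := N * q) (M := M)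
      (B := corMat q N (some ⟨x.val, x.val_lt⟩))
      (by simp [h.det_corMat]) (by rw [h.det_corMat, hdet])
      !![M 0 0 - M 0 1 * (N * x.val), M 0 1; M 1 0 - M 1 1 * (N * x.val), M 1 1]
      (by
        ext i j; fin_cases i <;> fin_cases j <;>
          simp [corMat, Matrix.mul_apply, Fin.sum_univ_two])
      (by
        refine ⟨k, ?_⟩
        simp only [Matrix.cons_val', Matrix.cons_val_zero, Matrix.cons_val_one, Matrix.of_apply,
          Matrix.cons_val_fin_one, hc]
        push_cast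
        linear_combination (N : ℤ) * hk)
    exact ⟨γ, some ⟨x.val, x.val_lt⟩, hγ⟩

theorem exists_starMat {M : Matrix (Fin 2) (Fin 2) ℤ} (hdet : M.det = q)
    (hN : (N : ℤ) ∣ M 1 0) (hc : (q : ℤ) ∣ M 1 0) (hd : (q : ℤ) ∣ M 1 1) :
    ∃ (γ : Gamma0 (N * q)) (i : Option (Fin q)),
      intGL M = mapGL ℝ (γ : SL(2, ℤ)) * intGL (starMat q N i) := by
  have : Fact q.Prime := ⟨h.prime⟩
  obtain ⟨d, hd⟩ := hd
  obtain ⟨c, hc'⟩ : (q : ℤ) * N ∣ M 1 0 := h.isCoprime.mul_dvd hc hN
  by_cases ha : (q : ℤ) ∣ M 0 0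
  · obtain ⟨a, ha⟩ := ha
    obtain ⟨γ, -, hγ⟩ := exists_left (L := N * q) (M := M) (B := starMat q N none)
      (by simp [h.det_starMat, h.prime.ne_zero]) (by rw [h.det_starMat, hdet])
      !![M 0 0 - M 0 1 * N, a * bezN q N + M 0 1 * bezQ q N;
        M 1 0 - M 1 1 * N, N * c * bezN q N + M 1 1 * bezQ q N]
      (by
        ext i j; fin_cases i <;> fin_cases j <;>
          simp [starMat, wMat, Matrix.mul_apply, Fin.sum_univ_two, ha, hd, hc']
        · linear_combination (-(q : ℤ) * a) * h.bez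
        · linear_combination -(M 0 1) * h.bez
        · linear_combination (-(q : ℤ) * N * c) * h.bez
        · linear_combination (-(q : ℤ) * d) * h.bez)
      (by
        refine ⟨c - d, ?_⟩
        simp only [Matrix.cons_val', Matrix.cons_val_zero, Matrix.cons_val_one, Matrix.of_apply,
          Matrix.cons_val_fin_one, hc', hd]
        push_cast; ring)
    exact ⟨γ, none, hγ⟩
  · have ha' : ((M 0 0 : ℤ) : ZMod q) ≠ 0 := fun h0 =>
      ha ((ZMod.intCast_zmod_eq_zero_iff_dvd _ _).mp h0)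
    set x : ZMod q := (M 0 1 : ZMod q) / (M 0 0 : ZMod q) with hx
    obtain ⟨k, hk⟩ : (q : ℤ) ∣ M 0 1 - M 0 0 * (x.val : ℤ) := by
      rw [← ZMod.intCast_zmod_eq_zero_iff_dvd]
      push_cast
      rw [ZMod.natCast_zmod_val, hx]
      field_simp
      ring
    obtain ⟨γ, -, hγ⟩ := exists_left (L := N * q) (M := M)
      (B := starMat q N (some ⟨x.val, x.val_lt⟩))
      (by simp [h.det_starMat, h.prime.ne_zero]) (by rw [h.det_starMat, hdet])
      !![M 0 0, k; M 1 0, d - N * c * x.val]
      (by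
        ext i j; fin_cases i <;> fin_cases j <;>
          simp [starMat, Matrix.mul_apply, Fin.sum_univ_two, hd, hc', -ZMod.natCast_val]
        · linear_combination hk
        · ring)
      (by
        refine ⟨c, ?_⟩
        simp only [Matrix.cons_val', Matrix.cons_val_zero, Matrix.cons_val_one, Matrix.of_apply,
          Matrix.cons_val_fin_one, hc']
        push_cast; ring)
    exact ⟨γ, some ⟨x.val, x.val_lt⟩, hγ⟩

theorem corMat_unique (i j : Option (Fin q)) (γ : Gamma0 (N * q))
    (e : intGL (corMat q N i) = mapGL ℝ (γ : SL(2, ℤ)) * intGL (corMat q N j)) : i = j := by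
  have e' := eq_mul_of_intGL (by simp [h.det_corMat]) (by simp [h.det_corMat]) _ e
  obtain ⟨k, hk⟩ : (N : ℤ) * q ∣ (γ : SL(2, ℤ)) 1 0 := by simpa using gamma0_dvd γ
  have hN0 : (N : ℤ) ≠ 0 := Int.natCast_ne_zero.mpr h.level_ne_zero
  have hq1 : ¬ (q : ℤ) ∣ 1 := h.prime_int.not_dvd_one
  rcases i with _ | x <;> rcases j with _ | y
  · rfl
  · have e1 := congrFun (congrFun e' 1) 1
    have e0 := congrFun (congrFun e' 1) 0
    simp [corMat, Matrix.mul_apply, Fin.sum_univ_two, hk] at e0 e1
    rw [← e1] at e0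
    exact absurd ⟨k + (y : ℕ), mul_left_cancel₀ hN0 (by linear_combination e0)⟩ hq1
  · have e1 := congrFun (congrFun e' 1) 1
    simp [corMat, Matrix.mul_apply, Fin.sum_univ_two, hk] at e1
    exact absurd ⟨(γ : SL(2, ℤ)) 1 1 - N * k * bezN q N, by linear_combination e1⟩ hq1
  · have e1 := congrFun (congrFun e' 1) 1
    have e0 := congrFun (congrFun e' 1) 0
    simp [corMat, Matrix.mul_apply, Fin.sum_univ_two, hk] at e0 e1
    rw [← e1, one_mul] at e0
    have hxy : ((x : ℕ) : ℤ) - (y : ℕ) = q * k :=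
      mul_left_cancel₀ hN0 (by linear_combination e0)
    congr 1
    ext
    have := Int.eq_zero_of_dvd_of_natAbs_lt_natAbs ⟨k, hxy⟩ (by omega)
    omega

theorem starMat_unique (i j : Option (Fin q)) (γ : Gamma0 (N * q))
    (e : intGL (starMat q N i) = mapGL ℝ (γ : SL(2, ℤ)) * intGL (starMat q N j)) : i = j := by
  have e' := eq_mul_of_intGL (by simp [h.det_starMat, h.prime.ne_zero])
    (by simp [h.det_starMat, h.prime.ne_zero]) _ e
  have hq1 : ¬ (q : ℤ) ∣ 1 := h.prime_int.not_dvd_one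
  have e0 := congrFun (congrFun e' 0) 0
  have e1 := congrFun (congrFun e' 0) 1
  rcases i with _ | x <;> rcases j with _ | y <;>
    simp [starMat, wMat, Matrix.mul_apply, Fin.sum_univ_two] at e0 e1
  · rfl
  · -- `q ∣ bezN`, impossible
    refine absurd ⟨bezQ q N - N * ((γ : SL(2, ℤ)) 0 1 + bezQ q N * (y : ℕ)), ?_⟩ hq1
    linear_combination (-1 : ℤ) * h.bez + (N : ℤ) * (y : ℕ) * e0 - (N : ℤ) * e1
  · exact absurd ⟨(γ : SL(2, ℤ)) 0 0 * bezQ q N + (γ : SL(2, ℤ)) 0 1 * N,
      by linear_combination e0⟩ hq1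
  · rw [← e0, one_mul] at e1
    congr 1
    ext
    have := Int.eq_zero_of_dvd_of_natAbs_lt_natAbs
      (n := ((x : ℕ) : ℤ) - (y : ℕ)) (d := (q : ℤ)) ⟨(γ : SL(2, ℤ)) 0 1, by linear_combination e1⟩
      (by omega)
    omega

/-- corestriction -/
def corSys : HeckeSystem (Gamma0 (N * q)) (Gamma0 N) (Option (Fin q)) :=
  mkSystem (fun i => intGL (corMat q N i)) (fun i => det_intGL_pos (by simp [h.det_corMat]))
    (fun γ i => by
      obtain ⟨c, j, hcj⟩ := h.exists_corMat (M := corMat q N i * ((γ : SL(2, ℤ)) : Matrix _ _ ℤ))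
        (by simp [h.det_corMat, (γ : SL(2, ℤ)).det_coe])
        (by
          obtain ⟨k, hk⟩ := gamma0_dvd γ
          rcases i with _ | x
          · exact ⟨(γ : SL(2, ℤ)) 0 0 + q * k, by
              simp [corMat, Matrix.mul_apply, Fin.sum_univ_two, hk]; ring⟩
          · exact ⟨(x : ℕ) * (γ : SL(2, ℤ)) 0 0 + k, by
              simp [corMat, Matrix.mul_apply, Fin.sum_univ_two, hk]; ring⟩)
      refine ⟨c, j, ?_⟩
      rw [mapGL_eq_intGL, ← intGL_mul (by simp [h.det_corMat]) (by simp [(γ : SL(2, ℤ)).det_coe])]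
      exact hcj)
    h.corMat_unique

/-- the second degeneracy correspondence -/
def starSys : HeckeSystem (Gamma0 (N * q)) (Gamma0 N) (Option (Fin q)) :=
  mkSystem (fun i => intGL (starMat q N i))
    (fun i => det_intGL_pos (by rw [h.det_starMat]; exact_mod_cast h.prime.pos))
    (fun γ i => by
      obtain ⟨c', hc'⟩ := gamma0_dvd γ
      obtain ⟨c, j, hcj⟩ := h.exists_starMat (M := starMat q N i * ((γ : SL(2, ℤ)) : Matrix _ _ ℤ))
        (by simp [h.det_starMat, (γ : SL(2, ℤ)).det_coe])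
        (by
          rcases i with _ | x
          · exact ⟨q * (γ : SL(2, ℤ)) 0 0 + q * c', by
              simp [starMat, wMat, Matrix.mul_apply, Fin.sum_univ_two, hc']; ring⟩
          · exact ⟨q * c', by
              simp [starMat, Matrix.mul_apply, Fin.sum_univ_two, hc']; ring⟩)
        (by
          rcases i with _ | x
          · exact ⟨N * (γ : SL(2, ℤ)) 0 0 + (γ : SL(2, ℤ)) 1 0, by
              simp [starMat, wMat, Matrix.mul_apply, Fin.sum_univ_two]; ring⟩
          · exact ⟨(γ : SL(2, ℤ)) 1 0, by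
              simp [starMat, Matrix.mul_apply, Fin.sum_univ_two]⟩)
        (by
          rcases i with _ | x
          · exact ⟨N * (γ : SL(2, ℤ)) 0 1 + (γ : SL(2, ℤ)) 1 1, by
              simp [starMat, wMat, Matrix.mul_apply, Fin.sum_univ_two]; ring⟩
          · exact ⟨(γ : SL(2, ℤ)) 1 1, by
              simp [starMat, Matrix.mul_apply, Fin.sum_univ_two]⟩)
      refine ⟨c, j, ?_⟩
      rw [mapGL_eq_intGL, ← intGL_mul (by simp [h.det_starMat, h.prime.ne_zero])
        (by simp [(γ : SL(2, ℤ)).det_coe])]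
      exact hcj)
    h.starMat_unique

omit h in
/-- restriction -/
def resSys (q N : ℕ) : HeckeSystem (Gamma0 N) (Gamma0 (N * q)) Unit :=
  unitSystem 1 (by simp) fun γ => ⟨⟨(γ : SL(2, ℤ)), by
    rw [Gamma0_mem, ZMod.intCast_zmod_eq_zero_iff_dvd]
    exact dvd_trans (by simp) (gamma0_dvd γ)⟩, by simp⟩

/-- conjugation by `diag(q, 1)` -/
def conjSys : HeckeSystem (Gamma0 N) (Gamma0 (N * q)) Unit :=
  unitSystem (intGL (alphaMat q)) (det_intGL_pos (by rw [h.det_alphaMat]; exact_mod_cast h.prime.pos))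
    fun γ => by
      obtain ⟨k, hk⟩ := gamma0_dvd γ
      push_cast at hk
      obtain ⟨c, -, hc⟩ := exists_left (L := N)
        (M := alphaMat q * ((γ : SL(2, ℤ)) : Matrix _ _ ℤ)) (B := alphaMat q)
        (by simp [h.det_alphaMat, h.prime.ne_zero]) (by simp [(γ : SL(2, ℤ)).det_coe])
        !![(γ : SL(2, ℤ)) 0 0, q * (γ : SL(2, ℤ)) 0 1; N * k, (γ : SL(2, ℤ)) 1 1]
        (by
          ext i j; fin_cases i <;> fin_cases j <;>
            simp [alphaMat, Matrix.mul_apply, Fin.sum_univ_two, hk] <;> ring)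
        (by simp)
      refine ⟨c, ?_⟩
      rw [mapGL_eq_intGL, ← intGL_mul (by simp [h.det_alphaMat, h.prime.ne_zero])
        (by simp [(γ : SL(2, ℤ)).det_coe])]
      exact hc

/-- the Atkin-Lehner operator -/
def wSys : HeckeSystem (Gamma0 (N * q)) (Gamma0 (N * q)) Unit :=
  unitSystem (intGL (wMat q N)) (det_intGL_pos (by rw [h.det_wMat]; exact_mod_cast h.prime.pos))
    fun γ => by
      obtain ⟨k, hk⟩ := gamma0_dvd γ
      push_cast at hk
      set a := (γ : SL(2, ℤ)) 0 0
      set b := (γ : SL(2, ℤ)) 0 1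
      set d := (γ : SL(2, ℤ)) 1 1
      set u := bezQ q N
      set v := bezN q N
      obtain ⟨c, -, hc⟩ := exists_left (L := N * q)
        (M := wMat q N * ((γ : SL(2, ℤ)) : Matrix _ _ ℤ)) (B := wMat q N)
        (by simp [h.det_wMat, h.prime.ne_zero]) (by simp [(γ : SL(2, ℤ)).det_coe])
        !![q * u * a - v * N * q * k - N * (q * u * b - v * d), (u * a - v * N * k) * v + u * (q * u * b - v * d);
          N * q * (a + q * k - N * b - d), N * a * v + q * N * k * v + u * (N * q * b + q * d)]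
        (by
          ext i j; fin_cases i <;> fin_cases j <;>
            simp [wMat, Matrix.mul_apply, Fin.sum_univ_two, hk, a, b, d, u, v]
          · linear_combination (-(q : ℤ) * (u * a - v * N * k)) * h.bez
          · linear_combination -((q : ℤ) * u * b - v * d) * h.bez
          · linear_combination (-(N : ℤ) * q * (a + q * k)) * h.bez
          · linear_combination (-(q : ℤ) * (N * b + d)) * h.bez)
        (by simp)
      refine ⟨c, ?_⟩
      rw [mapGL_eq_intGL, ← intGL_mul (by simp [h.det_wMat, h.prime.ne_zero])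
        (by simp [(γ : SL(2, ℤ)).det_coe])]
      exact hc

variable {A : Type*} [AddCommGroup A]

theorem cor_res (φ : Additive (Gamma0 N) →+ A) :
    h.corSys.apply ((resSys q N).apply φ) = (q + 1) • φ := by
  refine AddMonoidHom.ext fun x => ?_
  rw [← ofMul_toMul x]
  set γ := Additive.toMul x
  let R : HeckeSystem (Gamma0 N) (Gamma0 N) Unit :=
    unitSystem 1 (by simp) fun γ => ⟨γ, by simp⟩
  rw [comp_transfer R (resSys q N) h.corSys (fun _ _ => default) 1 (by simp) (fun i k => ?_)]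
  · have : ∀ p : Option (Fin q) × Unit,
        φ (Additive.ofMul (R.cocycle γ default)) = φ (Additive.ofMul γ) := fun _ => by
      rw [(R.eq_of_spec (γ := γ) (c := γ) (i := default) (j := default) (by simp [R, unitSystem, mkSystem])).2]
    rw [Finset.sum_congr rfl fun p _ => this p]
    simp
  · refine ⟨⟨⟨corMat q N i, h.det_corMat i⟩, ?_⟩, ?_⟩
    · rw [Gamma0_mem, ZMod.intCast_zmod_eq_zero_iff_dvd]
      rcases i with _ | x <;> simp [corMat]
    · simp [resSys, R, unitSystem, mkSystem, corSys, mapGL_eq_intGL]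

theorem exists_T_coset {M : Matrix (Fin 2) (Fin 2) ℤ} (hdet : M.det = q)
    (hN : (N : ℤ) ∣ M 1 0) : ∃ (γ : Gamma0 N) (i : Option (ZMod q)),
      intGL M = mapGL ℝ (γ : SL(2, ℤ)) * heckeRep q i := by
  obtain ⟨γ, i, e⟩ := exists_tMat_coset h.prime h.not_dvd hdet hN
  exact ⟨γ, i, by rw [e, heckeRep_eq_intGL h.prime.ne_zero]⟩

theorem cor_conj [NeZero N] (R : Type*) [Semiring R] [Module R A]
    (φ : Additive (Gamma0 N) →+ A) :
    h.corSys.apply (h.conjSys.apply φ) = homT h.prime h.not_dvd R φ := by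
  have : NeZero q := ⟨h.prime.ne_zero⟩
  have : Fact q.Prime := ⟨h.prime⟩
  refine AddMonoidHom.ext fun x => ?_
  rw [← ofMul_toMul x]
  set γ := Additive.toMul x
  have hM : ∀ i, ∃ (u : Gamma0 N) (j : Option (ZMod q)),
      intGL (alphaMat q * corMat q N i) = mapGL ℝ (u : SL(2, ℤ)) * heckeRep q j := fun i =>
    h.exists_T_coset (by simp [h.det_alphaMat, h.det_corMat])
      (by rcases i with _ | x <;> simp [alphaMat, corMat, Matrix.mul_apply, Fin.sum_univ_two])
  choose u σ hu using hM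
  have hσ : Injective σ := by
    intro i j hij
    have ei := hu i
    have ej := hu j
    rw [← hij] at ej
    have e : intGL (alphaMat q * corMat q N i) =
        mapGL ℝ ((u i * (u j)⁻¹ : Gamma0 N) : SL(2, ℤ)) * intGL (alphaMat q * corMat q N j) := by
      rw [ei, ej, Subgroup.coe_mul, InvMemClass.coe_inv, map_mul, map_inv, mul_assoc,
        inv_mul_cancel_left]
    have e' := eq_mul_of_intGL (by simp [h.det_alphaMat, h.det_corMat, h.prime.ne_zero])
      (by simp [h.det_alphaMat, h.det_corMat, h.prime.ne_zero]) _ e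
    set g : SL(2, ℤ) := ((u i * (u j)⁻¹ : Gamma0 N) : SL(2, ℤ))
    set ci : SL(2, ℤ) := ⟨corMat q N i, h.det_corMat i⟩
    set cj : SL(2, ℤ) := ⟨corMat q N j, h.det_corMat j⟩
    set δ : SL(2, ℤ) := ci * cj⁻¹
    have e1 : alphaMat q * (δ : Matrix (Fin 2) (Fin 2) ℤ) = (g : Matrix (Fin 2) (Fin 2) ℤ) * alphaMat q := by
      have : alphaMat q * (δ : Matrix (Fin 2) (Fin 2) ℤ) * (cj : Matrix (Fin 2) (Fin 2) ℤ)
          = (g : Matrix (Fin 2) (Fin 2) ℤ) * alphaMat q * (cj : Matrix (Fin 2) (Fin 2) ℤ) := by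
        rw [mul_assoc, ← coe_mul, inv_mul_cancel_right, mul_assoc]
        exact e'
      have := congrArg (· * ((cj⁻¹ : SL(2, ℤ)) : Matrix (Fin 2) (Fin 2) ℤ)) this
      simpa only [mul_assoc, ← coe_mul, mul_inv_cancel, inv_mul_cancel_right, coe_one, mul_one] using this
    have hδ : δ ∈ Gamma0 (N * q) := by
      rw [Gamma0_mem, ZMod.intCast_zmod_eq_zero_iff_dvd]
      have e10 := congrFun (congrFun e1 1) 0
      simp [alphaMat, Matrix.mul_apply, Fin.sum_univ_two] at e10
      rw [e10]; push_cast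
      exact mul_dvd_mul (gamma0_dvd (u i * (u j)⁻¹)) dvd_rfl
    refine h.corMat_unique i j ⟨δ, hδ⟩ ?_
    change intGL (ci : Matrix (Fin 2) (Fin 2) ℤ) = mapGL ℝ δ * intGL (cj : Matrix (Fin 2) (Fin 2) ℤ)
    rw [← mapGL_eq_intGL, ← mapGL_eq_intGL, ← map_mul, inv_mul_cancel_right]
  have hbij : Bijective σ := (Fintype.bijective_iff_injective_and_card σ).mpr ⟨hσ, by simp [ZMod.card]⟩
  rw [comp_transfer (systemT h.prime h.not_dvd) h.conjSys h.corSys (fun i _ => σ i) 1 (by simp)
    (fun i k => ⟨u i, by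
      simp only [one_mul]
      show intGL (alphaMat q) * intGL (corMat q N i) = _
      rw [← intGL_mul (by simp [h.det_alphaMat, h.prime.ne_zero]) (by simp [h.det_corMat]), hu i]
      rfl⟩)]
  show _ = (systemT h.prime h.not_dvd).apply φ (Additive.ofMul γ)
  rw [HeckeSystem.apply_apply, Fintype.sum_prod_type]
  simp only [Fintype.sum_unique]
  exact hbij.sum_comp fun j => φ (Additive.ofMul ((systemT h.prime h.not_dvd).cocycle γ j))

theorem star_res [NeZero N] (R : Type*) [Semiring R] [Module R A]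
    (φ : Additive (Gamma0 N) →+ A) :
    h.starSys.apply ((resSys q N).apply φ) = homT h.prime h.not_dvd R φ := by
  have : NeZero q := ⟨h.prime.ne_zero⟩
  have : Fact q.Prime := ⟨h.prime⟩
  refine AddMonoidHom.ext fun x => ?_
  rw [← ofMul_toMul x]
  set γ := Additive.toMul x
  let σ : Option (Fin q) → Option (ZMod q) := Option.map fun y => ((y : ℕ) : ZMod q)
  have hσ : Bijective σ := by
    refine (Fintype.bijective_iff_injective_and_card σ).mpr ⟨Option.map_injective ?_, by simp [ZMod.card]⟩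
    intro a b hab
    ext
    have := congrArg ZMod.val hab
    rwa [ZMod.val_cast_of_lt a.isLt, ZMod.val_cast_of_lt b.isLt] at this
  have hmem : (⟨corMat q N none, h.det_corMat none⟩ : SL(2, ℤ)) ∈ Gamma0 N := by
    refine Gamma0_mem.mpr ((ZMod.intCast_zmod_eq_zero_iff_dvd _ _).mpr ?_); simp [corMat]
  rw [comp_transfer (systemT h.prime h.not_dvd) (resSys q N) h.starSys (fun i _ => σ i) 1 (by simp)
    (fun i k => ?_)]
  · show _ = (systemT h.prime h.not_dvd).apply φ (Additive.ofMul γ)
    rw [HeckeSystem.apply_apply, Fintype.sum_prod_type]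
    simp only [Fintype.sum_unique]
    exact hσ.sum_comp fun j => φ (Additive.ofMul ((systemT h.prime h.not_dvd).cocycle γ j))
  · simp only [resSys, unitSystem, mkSystem, starSys, systemT, one_mul,
      heckeRep_eq_intGL h.prime.ne_zero]
    rcases i with _ | y
    · refine ⟨⟨_, hmem⟩, ?_⟩
      rw [mapGL_eq_intGL]
      show _ = intGL (corMat q N none) * intGL (tMat q none)
      rw [← intGL_mul (by simp [h.det_corMat]) (by simp [det_tMat, h.prime.ne_zero])]
      congr 1
      ext a b; fin_cases a <;> fin_cases b <;>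
        simp [starMat, wMat, corMat, tMat, Matrix.mul_apply, Fin.sum_univ_two, mul_comm]
    · refine ⟨1, ?_⟩
      simp [σ, starMat, tMat, ZMod.val_cast_of_lt y.isLt, -ZMod.natCast_val]

theorem star_conj (φ : Additive (Gamma0 N) →+ A) :
    h.starSys.apply (h.conjSys.apply φ) = (q + 1) • φ := by
  refine AddMonoidHom.ext fun x => ?_
  rw [← ofMul_toMul x]
  set γ := Additive.toMul x
  let R : HeckeSystem (Gamma0 N) (Gamma0 N) Unit :=
    unitSystem 1 (by simp) fun γ => ⟨γ, by simp⟩
  rw [comp_transfer R h.conjSys h.starSys (fun _ _ => default) (intGL !![(q : ℤ), 0; 0, (q : ℤ)])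
    (intGL_scalar_comm h.ne_zero) (fun i k => ?_)]
  · have : ∀ p : Option (Fin q) × Unit,
        φ (Additive.ofMul (R.cocycle γ default)) = φ (Additive.ofMul γ) := fun _ => by
      rw [(R.eq_of_spec (γ := γ) (c := γ) (i := default) (j := default) (by simp [R, unitSystem, mkSystem])).2]
    rw [Finset.sum_congr rfl fun p _ => this p]
    simp
  · have hz : (!![(q : ℤ), 0; 0, (q : ℤ)]).det ≠ 0 := by simp [Matrix.det_fin_two_of, h.prime.ne_zero]
    simp only [conjSys, R, unitSystem, mkSystem, starSys, mul_one]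
    rcases i with _ | y
    · refine ⟨⟨⟨!![(q : ℤ) * bezQ q N, -bezN q N; (N : ℤ), 1], by
        simp only [Matrix.det_fin_two_of]; linear_combination h.bez⟩, by
        rw [Gamma0_mem, ZMod.intCast_zmod_eq_zero_iff_dvd]; simp⟩, ?_⟩
      rw [mapGL_eq_intGL, ← intGL_mul (by simp [h.det_alphaMat, h.prime.ne_zero])
        (by simp [h.det_starMat, h.prime.ne_zero]), ← intGL_mul hz (by
          simp only [Matrix.det_fin_two_of, ne_eq]; intro h0
          have := h.bez; linarith)]
      congr 1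
      ext a b; fin_cases a <;> fin_cases b <;>
        simp [starMat, wMat, alphaMat, Matrix.mul_apply, Fin.sum_univ_two]
      all_goals ring
    · refine ⟨⟨⟨!![1, ((y : ℕ) : ℤ); 0, 1], by simp [Matrix.det_fin_two_of]⟩, by
        rw [Gamma0_mem, ZMod.intCast_zmod_eq_zero_iff_dvd]; simp⟩, ?_⟩
      rw [mapGL_eq_intGL, ← intGL_mul (by simp [h.det_alphaMat, h.prime.ne_zero])
        (by simp [h.det_starMat, h.prime.ne_zero]), ← intGL_mul hz (by simp [Matrix.det_fin_two_of])]
      congr 1
      ext a b; fin_cases a <;> fin_cases b <;>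
        simp [starMat, alphaMat, Matrix.mul_apply, Fin.sum_univ_two]

theorem res_star [NeZero (N * q)] (R : Type*) [Semiring R] [Module R A]
    (x : Additive (Gamma0 (N * q)) →+ A) :
    (resSys q N).apply (h.starSys.apply x) =
      homU h.prime.ne_zero (dvd_mul_left q N) R x + h.wSys.apply x := by
  refine AddMonoidHom.ext fun y => ?_
  rw [← ofMul_toMul y]
  set γ := Additive.toMul y
  have hle : (γ : SL(2, ℤ)) ∈ Gamma0 N := by
    rw [Gamma0_mem, ZMod.intCast_zmod_eq_zero_iff_dvd]
    exact dvd_trans (by simp) (gamma0_dvd γ)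
  have hres : ((resSys q N).cocycle γ default) = ⟨(γ : SL(2, ℤ)), hle⟩ :=
    ((resSys q N).eq_of_spec (i := default) (j := default)
      (by simp [resSys, unitSystem, mkSystem])).2
  rw [HeckeSystem.apply_apply (resSys q N), Fintype.sum_unique, hres, AddMonoidHom.add_apply,
    homU, HeckeSystem.op_apply, HeckeSystem.apply_apply h.starSys,
    HeckeSystem.apply_apply (systemU h.prime.ne_zero (dvd_mul_left q N)), Fintype.sum_option,
    add_comm]
  refine congrArg₂ (· + ·) (Finset.sum_congr rfl fun i _ => ?_) ?_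
  · have hrep : ∀ j, h.starSys.rep (some j) =
        (systemU (N := N * q) h.prime.ne_zero (dvd_mul_left q N)).rep j := fun j =>
      (heckeMatrix_eq_intGL h.prime.ne_zero (j : ℕ)).symm
    generalize hU : systemU (N := N * q) h.prime.ne_zero (dvd_mul_left q N) = U at hrep ⊢
    have e := U.spec γ i
    rw [← hrep, ← hrep] at e
    exact congrArg (fun c => x (Additive.ofMul c))
      (h.starSys.eq_of_spec (γ := ⟨(γ : SL(2, ℤ)), hle⟩) (i := some i) e).2
  · have hrep : h.starSys.rep none = h.wSys.rep default := rfl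
    rw [HeckeSystem.apply_apply, Fintype.sum_unique]
    generalize h.wSys = V at hrep ⊢
    have e := V.spec γ default
    rw [Subsingleton.elim (V.perm γ default) default, ← hrep] at e
    exact congrArg (fun c => x (Additive.ofMul c))
      (h.starSys.eq_of_spec (γ := ⟨(γ : SL(2, ℤ)), hle⟩) (i := none) (j := none) e).2

theorem cor_w (x : Additive (Gamma0 (N * q)) →+ A) :
    h.corSys.apply (h.wSys.apply x) = h.starSys.apply x := by
  refine AddMonoidHom.ext fun y => ?_
  rw [← ofMul_toMul y]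
  set γ := Additive.toMul y
  have hdW : ∀ i, (wMat q N * corMat q N i).det ≠ 0 := fun i => by
    simp [h.det_wMat, h.det_corMat, h.prime.ne_zero]
  have hM : ∀ i, ∃ (u : Gamma0 (N * q)) (j : Option (Fin q)),
      intGL (wMat q N * corMat q N i) = mapGL ℝ (u : SL(2, ℤ)) * intGL (starMat q N j) := fun i => by
    refine h.exists_starMat (by simp [h.det_wMat, h.det_corMat]) ?_ ?_ ?_ <;>
      rcases i with _ | x
    · exact ⟨q * bezQ q N + q, by simp [wMat, corMat, Matrix.mul_apply, Fin.sum_univ_two]; ring⟩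
    · exact ⟨q + q * (x : ℕ), by simp [wMat, corMat, Matrix.mul_apply, Fin.sum_univ_two]; ring⟩
    · exact ⟨N * bezQ q N + N, by simp [wMat, corMat, Matrix.mul_apply, Fin.sum_univ_two]; ring⟩
    · exact ⟨N + N * (x : ℕ), by simp [wMat, corMat, Matrix.mul_apply, Fin.sum_univ_two]; ring⟩
    · exact ⟨-(N * bezN q N) + q, by simp [wMat, corMat, Matrix.mul_apply, Fin.sum_univ_two]; ring⟩
    · exact ⟨1, by simp [wMat, corMat, Matrix.mul_apply, Fin.sum_univ_two]⟩
  choose u σ hu using hM
  have hσ : Injective σ := by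
    intro i j hij
    have ei := hu i
    have ej := hu j
    rw [← hij] at ej
    set g : Gamma0 (N * q) := u i * (u j)⁻¹ with hg
    have e : intGL (wMat q N * corMat q N i) =
        mapGL ℝ (g : SL(2, ℤ)) * intGL (wMat q N * corMat q N j) := by
      rw [ei, ej, hg, Subgroup.coe_mul, InvMemClass.coe_inv, map_mul, map_inv, mul_assoc,
        inv_mul_cancel_left]
    have e' := eq_mul_of_intGL (hdW i) (hdW j) _ e
    set ci : SL(2, ℤ) := ⟨corMat q N i, h.det_corMat i⟩
    set cj : SL(2, ℤ) := ⟨corMat q N j, h.det_corMat j⟩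
    set δ : SL(2, ℤ) := ci * cj⁻¹
    have e1 : wMat q N * (δ : Matrix (Fin 2) (Fin 2) ℤ) =
        ((g : SL(2, ℤ)) : Matrix (Fin 2) (Fin 2) ℤ) * wMat q N := by
      have : wMat q N * (δ : Matrix (Fin 2) (Fin 2) ℤ) * (cj : Matrix (Fin 2) (Fin 2) ℤ)
          = ((g : SL(2, ℤ)) : Matrix (Fin 2) (Fin 2) ℤ) * wMat q N * (cj : Matrix (Fin 2) (Fin 2) ℤ) := by
        rw [mul_assoc, ← coe_mul, inv_mul_cancel_right, mul_assoc]
        exact e'
      have := congrArg (· * ((cj⁻¹ : SL(2, ℤ)) : Matrix (Fin 2) (Fin 2) ℤ)) this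
      simpa only [mul_assoc, ← coe_mul, mul_inv_cancel, inv_mul_cancel_right, coe_one, mul_one] using this
    have hδ : δ ∈ Gamma0 (N * q) := by
      rw [Gamma0_mem, ZMod.intCast_zmod_eq_zero_iff_dvd]
      have e00 := congrFun (congrFun e1 0) 0
      simp [wMat, Matrix.mul_apply, Fin.sum_univ_two] at e00
      have hdvd : (q : ℤ) ∣ δ 1 0 := by
        refine (h.prime_int.dvd_or_dvd (a := bezN q N)
          ⟨bezQ q N * δ 0 0 - (g : SL(2, ℤ)) 0 0 * bezQ q N - (g : SL(2, ℤ)) 0 1 * N,
            by linear_combination -e00⟩).resolve_left fun hv => ?_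
        obtain ⟨w, hw⟩ := hv
        exact h.prime_int.not_dvd_one ⟨bezQ q N + w * N, by rw [← h.bez, hw]; ring⟩
      have hN : (N : ℤ) ∣ δ 1 0 := by
        have hmem : ∀ i, (⟨corMat q N i, h.det_corMat i⟩ : SL(2, ℤ)) ∈ Gamma0 N := fun i => by
          refine Gamma0_mem.mpr ((ZMod.intCast_zmod_eq_zero_iff_dvd _ _).mpr ?_)
          rcases i with _ | x <;> simp [corMat]
        exact gamma0_dvd (⟨δ, Subgroup.mul_mem _ (hmem i) (Subgroup.inv_mem _ (hmem j))⟩ : Gamma0 N)
      push_cast
      exact h.isCoprime.symm.mul_dvd hN hdvd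
    refine h.corMat_unique i j ⟨δ, hδ⟩ ?_
    change intGL (ci : Matrix (Fin 2) (Fin 2) ℤ) = mapGL ℝ δ * intGL (cj : Matrix (Fin 2) (Fin 2) ℤ)
    rw [← mapGL_eq_intGL, ← mapGL_eq_intGL, ← map_mul, inv_mul_cancel_right]
  have hbij : Bijective σ := Finite.injective_iff_bijective.mp hσ
  rw [comp_transfer h.starSys h.wSys h.corSys (fun i _ => σ i) 1 (by simp)
    (fun i k => ⟨u i, by
      simp only [one_mul]
      show intGL (wMat q N) * intGL (corMat q N i) = _
      rw [← intGL_mul (by simp [h.det_wMat, h.prime.ne_zero]) (by simp [h.det_corMat]), hu i]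
      rfl⟩)]
  rw [HeckeSystem.apply_apply, Fintype.sum_prod_type]
  simp only [Fintype.sum_unique]
  exact hbij.sum_comp fun j => x (Additive.ofMul (h.starSys.cocycle γ j))

theorem w_w (x : Additive (Gamma0 (N * q)) →+ A) : h.wSys.apply (h.wSys.apply x) = x := by
  refine AddMonoidHom.ext fun y => ?_
  rw [← ofMul_toMul y]
  set γ := Additive.toMul y
  let R : HeckeSystem (Gamma0 (N * q)) (Gamma0 (N * q)) Unit :=
    unitSystem 1 (by simp) fun γ => ⟨γ, by simp⟩
  set u := bezQ q N
  set v := bezN q N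
  set m : Matrix (Fin 2) (Fin 2) ℤ :=
    !![q * u ^ 2 - v * N, -v * (u + 1); N * (q * u + q), q - N * v] with hm
  have hd : m.det = 1 := by
    simp only [hm, Matrix.det_fin_two_of]
    linear_combination (h.bez) * ((q : ℤ) * u + N * v + 1)
  rw [comp_transfer R h.wSys h.wSys (fun _ _ => default) (intGL !![(q : ℤ), 0; 0, (q : ℤ)])
    (intGL_scalar_comm h.ne_zero) (fun i k => ⟨⟨⟨m, hd⟩, by
      rw [Gamma0_mem, ZMod.intCast_zmod_eq_zero_iff_dvd]
      refine ⟨u + 1, ?_⟩
      simp [hm]; ring⟩, ?_⟩)]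
  · rw [Fintype.sum_prod_type, Fintype.sum_unique, Fintype.sum_unique,
      (R.eq_of_spec (γ := γ) (c := γ) (i := default) (j := default) (by simp [R, unitSystem, mkSystem])).2]
  · simp only [wSys, R, unitSystem, mkSystem, mul_one]
    rw [mapGL_eq_intGL, ← intGL_mul (by simp [h.det_wMat, h.prime.ne_zero])
      (by simp [h.det_wMat, h.prime.ne_zero]), ← intGL_mul (by simp [Matrix.det_fin_two_of, h.prime.ne_zero])
      (by simp [hd])]
    congr 1
    ext a b; fin_cases a <;> fin_cases b <;>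
      simp [wMat, hm, u, v, Matrix.mul_apply, Fin.sum_univ_two] <;> ring

/-- On the common kernel of the two degeneracy operators the square of `U_q` is trivial. -/
theorem homU_sq_eq [NeZero (N * q)] (R : Type*) [Semiring R] [Module R A]
    {x : Additive (Gamma0 (N * q)) →+ A} (h1 : h.corSys.apply x = 0) (h2 : h.starSys.apply x = 0) :
    homU h.prime.ne_zero (dvd_mul_left q N) R (homU h.prime.ne_zero (dvd_mul_left q N) R x) = x := by
  have hres : (resSys q N).apply (0 : Additive (Gamma0 N) →+ A) = 0 :=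
    ((resSys q N).op ℕ).map_zero
  have e1 := h.res_star R x
  rw [h2, hres] at e1
  have hwx : h.starSys.apply (h.wSys.apply x) = 0 := by
    rw [← h.cor_w (h.wSys.apply x), h.w_w, h1]
  have e2 := h.res_star R (h.wSys.apply x)
  rw [hwx, hres, h.w_w] at e2
  rw [eq_neg_of_add_eq_zero_left e1.symm, map_neg, eq_neg_of_add_eq_zero_left e2.symm, neg_neg]

end RaiseData

end Fermat.Agent.LevelRaising
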